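import Fermat.Agent.FunctionFieldRR.Basic

/-!
# Existence of places, residue fields

Every proper valuation subring containing the constants is a place; poles exist; residue fields
are equal to the algebraically closed constant field.
-/

set_option autoImplicit false

noncomputable section

open AlgebraicCurve IntermediateField Polynomial
open scoped IntermediateField.algebraAdjoinAdjoin

namespace Fermat.Agent.FunctionFieldRR

variable {K F : Type*} [Field K] [Field F] [Algebra K F]

/-- Elements are independent over `K(x)` if there is no relation with polynomial coefficients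
not all vanishing at `0`. -/
theorem linearIndependent_adjoin_simple {ι : Type*} [Fintype ι] {x : F} (hx0 : x ≠ 0)
    (s : ι → F)
    (h : ∀ φ : ι → K[X], ∑ i, aeval x (φ i) * s i = 0 → ∀ i, (φ i).coeff 0 = 0) :
    LinearIndependent K⟮x⟯ s := by
  rw [← LinearIndependent.iff_fractionRing (R := Algebra.adjoin K ({x} : Set F))]
  rw [Fintype.linearIndependent_iff]
  intro g hg
  have hmem : ∀ i, ∃ φ : K[X], aeval x φ = (g i : F) := fun i => by
    exact (SetLike.ext_iff.mp (Algebra.adjoin_singleton_eq_range_aeval K x) _).mp (g i).2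
  choose φ hφ using hmem
  have hrel : ∑ i, aeval x (φ i) * s i = 0 := by
    simpa [hφ, Algebra.smul_def] using hg
  suffices hφ0 : ∀ (n : ℕ) (i : ι), (φ i).coeff n = 0 by
    intro i
    have : φ i = 0 := Polynomial.ext fun n => by simpa using hφ0 n i
    exact Subtype.ext (by rw [← hφ i, this]; simp)
  intro n
  induction n using Nat.strong_induction_on with
  | _ n ih =>
    have hdvd : ∀ i, X ^ n ∣ φ i := fun i =>
      Polynomial.X_pow_dvd_iff.2 fun d hd => ih d hd i
    choose ψ hψ using hdvd
    have hrel' : ∑ i, aeval x (ψ i) * s i = 0 := by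
      have : x ^ n * ∑ i, aeval x (ψ i) * s i = 0 := by
        rw [← hrel, Finset.mul_sum]
        exact Finset.sum_congr rfl fun i _ => by
          rw [hψ i, map_mul, map_pow, aeval_X]; ring
      exact (mul_eq_zero.1 this).resolve_left (pow_ne_zero _ hx0)
    intro i
    have h2 : (X ^ n * ψ i).coeff (0 + n) = (ψ i).coeff 0 := coeff_X_pow_mul _ n 0
    rw [zero_add] at h2
    rw [hψ i, h2]
    exact h ψ hrel' i

section ValuationSubringLemmas

variable (O : ValuationSubring F) (hK : ∀ a : K, algebraMap K F a ∈ O)

include hK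

theorem valuation_algebraMap {a : K} (ha : a ≠ 0) : O.valuation (algebraMap K F a) = 1 := by
  have h1 := (O.valuation_le_one_iff _).2 (hK a)
  have h2 := (O.valuation_le_one_iff _).2 (hK a⁻¹)
  rw [map_inv₀, map_inv₀] at h2
  refine le_antisymm h1 ?_
  have : O.valuation (algebraMap K F a) ≠ 0 := by simpa using ha
  exact (inv_le_one₀ (zero_lt_iff.2 this)).1 h2

theorem aeval_mem {x : F} (hx : x ∈ O) (p : K[X]) : aeval x p ∈ O := by
  rw [aeval_eq_sum_range]
  refine sum_mem fun i _ => ?_
  rw [Algebra.smul_def]
  exact mul_mem (hK _) (pow_mem hx i)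

theorem transcendental_of_valuation_lt_one [IsAlgClosed K] {f : F} (hf : f ≠ 0)
    (h : O.valuation f < 1) : Transcendental K f := by
  refine (eq_algebraMap_or_transcendental f).resolve_left fun ⟨c, hc⟩ => ?_
  subst hc
  rw [valuation_algebraMap O hK (by simpa using hf)] at h
  exact lt_irrefl _ h

theorem finite_valuation_Ico [IsAlgClosed K] [IsFunctionField K F] {x : F} (hx0 : x ≠ 0)
    (hx : O.valuation x < 1) :
    {γ | γ ∈ Set.range O.valuation ∧ O.valuation x ≤ γ ∧ γ < 1}.Finite := by
  have := finiteDimensional_adjoin (transcendental_of_valuation_lt_one O hK hx0 hx)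
  by_contra hinf
  obtain ⟨T, hT, hcard⟩ := Set.Infinite.exists_subset_card_eq hinf (Module.finrank K⟮x⟯ F + 1)
  have hT' : ∀ γ : T, (∃ y, O.valuation y = γ) ∧ O.valuation x ≤ γ ∧
      (γ : O.ValueGroup) < 1 := fun γ => hT γ.2
  choose s hs using fun γ => (hT' γ).1
  have hlow := fun γ => (hT' γ).2.1
  have hup := fun γ => (hT' γ).2.2
  have hind : LinearIndependent K⟮x⟯ s := by
    refine linearIndependent_adjoin_simple hx0 s fun φ hrel => ?_
    by_contra hne
    classical
    push Not at hne
    obtain ⟨j, hj, hjmax⟩ := Finset.exists_max_image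
      (Finset.univ.filter fun i => (φ i).coeff 0 ≠ 0) (fun i : T => (i : O.ValueGroup))
      (by obtain ⟨i, hi⟩ := hne; exact ⟨i, by simpa using hi⟩)
    simp only [Finset.mem_filter, Finset.mem_univ, true_and] at hj hjmax
    have hxO : x ∈ O := (O.valuation_le_one_iff _).1 hx.le
    have hle : ∀ p : K[X], O.valuation (aeval x p) ≤ 1 := fun p =>
      (O.valuation_le_one_iff _).2 (aeval_mem O hK hxO p)
    have hx' : 0 < O.valuation x := zero_lt_iff.2 (by simpa using hx0)
    have hterm : ∀ i, (φ i).coeff 0 = 0 → O.valuation (aeval x (φ i)) ≤ O.valuation x := by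
      intro i hi
      obtain ⟨g, hg⟩ := X_dvd_iff.2 hi
      rw [hg, map_mul, aeval_X, map_mul]
      exact mul_le_of_le_one_right' (hle g)
    have hjv : O.valuation (aeval x (φ j)) = 1 := by
      have hc := valuation_algebraMap O hK hj
      have : aeval x (φ j) = algebraMap K F ((φ j).coeff 0) + x * aeval x (φ j).divX := by
        conv_lhs => rw [← X_mul_divX_add (φ j)]
        rw [map_add, map_mul, aeval_X, aeval_C, add_comm]
      rw [this, Valuation.map_add_eq_of_lt_left, hc]
      rw [hc, map_mul]
      exact (mul_le_of_le_one_right' (hle _)).trans_lt hx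
    have := Valuation.map_sum_eq_of_lt O.valuation (s := Finset.univ)
      (f := fun i => aeval x (φ i) * s i) (j := j) (Finset.mem_univ _) ?_
    · rw [hrel, map_zero, map_mul, hjv, one_mul, hs] at this
      exact absurd this (hx'.trans_le (hlow j)).ne
    · intro i hi
      have hne : i ≠ j := by simpa using hi
      simp only [map_mul, hjv, one_mul, hs]
      by_cases hi0 : (φ i).coeff 0 = 0
      · calc O.valuation (aeval x (φ i)) * i ≤ O.valuation x * i :=
              mul_le_mul_left (hterm i hi0) _
          _ < O.valuation x * 1 := mul_lt_mul_of_pos_left (hup i) hx'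
          _ ≤ j := by rw [mul_one]; exact hlow j
      · refine (mul_le_of_le_one_left' (hle _)).trans_lt (lt_of_le_of_ne (hjmax i hi0) ?_)
        exact fun h => hne (Subtype.ext h)
  have := hind.fintype_card_le_finrank
  simp [hcard] at this

/-- A proper valuation subring containing the constants is a principal ideal ring. -/
theorem isPrincipalIdealRing_valuationSubring [IsAlgClosed K] [IsFunctionField K F]
    (hO : O ≠ ⊤) : IsPrincipalIdealRing O := by
  -- an element of maximal valuation less than one
  obtain ⟨f, hf0, hf⟩ : ∃ f : F, f ≠ 0 ∧ O.valuation f < 1 := by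
    obtain ⟨g, hg⟩ : ∃ g, g ∉ O := by
      by_contra! h
      exact hO (top_unique fun g _ => h g)
    have hg0 : g ≠ 0 := fun h => hg (h ▸ zero_mem O)
    refine ⟨g⁻¹, inv_ne_zero hg0, ?_⟩
    rw [map_inv₀]
    refine (inv_lt_one₀ (zero_lt_iff.2 (by simpa using hg0))).2 ?_
    rwa [← not_le, O.valuation_le_one_iff]
  have hfin := finite_valuation_Ico O hK hf0 hf
  obtain ⟨γ, hγ, hmax⟩ := hfin.exists_maximalFor id _ ⟨O.valuation f, ⟨⟨f, rfl⟩, le_rfl, hf⟩⟩
  obtain ⟨⟨π, rfl⟩, hfπ, hπ⟩ := hγ
  have hπ0 : π ≠ 0 := by
    rintro rfl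
    rw [map_zero] at hfπ
    exact hf0 (by simpa using le_zero_iff.1 hfπ)
  have htop : ∀ g : F, O.valuation g < 1 → O.valuation g ≤ O.valuation π := by
    intro g hg
    by_contra! hlt
    exact (hmax (j := O.valuation g) ⟨⟨g, rfl⟩, hfπ.trans hlt.le, hg⟩ hlt.le).not_gt hlt
  have hπO : π ∈ O := (O.valuation_le_one_iff _).1 hπ.le
  refine (IsDiscreteValuationRing.ofHasUnitMulPowIrreducibleFactorization
    ⟨⟨π, hπO⟩, ?_, ?_⟩).toIsPrincipalIdealRing
  · constructor
    · rw [O.valuation_eq_one_iff]
      exact hπ.ne
    · intro a b hab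
      by_contra! hcon
      rw [O.valuation_eq_one_iff, O.valuation_eq_one_iff] at hcon
      have ha := (O.valuation_le_one a).lt_of_ne hcon.1
      have hb := (O.valuation_le_one b).lt_of_ne hcon.2
      have h1 : O.valuation π = O.valuation a * O.valuation b := by
        rw [← map_mul]; exact congrArg O.valuation (congrArg Subtype.val hab)
      have h2 : O.valuation π ≤ O.valuation π * O.valuation b := by
        calc O.valuation π = O.valuation a * O.valuation b := h1
          _ ≤ O.valuation π * O.valuation b := mul_le_mul_left (htop _ ha) _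
      have hpos : 0 < O.valuation π := zero_lt_iff.2 (by simpa using hπ0)
      exact absurd h2 (not_le.2 (mul_lt_of_lt_one_right hpos hb))
  · intro g hg
    have hg0 : (g : F) ≠ 0 := by simpa using hg
    rcases (O.valuation_le_one g).lt_or_eq with hlt | heq
    · -- powers of `π` cannot all lie above `g`
      have hpos : 0 < O.valuation π := zero_lt_iff.2 (by simpa using hπ0)
      have hex : ∃ k, O.valuation (π ^ k) < O.valuation g := by
        by_contra! hall
        refine (finite_valuation_Ico O hK hg0 hlt).not_infinite ?_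
        refine Set.infinite_of_injective_forall_mem (f := fun k : ℕ => O.valuation (π ^ (k + 1)))
          ?_ fun k => ⟨⟨_, rfl⟩, hall _, ?_⟩
        · intro a b hab
          simp only [map_pow] at hab
          exact Nat.succ_injective ((pow_right_strictAnti₀ hpos hπ).injective hab)
        · rw [map_pow]; exact pow_lt_one₀ hpos.le hπ k.succ_ne_zero
      obtain ⟨n, hn, hn'⟩ : ∃ n, O.valuation g ≤ O.valuation (π ^ n) ∧
          O.valuation (π ^ (n + 1)) < O.valuation g := by
        have hfind := Nat.find_spec hex
        rcases hk : Nat.find hex with _ | n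
        · rw [hk, pow_zero, map_one] at hfind
          exact absurd hlt hfind.not_gt
        · exact ⟨n, not_lt.1 (Nat.find_min hex (by omega)), hk ▸ hfind⟩
      have hn0 : π ^ n ≠ 0 := pow_ne_zero _ hπ0
      have hu : O.valuation ((g : F) / π ^ n) = 1 := by
        have hle : O.valuation ((g : F) / π ^ n) ≤ 1 := by
          rw [map_div₀]
          exact div_le_one₀ (zero_lt_iff.2 (by simpa using hn0)) |>.2 hn
        refine hle.lt_or_eq.resolve_left fun hlt' => hn'.not_ge ?_
        calc O.valuation g = O.valuation (π ^ n) * O.valuation ((g : F) / π ^ n) := by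
              rw [← map_mul, mul_div_cancel₀ _ hn0]
          _ ≤ O.valuation (π ^ n) * O.valuation π := mul_le_mul_right (htop _ hlt') _
          _ = O.valuation (π ^ (n + 1)) := by rw [pow_succ π n, map_mul]
      have hu' : IsUnit (⟨(g : F) / π ^ n, (O.valuation_le_one_iff _).1 hu.le⟩ : O) :=
        (O.valuation_eq_one_iff _).2 hu
      refine ⟨n, hu'.unit, Subtype.ext ?_⟩
      simp [mul_div_cancel₀ _ hn0]
    · refine ⟨0, ?_⟩
      rw [pow_zero]
      exact associated_one_iff_isUnit.2 ((O.valuation_eq_one_iff _).2 heq) |>.symm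

/-- The place given by a proper valuation subring containing the constants. -/
def placeOfValuationSubring [IsAlgClosed K] [IsFunctionField K F] (hO : O ≠ ⊤) : Place K F where
  toValuationSubring := O
  algebraMap_mem' := hK
  ne_top' := hO
  isPrincipalIdealRing' := isPrincipalIdealRing_valuationSubring O hK hO

end ValuationSubringLemmas

section Poles

variable [IsAlgClosed K] [IsFunctionField K F]

/-- A transcendental element has a pole. -/
theorem exists_ord_neg {f : F} (hf : Transcendental K f) : ∃ P : Place K F, P.ord f < 0 := by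
  have hf0 : f ≠ 0 := fun h => hf (h ▸ isAlgebraic_zero)
  set A := (Algebra.adjoin K ({f⁻¹} : Set F)).toSubring
  have hfA : f⁻¹ ∈ A := Algebra.self_mem_adjoin_singleton K f⁻¹
  have hI : Ideal.span {(⟨f⁻¹, hfA⟩ : A)} ≠ ⊤ := by
    rw [Ne, Ideal.span_singleton_eq_top]
    intro hu
    obtain ⟨⟨b, hb⟩, hb'⟩ := isUnit_iff_exists_inv.1 hu
    have hbf : f⁻¹ * b = 1 := congrArg Subtype.val hb'
    have hb'' : b ∈ Algebra.adjoin K ({f⁻¹} : Set F) := hb
    rw [Algebra.adjoin_singleton_eq_range_aeval] at hb''
    obtain ⟨p, rfl⟩ := hb''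
    rw [AlgHom.toRingHom_eq_coe, AlgHom.coe_toRingHom] at hbf
    have hinv : Transcendental K f⁻¹ := fun h => hf (by simpa using h.inv)
    have := (transcendental_iff.1 hinv) (X * p - 1) (by simp [hbf])
    have := congrArg (fun q : K[X] => q.coeff 0) this
    simp at this
  obtain ⟨O, hAO, hIO⟩ := Ideal.image_subset_nonunits_valuationSubring _ hI
  have hK : ∀ a : K, algebraMap K F a ∈ O := fun a =>
    hAO (Subalgebra.algebraMap_mem _ a : algebraMap K F a ∈ Algebra.adjoin K ({f⁻¹} : Set F))
  have hv : O.valuation f⁻¹ < 1 := by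
    rw [← O.mem_nonunits_iff]
    exact hIO ⟨⟨f⁻¹, hfA⟩, Ideal.mem_span_singleton_self _, rfl⟩
  have hfO : f ∉ O := by
    intro h
    have hpos : 0 < O.valuation f := zero_lt_iff.2 (by simpa using hf0)
    rw [map_inv₀, inv_lt_one₀ hpos] at hv
    exact hv.not_ge ((O.valuation_le_one_iff _).2 h)
  refine ⟨placeOfValuationSubring O hK fun h => hfO (h ▸ ValuationSubring.mem_top f), ?_⟩
  exact lt_of_not_ge fun h => hfO ((ord_nonneg_iff _ _).1 h)

/-- A transcendental element has a zero. -/
theorem exists_ord_pos {f : F} (hf : Transcendental K f) : ∃ P : Place K F, 0 < P.ord f := by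
  obtain ⟨P, hP⟩ := exists_ord_neg (f := f⁻¹) fun h => hf (by simpa using h.inv)
  exact ⟨P, by rw [P.ord_inv] at hP; omega⟩

/-- Functions without poles are constant. -/
theorem exists_algebraMap_eq_of_forall_ord_nonneg {f : F} (h : ∀ P : Place K F, 0 ≤ P.ord f) :
    ∃ c : K, f = algebraMap K F c :=
  (eq_algebraMap_or_transcendental f).resolve_right fun hf => by
    obtain ⟨P, hP⟩ := exists_ord_neg hf
    exact (h P).not_gt hP

instance : Nonempty (Place K F) := by
  obtain ⟨x, hx, -⟩ := IsFunctionField.exists_transcendental (K := K) (F := F)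
  exact ⟨(exists_ord_neg hx).choose⟩

/-- Every regular function is congruent to a unique constant at a place. -/
theorem exists_residue (P : Place K F) {f : F} (hf : f ∈ P.toValuationSubring) :
    ∃ c : K, VanishesTo P 1 (f - algebraMap K F c) := by
  by_contra! hcon
  obtain ⟨t, ht0, ht⟩ := exists_ord_eq_one P
  have := finiteDimensional_adjoin (transcendental_of_ord_ne_zero P (f := t) (by omega))
  have hunit : ∀ c : K, f - algebraMap K F c ≠ 0 ∧ P.ord (f - algebraMap K F c) = 0 := by
    intro c
    have h := hcon c
    rw [VanishesTo, not_or, not_le] at h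
    have := ord_nonneg_of_mem P (sub_mem hf (P.algebraMap_mem' c))
    exact ⟨h.1, by omega⟩
  have hroot : ∀ p : K[X], p ≠ 0 → ¬ VanishesTo P 1 (aeval f p) := by
    intro p
    induction hd : p.natDegree using Nat.strong_induction_on generalizing p with
    | _ d ih =>
      intro hp hvan
      rcases Nat.eq_zero_or_pos d with rfl | hdpos
      · rw [eq_C_of_natDegree_eq_zero hd, aeval_C] at hvan
        rcases hvan with h | h
        · exact hp (by rw [eq_C_of_natDegree_eq_zero hd, (map_eq_zero _).1 h, map_zero])
        · rw [ord_algebraMap] at h; omega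
      · obtain ⟨c, hc⟩ := IsAlgClosed.exists_root p
          (fun h => by rw [natDegree_eq_zero_iff_degree_le_zero.2 h.le] at hd; omega)
        obtain ⟨q, rfl⟩ := dvd_iff_isRoot.2 hc
        have hq : q ≠ 0 := right_ne_zero_of_mul hp
        rw [natDegree_mul (X_sub_C_ne_zero c) hq, natDegree_X_sub_C] at hd
        refine ih q.natDegree (by omega) q rfl hq ?_
        rw [map_mul, map_sub, aeval_X, aeval_C] at hvan
        obtain ⟨hu0, hu⟩ := hunit c
        rcases hvan with h | h
        · exact Or.inl ((mul_eq_zero.1 h).resolve_left hu0)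
        · rcases eq_or_ne (aeval f q) 0 with h0 | h0
          · exact Or.inl h0
          · rw [P.ord_mul hu0 h0, hu, zero_add] at h
            exact Or.inr h
  set N := Module.finrank K⟮t⟯ F
  have hind : LinearIndependent K⟮t⟯ fun i : Fin (N + 1) => f ^ (i : ℕ) := by
    refine linearIndependent_adjoin_simple ht0 _ fun φ hrel i => ?_
    by_contra hne
    refine hroot (∑ j : Fin (N + 1), C ((φ j).coeff 0) * X ^ (j : ℕ)) (fun h => hne ?_) ?_
    · have := congrArg (fun p : K[X] => p.coeff i) h
      simpa [coeff_X_pow, Fin.val_inj, Finset.sum_ite_eq, Finset.sum_ite_eq'] using this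
    · have hrhs : aeval f (∑ j : Fin (N + 1), C ((φ j).coeff 0) * X ^ (j : ℕ)) =
          - ∑ j : Fin (N + 1), t * aeval t (φ j).divX * f ^ (j : ℕ) := by
        rw [eq_neg_iff_add_eq_zero, map_sum, ← Finset.sum_add_distrib, ← hrel]
        refine Finset.sum_congr rfl fun j _ => ?_
        conv_rhs => rw [← X_mul_divX_add (φ j)]
        simp only [map_add, map_mul, aeval_C, map_pow, aeval_X]
        ring
      rw [hrhs]
      refine (VanishesTo.sum _ _ fun j _ => ?_).neg
      have h1 : VanishesTo P 1 t := Or.inr ht.ge
      have h2 : VanishesTo P 0 (aeval t (φ j).divX * f ^ (j : ℕ)) :=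
        (vanishesTo_zero_iff P).2 (mul_mem (aeval_mem P.toValuationSubring P.algebraMap_mem'
          ((ord_nonneg_iff _ _).1 (by omega)) _) (pow_mem hf _))
      simpa [mul_assoc] using h1.mul h2
  have := hind.fintype_card_le_finrank
  simp [N] at this

omit [IsAlgClosed K] [IsFunctionField K F] in
theorem residue_unique (P : Place K F) {f : F} {c d : K}
    (hc : VanishesTo P 1 (f - algebraMap K F c)) (hd : VanishesTo P 1 (f - algebraMap K F d)) :
    c = d := by
  have := hc.sub hd
  rw [sub_sub_sub_cancel_left, ← map_sub] at this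
  rcases this with h | h
  · exact (sub_eq_zero.1 ((map_eq_zero (algebraMap K F)).1 h)).symm
  · rw [ord_algebraMap] at h; omega

theorem residueField_algebraMap_surjective (P : Place K F) :
    Function.Surjective (algebraMap K P.ResidueField) := by
  intro z
  obtain ⟨⟨f, hf⟩, rfl⟩ := IsLocalRing.residue_surjective z
  obtain ⟨c, hc⟩ := exists_residue P hf
  refine ⟨c, ?_⟩
  show IsLocalRing.residue _ (algebraMap K P.toValuationSubring c) = _
  rw [eq_comm, ← sub_eq_zero, ← map_sub, IsLocalRing.residue_eq_zero_iff,
    IsLocalRing.mem_maximalIdeal, mem_nonunits_iff]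
  intro hu
  obtain ⟨u, hu⟩ := hu
  have := P.ord_coe_unit u
  rw [hu] at this
  rcases hc with h | h
  · apply u.ne_zero
    rw [hu]
    exact Subtype.ext h
  · change P.ord (f - algebraMap K F c) = 0 at this
    omega

theorem deg_eq_one (P : Place K F) : P.deg = 1 := by
  have hbij : Function.Bijective (algebraMap K P.ResidueField) :=
    ⟨(algebraMap K P.ResidueField).injective, residueField_algebraMap_surjective P⟩
  show Module.finrank K P.ResidueField = 1
  rw [← Module.finrank_self K]
  exact ((AlgEquiv.ofBijective (Algebra.ofId K P.ResidueField) hbij).toLinearEquiv.finrank_eq).symm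

theorem degree_eq_sum (D : Divisor K F) : Divisor.degree D = D.sum fun _ n => n := by
  induction D using Finsupp.induction with
  | zero => simp
  | single_add v n D hv hn ih =>
    rw [map_add, Divisor.degree_single, ih, Finsupp.sum_add_index' (fun _ => rfl) (fun _ _ _ => rfl),
      Finsupp.sum_single_index rfl, deg_eq_one]
    simp

end Poles

end Fermat.Agent.FunctionFieldRR
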