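import Mathlib
import Fermat.Prelude.Def_AlgebraicCurve_DivisorClassGroup
import Fermat.Prelude.Def_AlgebraicCurve_Repartitions

/-!
# Places of function fields: basic facts

Order functions of places, function fields of one variable (`IsFunctionField`).
-/

set_option autoImplicit false

noncomputable section

open AlgebraicCurve IntermediateField
open scoped IntermediateField.algebraAdjoinAdjoin

namespace Fermat.Agent.FunctionFieldRR

variable {K F : Type*} [Field K] [Field F] [Algebra K F]

section Ord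

variable (P : Place K F)

theorem mem_iff {f : F} (hf : f ≠ 0) : f ∈ P.toValuationSubring ↔ 0 ≤ P.ord f := by
  constructor
  · intro h
    have := P.adicValuation_le_one_of_mem h
    rw [P.adicValuation_le_one_iff] at this
    exact this.resolve_left hf
  · intro h
    obtain ⟨π, hπ⟩ := IsDiscreteValuationRing.exists_irreducible P.toValuationSubring
    obtain ⟨u, hu⟩ := P.exists_unit_mul_zpow hf hπ
    obtain ⟨n, hn⟩ : ∃ n : ℕ, P.ord f = n := ⟨(P.ord f).toNat, (Int.toNat_of_nonneg h).symm⟩
    rw [hn, zpow_natCast] at hu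
    rw [hu]
    exact mul_mem (u : P.toValuationSubring).2 (pow_mem π.2 _)

theorem ord_nonneg_of_mem {f : F} (h : f ∈ P.toValuationSubring) : 0 ≤ P.ord f := by
  rcases eq_or_ne f 0 with rfl | hf
  · simp
  · exact (mem_iff P hf).1 h

theorem ord_nonneg_iff (f : F) : 0 ≤ P.ord f ↔ f ∈ P.toValuationSubring := by
  rcases eq_or_ne f 0 with rfl | hf
  · simp [P.toValuationSubring.zero_mem]
  · exact (mem_iff P hf).symm

theorem exists_ord_eq_one : ∃ t : F, t ≠ 0 ∧ P.ord t = 1 := by
  obtain ⟨π, hπ⟩ := IsDiscreteValuationRing.exists_irreducible P.toValuationSubring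
  exact ⟨π, by simpa using hπ.ne_zero, P.ord_coe_irreducible hπ⟩

theorem ord_pow (f : F) (n : ℕ) : P.ord (f ^ n) = n * P.ord f := by
  simpa using P.ord_zpow f n

theorem ord_neg (f : F) : P.ord (-f) = P.ord f := by
  simp [Place.ord, Valuation.map_neg]

theorem ord_sub_comm (f g : F) : P.ord (f - g) = P.ord (g - f) := by
  rw [← ord_neg P (f - g), neg_sub]

theorem ord_div {f g : F} (hf : f ≠ 0) (hg : g ≠ 0) : P.ord (f / g) = P.ord f - P.ord g := by
  rw [div_eq_mul_inv, P.ord_mul hf (inv_ne_zero hg), P.ord_inv, sub_eq_add_neg]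

theorem ord_algebraMap (c : K) : P.ord (algebraMap K F c) = 0 := by
  rcases eq_or_ne c 0 with rfl | hc
  · simp
  · have h1 := ord_nonneg_of_mem P (P.algebraMap_mem' c)
    have h2 := ord_nonneg_of_mem P (P.algebraMap_mem' c⁻¹)
    rw [map_inv₀, P.ord_inv] at h2
    omega

/-- `VanishesTo P m f`: the function `f` is zero or has order at least `m` at `P`. -/
def VanishesTo (m : ℤ) (f : F) : Prop := f = 0 ∨ m ≤ P.ord f

theorem vanishesTo_iff {m : ℤ} {f : F} :
    VanishesTo P m f ↔ P.adicValuation f ≤ WithZero.exp (-m) := by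
  rw [P.adicValuation_le_exp_iff, neg_neg]; rfl

theorem vanishesTo_zero_iff {f : F} : VanishesTo P 0 f ↔ f ∈ P.toValuationSubring := by
  rcases eq_or_ne f 0 with rfl | hf
  · simp [VanishesTo, P.toValuationSubring.zero_mem]
  · simp [VanishesTo, hf, mem_iff P hf]

variable {P} {m m' : ℤ} {f g : F}

theorem VanishesTo.add (hf : VanishesTo P m f) (hg : VanishesTo P m g) :
    VanishesTo P m (f + g) := by
  rw [vanishesTo_iff] at *
  exact (Valuation.map_add _ _ _).trans (max_le hf hg)

theorem VanishesTo.neg (hf : VanishesTo P m f) : VanishesTo P m (-f) := by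
  rw [vanishesTo_iff] at *
  rwa [Valuation.map_neg]

theorem VanishesTo.sub (hf : VanishesTo P m f) (hg : VanishesTo P m g) :
    VanishesTo P m (f - g) := by
  rw [sub_eq_add_neg]; exact hf.add hg.neg

theorem VanishesTo.mono (hf : VanishesTo P m f) (h : m' ≤ m) : VanishesTo P m' f :=
  hf.imp_right fun h' => h.trans h'

theorem VanishesTo.zero : VanishesTo P m (0 : F) := Or.inl rfl

theorem VanishesTo.mul (hf : VanishesTo P m f) (hg : VanishesTo P m' g) :
    VanishesTo P (m + m') (f * g) := by
  rcases eq_or_ne f 0 with rfl | hf0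
  · simp [VanishesTo]
  rcases eq_or_ne g 0 with rfl | hg0
  · simp [VanishesTo]
  refine Or.inr ?_
  rw [P.ord_mul hf0 hg0]
  exact add_le_add (hf.resolve_left hf0) (hg.resolve_left hg0)

theorem VanishesTo.sum {ι : Type*} (s : Finset ι) (φ : ι → F)
    (h : ∀ i ∈ s, VanishesTo P m (φ i)) : VanishesTo P m (∑ i ∈ s, φ i) :=
  Finset.sum_induction _ _ (fun _ _ => VanishesTo.add) VanishesTo.zero h

theorem vanishesTo_algebraMap (c : K) : VanishesTo P 0 (algebraMap K F c) :=
  Or.inr (ord_algebraMap P c).ge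

theorem VanishesTo.smul (c : K) (hf : VanishesTo P m f) : VanishesTo P m (c • f) := by
  rw [Algebra.smul_def]
  simpa using (vanishesTo_algebraMap (P := P) c).mul hf

theorem not_vanishesTo_one : ¬ VanishesTo P 1 (1 : F) := by
  simp [VanishesTo]

theorem ord_eq_of_vanishesTo_sub (hf : f ≠ 0) (h : VanishesTo P (P.ord f + 1) (g - f)) :
    g ≠ 0 ∧ P.ord g = P.ord f := by
  have hg0 : g ≠ 0 := by
    rintro rfl
    rcases h with h | h
    · simp [hf] at h
    · rw [zero_sub, ord_neg] at h; omega
  refine ⟨hg0, le_antisymm ?_ ?_⟩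
  · by_contra hlt
    have h2 : VanishesTo P (P.ord f + 1) g := Or.inr (by omega)
    have := h2.sub h
    rw [sub_sub_cancel] at this
    have := this.resolve_left hf
    omega
  · have h2 : VanishesTo P (P.ord f) g := by
      simpa using (h.mono (by omega : P.ord f ≤ P.ord f + 1)).add (Or.inr le_rfl : VanishesTo P (P.ord f) f)
    exact h2.resolve_left hg0

theorem le_ord_add (hne : f + g ≠ 0) (hf : m ≤ P.ord f) (hg : m ≤ P.ord g) :
    m ≤ P.ord (f + g) :=
  (VanishesTo.add (Or.inr hf : VanishesTo P m f) (Or.inr hg)).resolve_left hne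

theorem ord_add_eq_of_lt (hf : f ≠ 0) (h : P.ord f < P.ord g) : P.ord (f + g) = P.ord f :=
  (ord_eq_of_vanishesTo_sub hf (by
    rw [add_sub_cancel_left]; exact Or.inr (by omega))).2

/-- A place is determined by an inclusion of valuation rings. -/
theorem eq_of_forall_mem {P Q : Place K F}
    (h : ∀ f ∈ P.toValuationSubring, f ∈ Q.toValuationSubring) : P = Q := by
  obtain ⟨t, ht0, ht⟩ := exists_ord_eq_one P
  ext1
  refine le_antisymm h fun f hf => ?_
  by_contra hfP
  -- every element of `F` is then regular at `Q`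
  have hf0 : f ≠ 0 := fun h0 => hfP (h0 ▸ P.toValuationSubring.zero_mem)
  have hneg : P.ord f < 0 := lt_of_not_ge fun h' => hfP ((mem_iff P hf0).2 h')
  refine Q.ne_top' (top_unique fun g _ => ?_)
  rcases eq_or_ne g 0 with rfl | hg0
  · exact Q.toValuationSubring.zero_mem
  obtain ⟨n, hn⟩ : ∃ n : ℕ, -P.ord g ≤ n := ⟨(-P.ord g).toNat, Int.self_le_toNat _⟩
  have hfn : f ^ n ≠ 0 := pow_ne_zero _ hf0
  have : g / f ^ n ∈ P.toValuationSubring := by
    rw [mem_iff P (div_ne_zero hg0 hfn), ord_div P hg0 hfn, ord_pow]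
    nlinarith
  have := mul_mem (h _ this) (pow_mem hf n)
  rwa [div_mul_cancel₀ _ hfn] at this

end Ord

section FunctionField

variable (K F)

/-- `F` is a function field of one variable over `K`: some transcendental `x` generates a
subfield over which `F` is finite. -/
class IsFunctionField : Prop where
  exists_transcendental : ∃ x : F, Transcendental K x ∧ FiniteDimensional K⟮x⟯ F

variable {K F}

theorem IsFunctionField.of_finiteDimensional (x : F) (hx : Transcendental K x)
    [h : FiniteDimensional K⟮x⟯ F] : IsFunctionField K F :=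
  ⟨⟨x, hx, h⟩⟩

theorem isAlgebraic_adjoin_exchange {x f : F} (hf : Transcendental K f)
    (h : IsAlgebraic K⟮x⟯ f) : IsAlgebraic K⟮f⟯ x := by
  have h' : IsAlgebraic (Algebra.adjoin K ({x} : Set F)) f :=
    (IsFractionRing.isAlgebraic_iff _ K⟮x⟯ F).mpr h
  have hni : ¬ AlgebraicIndependent K ![x, f] := by
    rw [AlgebraicIndependent.iff_transcendental_adjoin_image (1 : Fin 2)]
    rintro ⟨-, h1⟩
    have : ![x, f] '' {(1 : Fin 2)}ᶜ = {x} := by
      ext; simp [Fin.exists_fin_two, eq_comm]
    rw [this] at h1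
    exact h1 h'
  rw [AlgebraicIndependent.iff_transcendental_adjoin_image (0 : Fin 2)] at hni
  have himg : ![x, f] '' {(0 : Fin 2)}ᶜ = {f} := by
    ext; simp [Fin.exists_fin_two, eq_comm]
  rw [himg] at hni
  have hsub : AlgebraicIndependent K fun i : {i : Fin 2 // i ≠ 0} => ![x, f] i := by
    have : Subsingleton {i : Fin 2 // i ≠ 0} := ⟨by decide⟩
    rw [algebraicIndependent_singleton_iff ⟨1, by decide⟩]
    simpa using hf
  have hx : IsAlgebraic (Algebra.adjoin K ({f} : Set F)) x := by
    simpa [Transcendental, hsub] using hni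
  exact (IsFractionRing.isAlgebraic_iff _ K⟮f⟯ F).mp hx

/-- A function field is finite over the subfield generated by any transcendental element. -/
theorem finiteDimensional_adjoin [IsFunctionField K F] {f : F} (hf : Transcendental K f) :
    FiniteDimensional K⟮f⟯ F := by
  obtain ⟨x, hx, hfd⟩ := IsFunctionField.exists_transcendental (K := K) (F := F)
  have hxalg : IsAlgebraic K⟮f⟯ x :=
    isAlgebraic_adjoin_exchange hf (Algebra.IsAlgebraic.isAlgebraic f)
  have h1 : FiniteDimensional K⟮f⟯ K⟮f⟯⟮x⟯ := adjoin.finiteDimensional hxalg.isIntegral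
  have hle : K⟮x⟯ ≤ (K⟮f⟯⟮x⟯).restrictScalars K := by
    rw [adjoin_simple_le_iff]
    exact mem_adjoin_simple_self _ x
  let _ : Algebra K⟮x⟯ K⟮f⟯⟮x⟯ := (IntermediateField.inclusion hle).toRingHom.toAlgebra
  have : IsScalarTower K⟮x⟯ K⟮f⟯⟮x⟯ F := IsScalarTower.of_algebraMap_eq fun _ => rfl
  have : Module.Finite K⟮f⟯⟮x⟯ F := Module.Finite.of_restrictScalars_finite K⟮x⟯ _ _
  exact Module.Finite.trans (K⟮f⟯⟮x⟯) F

theorem eq_algebraMap_or_transcendental [IsAlgClosed K] (f : F) :
    (∃ c : K, f = algebraMap K F c) ∨ Transcendental K f := by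
  by_cases h : IsAlgebraic K f
  · have := IntermediateField.isAlgebraic_adjoin_simple h.isIntegral
    have := IsAlgClosed.algebraMap_bijective_of_isIntegral (k := K) (K := K⟮f⟯)
    obtain ⟨c, hc⟩ := this.2 ⟨f, mem_adjoin_simple_self K f⟩
    exact Or.inl ⟨c, (congrArg Subtype.val hc).symm⟩
  · exact Or.inr h

theorem transcendental_of_ord_ne_zero [IsAlgClosed K] (P : Place K F) {f : F}
    (h : P.ord f ≠ 0) : Transcendental K f :=
  (eq_algebraMap_or_transcendental f).resolve_left fun ⟨c, hc⟩ => h (hc ▸ ord_algebraMap P c)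

end FunctionField

end Fermat.Agent.FunctionFieldRR
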