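import Fermat.Agent.FunctionFieldRR.RationalBase
import Fermat.Prelude.Def_AlgebraicCurve_Correspondence

/-!
# Finite extensions of function fields: fundamental identity and norm formula
-/

set_option autoImplicit false

noncomputable section

open AlgebraicCurve IntermediateField
open scoped Classical

namespace Fermat.Agent.FunctionFieldRR

variable {K F F' : Type*} [Field K] [Field F] [Field F'] [Algebra K F] [Algebra K F']
  [Algebra F F'] [IsScalarTower K F F'] [FiniteDimensional F F']

omit [FiniteDimensional F F'] in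
theorem transcendental_algebraMap {x : F} (hx : Transcendental K x) :
    Transcendental K (algebraMap F F' x) := fun h =>
  hx ((isAlgebraic_algebraMap_iff (algebraMap F F').injective).1 h)

theorem finrank_adjoin_algebraMap (x : F) :
    Module.finrank K⟮algebraMap F F' x⟯ F' =
      Module.finrank K⟮x⟯ F * Module.finrank F F' := by
  have hmap : K⟮x⟯.map (IsScalarTower.toAlgHom K F F') = K⟮algebraMap F F' x⟯ := by
    rw [adjoin_map, Set.image_singleton]; rfl
  rw [Module.finrank_mul_finrank K⟮x⟯ F F']
  let e : K⟮x⟯ ≃ₐ[K] K⟮algebraMap F F' x⟯ :=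
    (K⟮x⟯.equivMap (IsScalarTower.toAlgHom K F F')).trans (equivOfEq hmap)
  refine (Algebra.finrank_eq_of_equiv_equiv e.toRingEquiv (RingEquiv.refl F') ?_).symm
  ext a
  rfl

theorem finiteDimensional_adjoin_algebraMap (x : F) [FiniteDimensional K⟮x⟯ F] :
    FiniteDimensional K⟮algebraMap F F' x⟯ F' :=
  Module.finite_of_finrank_pos (by
    rw [finrank_adjoin_algebraMap]
    exact Nat.mul_pos Module.finrank_pos Module.finrank_pos)

variable (K F) in
/-- A finite extension of a function field is a function field. -/
theorem isFunctionField_of_finite [IsFunctionField K F] : IsFunctionField K F' := by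
  obtain ⟨x, hx, hfd⟩ := IsFunctionField.exists_transcendental (K := K) (F := F)
  exact ⟨⟨algebraMap F F' x, transcendental_algebraMap hx, finiteDimensional_adjoin_algebraMap x⟩⟩

variable [IsAlgClosed K] [IsFunctionField K F] [IsFunctionField K F']

/-- Every fibre of a finite extension of function fields is full. -/
theorem fullFiber (v : Place K F) : FullFiber F' v := by
  obtain ⟨t, ht0, ht⟩ := exists_ord_eq_one v
  set x := t⁻¹ with hxdef
  have hvx : v.ord x = -1 := by rw [hxdef, v.ord_inv, ht]
  have hx : Transcendental K x := transcendental_of_ord_ne_zero v (by omega)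
  have := finiteDimensional_adjoin hx
  have := finiteDimensional_adjoin_algebraMap (K := K) (F' := F') x
  have hP := finite_poles_of_transcendental (F := F) hx
  have hP' := finite_poles_of_transcendental (transcendental_algebraMap (F' := F') hx)
  have h1 := sum_ord_poles hx (S := hP.toFinset) (by simp)
  have h2 := sum_ord_poles (transcendental_algebraMap (F' := F') hx) (S := hP'.toFinset) (by simp)
  rw [finrank_adjoin_algebraMap, Nat.cast_mul, ← h1] at h2
  have hsplit : ∑ w ∈ hP'.toFinset, -w.ord (algebraMap F F' x) =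
      ∑ u ∈ hP.toFinset, -u.ord x * ∑ w ∈ placesOver F' u, (w.ramificationIndex F : ℤ) := by
    rw [← Finset.sum_fiberwise_of_maps_to (t := hP.toFinset) (g := fun w => w.restrict F)]
    · refine Finset.sum_congr rfl fun u hu => ?_
      rw [Finset.mul_sum]
      refine Finset.sum_congr ?_ fun w hw => ?_
      · ext w
        simp only [Finset.mem_filter, Set.Finite.mem_toFinset, Set.mem_ofPred_eq, mem_placesOver]
        refine ⟨fun h => h.2, fun h => ⟨?_, h⟩⟩
        rw [w.ord_restrict (F := F), h]
        have := one_le_ramificationIndex (F := F) w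
        simp only [Set.Finite.mem_toFinset, Set.mem_ofPred_eq] at hu
        nlinarith
      · rw [w.ord_restrict (F := F), mem_placesOver.1 hw]; ring
    · intro w hw
      simp only [Set.Finite.mem_toFinset, Set.mem_ofPred_eq] at hw ⊢
      rw [w.ord_restrict (F := F)] at hw
      by_contra! hnn
      nlinarith
  rw [hsplit, Finset.sum_mul] at h2
  have hzero : ∑ u ∈ hP.toFinset, -u.ord x * ((Module.finrank F F' : ℤ) -
      ∑ w ∈ placesOver F' u, (w.ramificationIndex F : ℤ)) = 0 := by
    simp_rw [mul_sub]
    rw [Finset.sum_sub_distrib, h2, sub_self]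
  have hnn : ∀ u ∈ hP.toFinset, 0 ≤ -u.ord x * ((Module.finrank F F' : ℤ) -
      ∑ w ∈ placesOver F' u, (w.ramificationIndex F : ℤ)) := fun u hu => by
    simp only [Set.Finite.mem_toFinset, Set.mem_ofPred_eq] at hu
    have hle := sum_ramificationIndex_le (v := u) (placesOver F' u) fun w hw => mem_placesOver.1 hw
    exact mul_nonneg (by omega) (sub_nonneg.2 (by exact_mod_cast hle))
  have := (Finset.sum_eq_zero_iff_of_nonneg hnn).1 hzero v (by simp [hvx])
  rw [hvx, neg_neg, one_mul, sub_eq_zero] at this
  rw [FullFiber]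
  exact_mod_cast this.symm

theorem inertiaDeg_eq_one (w : Place K F') : w.inertiaDeg F = 1 := by
  have := w.deg_restrict_mul_inertiaDeg (F := F)
  rwa [deg_eq_one, deg_eq_one, one_mul] at this

theorem fiber_eq_placesOver [HasPrincipalDivisors K F'] (v : Place K F) :
    v.fiber F' = placesOver F' v := by
  ext w
  rw [Place.mem_fiber, mem_placesOver]

/-- The fundamental identity. -/
theorem fundamentalIdentity [HasPrincipalDivisors K F'] : FundamentalIdentity K F F' := by
  refine ⟨fun v => ?_⟩
  simp only [deg_eq_one, Nat.cast_one, mul_one, fiber_eq_placesOver]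
  exact_mod_cast fullFiber v

/-- `ord_v (N f) = ∑_{w | v} ord_w f`. -/
theorem ord_norm (v : Place K F) {f : F'} (hf : f ≠ 0) :
    v.ord (Algebra.norm F f) = ∑ w ∈ placesOver F' v, w.ord f := by
  have hfull := fullFiber (F' := F') v
  set S := placesOver F' v with hS
  have hN : ∀ g : F', g ≠ 0 → Algebra.norm F g ≠ 0 := fun g hg => Algebra.norm_ne_zero_iff.2 hg
  have hordN : ∀ g h : F', g ≠ 0 → h ≠ 0 → v.ord (Algebra.norm F (g * h)) =
      v.ord (Algebra.norm F g) + v.ord (Algebra.norm F h) := fun g h hg hh => by
    rw [map_mul, v.ord_mul (hN g hg) (hN h hh)]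
  -- units have unit norm
  have hunit : ∀ u : F', u ≠ 0 → (∀ w ∈ S, w.ord u = 0) → v.ord (Algebra.norm F u) = 0 := by
    intro u hu hu0
    obtain ⟨h1, h2⟩ := norm_regular hfull (f := u) fun w hw => Or.inr (hu0 w hw).ge
    have hne : residueConst v (Algebra.norm F u) ≠ 0 := by
      rw [h2]
      exact Finset.prod_ne_zero_iff.2 fun w hw =>
        pow_ne_zero _ (residueConst_ne_zero hu (hu0 w hw))
    have h3 := residueConst_spec v ((vanishesTo_zero_iff v).1 h1)
    have := (ord_eq_of_vanishesTo_sub (f := algebraMap K F (residueConst v (Algebra.norm F u)))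
      (by simpa using hne) (by rwa [ord_algebraMap, zero_add])).2
    rwa [ord_algebraMap] at this
  have hNz : ∀ (a : F') (z : ℤ), a ≠ 0 →
      v.ord (Algebra.norm F (a ^ z)) = z * v.ord (Algebra.norm F a) := by
    intro a z ha
    induction z with
    | zero => simp
    | succ i ih =>
      rw [zpow_add_one₀ ha, hordN _ _ (zpow_ne_zero _ ha) ha, ih]; ring
    | pred i ih =>
      have h := hordN _ _ (zpow_ne_zero (-(i : ℤ) - 1) ha) ha
      rw [← zpow_add_one₀ ha, sub_add_cancel, ih] at h
      linarith
  choose π hπ0 hπ using fun w : Place K F' =>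
    exists_ord_eq S fun w' => if w' = w then (1 : ℤ) else 0
  have hπS : ∀ w ∈ S, ∀ m : Place K F' → ℤ, w.ord (∏ u ∈ S, π u ^ m u) = m w := by
    intro w hw m
    have hprod : ∀ T : Finset (Place K F'),
        w.ord (∏ u ∈ T, π u ^ m u) = ∑ u ∈ T, m u * w.ord (π u) := by
      intro T
      induction T using Finset.induction with
      | empty => simp
      | @insert a T ha ih =>
        rw [Finset.prod_insert ha, Finset.sum_insert ha, w.ord_mul (zpow_ne_zero _ (hπ0 a))
          (Finset.prod_ne_zero_iff.2 fun u _ => zpow_ne_zero _ (hπ0 u)), w.ord_zpow, ih]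
    rw [hprod, Finset.sum_congr rfl fun u _ => by rw [hπ u w hw]]
    simp [mul_ite, hw]
  have hordprod : ∀ m : Place K F' → ℤ, v.ord (Algebra.norm F (∏ u ∈ S, π u ^ m u)) =
      ∑ u ∈ S, m u * v.ord (Algebra.norm F (π u)) := by
    intro m
    induction S using Finset.induction with
    | empty => simp
    | @insert a T ha ih =>
      rw [Finset.prod_insert ha, Finset.sum_insert ha, hordN _ _ (zpow_ne_zero _ (hπ0 a))
        (Finset.prod_ne_zero_iff.2 fun u _ => zpow_ne_zero _ (hπ0 u)), hNz _ _ (hπ0 a), ih]
  have hdecomp : ∀ g : F', g ≠ 0 → v.ord (Algebra.norm F g) =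
      ∑ u ∈ S, u.ord g * v.ord (Algebra.norm F (π u)) := by
    intro g hg
    set p := ∏ u ∈ S, π u ^ u.ord g
    have hp : p ≠ 0 := Finset.prod_ne_zero_iff.2 fun u _ => zpow_ne_zero _ (hπ0 u)
    have h := hordN (g / p) p (div_ne_zero hg hp) hp
    rw [div_mul_cancel₀ _ hp, hordprod, hunit _ (div_ne_zero hg hp) fun w hw => by
      rw [ord_div w hg hp, hπS w hw, sub_self], zero_add] at h
    exact h
  have hk1 : ∀ u ∈ S, 1 ≤ v.ord (Algebra.norm F (π u)) := by
    intro u hu
    have hreg : ∀ w ∈ S, VanishesTo w 0 (π u) := fun w hw =>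
      Or.inr (by rw [hπ u w hw]; split_ifs <;> omega)
    obtain ⟨h1, h2⟩ := norm_regular hfull hreg
    have hzero : residueConst v (Algebra.norm F (π u)) = 0 := by
      rw [h2]
      refine Finset.prod_eq_zero hu ?_
      rw [residueConst_eq u (c := 0) (by
        rw [map_zero, sub_zero]; exact Or.inr (by rw [hπ u u hu, if_pos rfl])),
        zero_pow]
      have := one_le_ramificationIndex (F := F) u
      omega
    have h3 := residueConst_spec v ((vanishesTo_zero_iff v).1 h1)
    rw [hzero, map_zero, sub_zero] at h3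
    exact h3.resolve_left (hN _ (hπ0 u))
  obtain ⟨t, ht0, ht⟩ := exists_ord_eq_one v
  have hteq := hdecomp (algebraMap F F' t) (by simpa using ht0)
  rw [Algebra.norm_algebraMap, ord_pow, ht, mul_one] at hteq
  have hres : ∀ u ∈ S, u.ord (algebraMap F F' t) = (u.ramificationIndex F : ℤ) := fun u hu => by
    rw [u.ord_restrict (F := F), mem_placesOver.1 hu, ht, mul_one]
  rw [Finset.sum_congr rfl fun u hu => by rw [hres u hu], ← hfull, Nat.cast_sum] at hteq
  have hzero : ∑ u ∈ S, (u.ramificationIndex F : ℤ) * (v.ord (Algebra.norm F (π u)) - 1) = 0 := by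
    simp_rw [mul_sub, mul_one]
    rw [Finset.sum_sub_distrib, ← hteq, sub_self]
  have hk : ∀ u ∈ S, v.ord (Algebra.norm F (π u)) = 1 := fun u hu => by
    have h := (Finset.sum_eq_zero_iff_of_nonneg fun u hu =>
      mul_nonneg (Int.natCast_nonneg _) (sub_nonneg.2 (hk1 u hu))).1 hzero u hu
    have := one_le_ramificationIndex (F := F) u
    rcases mul_eq_zero.1 h with h | h <;> omega
  rw [hdecomp f hf]
  exact Finset.sum_congr rfl fun u hu => by rw [hk u hu, mul_one]

theorem pushforward_apply_eq_sum (D : Divisor K F') (v : Place K F) :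
    Divisor.pushforward F D v = ∑ w ∈ placesOver F' v, D w := by
  rw [Divisor.pushforward_apply]
  simp only [inertiaDeg_eq_one, Nat.cast_one, mul_one]
  rw [← Finset.sum_filter, Finset.sum_subset (s₂ := placesOver F' v)]
  · intro w hw; exact mem_placesOver.2 (Finset.mem_filter.1 hw).2
  · intro w hw hw'
    by_contra h
    exact hw' (Finset.mem_filter.2 ⟨Finsupp.mem_support_iff.2 h, mem_placesOver.1 hw⟩)

/-- The norm formula. -/
theorem pushforwardNormFormula : Divisor.PushforwardNormFormula K F F' := by
  intro f hf D hD v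
  rw [pushforward_apply_eq_sum, ord_norm v hf]
  exact Finset.sum_congr rfl fun w _ => hD w

section Along

omit [Algebra F F'] [IsScalarTower K F F'] [FiniteDimensional F F']

theorem fundamentalIdentityAlong (φ : F →ₐ[K] F') (hφ : φ.toRingHom.IsIntegral)
    (hfin : FiniteAlong K φ) [HasPrincipalDivisors K F'] :
    FundamentalIdentityAlong K φ hφ := by
  let _ := algebraAlong φ
  have := isScalarTower_along φ
  have : Module.Finite F F' := hfin
  exact fundamentalIdentity

theorem normFormulaAlong (φ : F →ₐ[K] F') (hfin : FiniteAlong K φ) :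
    NormFormulaAlong K φ hfin := by
  let _ := algebraAlong φ
  have := isScalarTower_along φ
  have : Module.Finite F F' := hfin
  exact pushforwardNormFormula

omit [IsAlgClosed K] in
/-- A `K`-embedding of function fields is finite. -/
theorem finiteAlong (φ : F →ₐ[K] F') : FiniteAlong K φ := by
  let _ := algebraAlong φ
  have := isScalarTower_along φ
  obtain ⟨x, hx, -⟩ := IsFunctionField.exists_transcendental (K := K) (F := F)
  have hfd := finiteDimensional_adjoin (K := K) (F := F')
    (f := algebraMap F F' x) (fun h => hx ((isAlgebraic_algebraMap_iff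
      (algebraMap F F').injective).1 h))
  let ι : K⟮algebraMap F F' x⟯ →+* F :=
    ((K⟮x⟯.equivMap (IsScalarTower.toAlgHom K F F')).trans (equivOfEq (by
      rw [adjoin_map, Set.image_singleton]; rfl))).symm.toAlgHom.toRingHom
      |> (algebraMap K⟮x⟯ F).comp
  letI : Algebra K⟮algebraMap F F' x⟯ F := ι.toAlgebra
  haveI : IsScalarTower K⟮algebraMap F F' x⟯ F F' := IsScalarTower.of_algebraMap_eq fun a => by
    set e := (K⟮x⟯.equivMap (IsScalarTower.toAlgHom K F F')).trans (equivOfEq (by
      rw [adjoin_map, Set.image_singleton]; rfl : K⟮x⟯.map (IsScalarTower.toAlgHom K F F') =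
        K⟮algebraMap F F' x⟯))
    show (a : F') = ((e (e.symm a) : K⟮algebraMap F F' x⟯) : F')
    rw [AlgEquiv.apply_symm_apply]
  exact Module.Finite.of_restrictScalars_finite K⟮algebraMap F F' x⟯ F F'

end Along

end Fermat.Agent.FunctionFieldRR
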