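import Fermat.Agent.FunctionFieldRR.Laurent

/-!
# Riemann–Roch spaces: finite dimension and the trivial upper bound
-/

set_option autoImplicit false

noncomputable section

open AlgebraicCurve

namespace Fermat.Agent.FunctionFieldRR

variable {K F : Type*} [Field K] [Field F] [Algebra K F]

theorem mem_riemannRochSpace {D : Divisor K F} {f : F} :
    f ∈ riemannRochSpace D ↔ ∀ P : Place K F, VanishesTo P (-D P) f :=
  mem_riemannRochSpace_iff

theorem riemannRochSpace_mono {D D' : Divisor K F} (h : D ≤ D') :
    riemannRochSpace D ≤ riemannRochSpace D' := fun _ hf =>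
  mem_riemannRochSpace.2 fun P => ((mem_riemannRochSpace.1 hf) P).mono
    (neg_le_neg (Finsupp.le_def.1 h P))

variable [IsAlgClosed K] [IsFunctionField K F]

theorem riemannRochSpace_zero :
    riemannRochSpace (0 : Divisor K F) = LinearMap.range (Algebra.linearMap K F) := by
  ext f
  rw [mem_riemannRochSpace, LinearMap.mem_range]
  constructor
  · intro h
    obtain ⟨c, hc⟩ := exists_algebraMap_eq_of_forall_ord_nonneg (f := f) fun P => by
      rcases h P with h | h
      · simp [h]
      · simpa using h
    exact ⟨c, hc.symm⟩
  · rintro ⟨c, rfl⟩ P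
    simpa using vanishesTo_algebraMap (P := P) c

theorem finrank_riemannRochSpace_zero :
    Module.finrank K (riemannRochSpace (0 : Divisor K F)) = 1 := by
  rw [riemannRochSpace_zero,
    LinearMap.finrank_range_of_inj (f := Algebra.linearMap K F) (algebraMap K F).injective,
    Module.finrank_self]

instance finiteDimensional_riemannRochSpace_zero :
    FiniteDimensional K (riemannRochSpace (0 : Divisor K F)) :=
  FiniteDimensional.of_finrank_eq_succ (n := 0) finrank_riemannRochSpace_zero

/-- The leading coefficient functional on `L(D + P)`. -/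
def leadCoeff (D : Divisor K F) (P : Place K F) :
    riemannRochSpace (D + Finsupp.single P 1) →ₗ[K] K where
  toFun f := (laurentExp P (f : F)).coeff (-D P - 1)
  map_add' f g := by simp
  map_smul' c f := by
    simp [Algebra.smul_def, laurentExp_algebraMap]

theorem ker_leadCoeff (D : Divisor K F) (P : Place K F) :
    LinearMap.ker (leadCoeff D P) =
      (riemannRochSpace D).comap (riemannRochSpace (D + Finsupp.single P 1)).subtype := by
  ext f
  have hf := mem_riemannRochSpace.1 f.2
  simp only [LinearMap.mem_ker, Submodule.mem_comap, Submodule.subtype_apply]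
  rw [show (leadCoeff D P) f = (laurentExp P (f : F)).coeff (-D P - 1) from rfl,
    mem_riemannRochSpace]
  constructor
  · intro h Q
    by_cases hQ : Q = P
    · subst hQ
      refine vanishesTo_of_coeff_eq_zero Q fun i hi => ?_
      have h2 := hf Q
      rw [Finsupp.add_apply, Finsupp.single_eq_same] at h2
      rcases lt_or_eq_of_le (show i ≤ -D Q - 1 by omega) with hi' | hi'
      · exact coeff_laurentExp_eq_zero Q h2 (by omega)
      · exact hi' ▸ h
    · simpa [Finsupp.single_eq_of_ne hQ] using hf Q
  · intro h
    exact coeff_laurentExp_eq_zero P (h P) (by omega)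

theorem finrank_add_single_le (D : Divisor K F) (P : Place K F)
    [FiniteDimensional K (riemannRochSpace D)] :
    FiniteDimensional K (riemannRochSpace (D + Finsupp.single P 1)) ∧
      Module.finrank K (riemannRochSpace (D + Finsupp.single P 1)) ≤
        Module.finrank K (riemannRochSpace D) + 1 := by
  have hle : riemannRochSpace D ≤ riemannRochSpace (D + Finsupp.single P 1) :=
    riemannRochSpace_mono (le_add_of_nonneg_right (Finsupp.le_def.2 fun Q => by
      classical
      rw [Finsupp.single_apply]; split_ifs <;> simp))
  have e := Submodule.comapSubtypeEquivOfLe hle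
  have : FiniteDimensional K (LinearMap.ker (leadCoeff D P)) := by
    rw [ker_leadCoeff]; exact Module.Finite.equiv e.symm
  have := Module.Finite.equiv (leadCoeff D P).quotKerEquivRange.symm
  have : FiniteDimensional K (riemannRochSpace (D + Finsupp.single P 1)) :=
    Module.Finite.of_submodule_quotient (LinearMap.ker (leadCoeff D P))
  refine ⟨this, ?_⟩
  have h1 := (leadCoeff D P).finrank_range_add_finrank_ker
  have h2 : Module.finrank K (LinearMap.range (leadCoeff D P)) ≤ 1 := by
    simpa using Submodule.finrank_le (LinearMap.range (leadCoeff D P))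
  rw [ker_leadCoeff, e.finrank_eq] at h1
  omega

theorem finrank_add_nat_le (D : Divisor K F) [FiniteDimensional K (riemannRochSpace D)]
    (E : Place K F →₀ ℕ) :
    FiniteDimensional K (riemannRochSpace (D + E.mapRange (fun n : ℕ => (n : ℤ)) rfl)) ∧
      Module.finrank K (riemannRochSpace (D + E.mapRange (fun n : ℕ => (n : ℤ)) rfl)) ≤
        Module.finrank K (riemannRochSpace D) + E.sum fun _ n => n := by
  classical
  induction hk : E.sum (fun _ n => n) generalizing E with
  | zero =>
    have : E = 0 := by
      ext P
      by_contra h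
      have hP : P ∈ E.support := Finsupp.mem_support_iff.2 h
      exact h ((Finset.sum_eq_zero_iff.1 hk) P hP)
    subst this
    rw [Finsupp.mapRange_zero, add_zero]
    exact ⟨inferInstance, le_self_add⟩
  | succ k ih =>
    obtain ⟨P, hP⟩ : E.support.Nonempty := by
      rw [Finset.nonempty_iff_ne_empty]
      intro h
      rw [Finsupp.support_eq_empty.1 h] at hk
      simp at hk
    have hP' : E P ≠ 0 := Finsupp.mem_support_iff.1 hP
    set E' := E - Finsupp.single P 1 with hE'
    have hE : E = E' + Finsupp.single P 1 :=
      (tsub_add_cancel_of_le (Finsupp.le_def.2 fun Q => by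
        rw [Finsupp.single_apply]; split_ifs with h
        · subst h; omega
        · omega)).symm
    have hsum : (E.sum fun _ n => n) = (E'.sum fun _ n => n) + 1 := by
      conv_lhs => rw [hE]
      rw [Finsupp.sum_add_index' (fun _ => rfl) (fun _ _ _ => rfl), Finsupp.sum_single_index rfl]
    obtain ⟨h1, h2⟩ := ih E' (by omega)
    have h3 := finrank_add_single_le (D + E'.mapRange (fun n : ℕ => (n : ℤ)) rfl) P
    have heq : D + E.mapRange (fun n : ℕ => (n : ℤ)) rfl =
        D + E'.mapRange (fun n : ℕ => (n : ℤ)) rfl + Finsupp.single P 1 := by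
      rw [hE, add_assoc]
      congr 1
      ext Q
      simp only [Finsupp.mapRange_apply, Finsupp.add_apply, Finsupp.single_apply]
      split_ifs <;> simp
    rw [heq]
    exact ⟨h3.1, by omega⟩

theorem finrank_le_of_le {D D' : Divisor K F} (h : D ≤ D')
    [FiniteDimensional K (riemannRochSpace D)] :
    FiniteDimensional K (riemannRochSpace D') ∧
      (Module.finrank K (riemannRochSpace D') : ℤ) ≤
        Module.finrank K (riemannRochSpace D) + (Divisor.degree D' - Divisor.degree D) := by
  set E : Place K F →₀ ℕ := (D' - D).mapRange Int.toNat rfl with hE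
  have hE' : E.mapRange (fun n : ℕ => (n : ℤ)) rfl = D' - D := by
    ext P
    have := Finsupp.le_def.1 h P
    simp only [hE, Finsupp.mapRange_apply, Finsupp.sub_apply]
    omega
  obtain ⟨h1, h2⟩ := finrank_add_nat_le D E
  rw [hE', add_sub_cancel] at h1 h2
  refine ⟨h1, ?_⟩
  rw [← map_sub, degree_eq_sum, ← hE', Finsupp.sum_mapRange_index (fun _ => rfl)]
  have : ((E.sum fun _ n => n : ℕ) : ℤ) = E.sum fun _ n => (n : ℤ) := by
    simp [Finsupp.sum]
  omega

instance finiteDimensional_riemannRochSpace (D : Divisor K F) :
    FiniteDimensional K (riemannRochSpace D) := by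
  set D' : Divisor K F := D.mapRange (fun n => max n 0) rfl with hD'
  have h0 : (0 : Divisor K F) ≤ D' := Finsupp.le_def.2 fun P => by simp [hD']
  have hle : D ≤ D' := Finsupp.le_def.2 fun P => by simp [hD']
  have := (finrank_le_of_le h0).1
  exact Submodule.finiteDimensional_of_le (riemannRochSpace_mono hle)

theorem finrank_le_degree_add_one {D : Divisor K F} (h : 0 ≤ D) :
    (Module.finrank K (riemannRochSpace D) : ℤ) ≤ Divisor.degree D + 1 := by
  have := (finrank_le_of_le h).2
  rw [finrank_riemannRochSpace_zero, map_zero] at this
  omega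

theorem finrank_le_add_single (D : Divisor K F) (P : Place K F) :
    Module.finrank K (riemannRochSpace (D + Finsupp.single P 1)) ≤
      Module.finrank K (riemannRochSpace D) + 1 :=
  (finrank_add_single_le D P).2

end Fermat.Agent.FunctionFieldRR
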