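import Fermat.Agent.FunctionFieldRR.FiberTheory
import Fermat.Agent.FunctionFieldRR.RiemannRochSpace

/-!
# The rational subfield generated by a transcendental element

Degree of the polar divisor, principal divisors, fibres of `x`.
-/

set_option autoImplicit false

noncomputable section

open AlgebraicCurve IntermediateField Polynomial
open scoped Classical

namespace Fermat.Agent.FunctionFieldRR

variable {K F : Type*} [Field K] [Field F] [Algebra K F]

section Poly

variable (w : Place K F) {x : F}

theorem ord_aeval_of_pole (hx : w.ord x < 0) {p : K[X]} (hp : p ≠ 0) :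
    aeval x p ≠ 0 ∧ w.ord (aeval x p) = p.natDegree * w.ord x := by
  have hx0 : x ≠ 0 := by rintro rfl; simp at hx
  induction hd : p.natDegree using Nat.strong_induction_on generalizing p with
  | _ d ih =>
    rcases Nat.eq_zero_or_pos d with rfl | hdpos
    · rw [eq_C_of_natDegree_eq_zero hd, aeval_C]
      have : p.coeff 0 ≠ 0 := fun h => hp (by rw [eq_C_of_natDegree_eq_zero hd, h, map_zero])
      exact ⟨by simpa using this, by simp [ord_algebraMap]⟩
    · set lt := algebraMap K F p.leadingCoeff * x ^ d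
      have hlc : algebraMap K F p.leadingCoeff ≠ 0 := by simpa using hp
      have hlt0 : lt ≠ 0 := mul_ne_zero hlc (pow_ne_zero _ hx0)
      have hlt : w.ord lt = d * w.ord x := by
        rw [w.ord_mul hlc (pow_ne_zero _ hx0), ord_algebraMap, ord_pow, zero_add]
      have hsplit : aeval x p = lt + aeval x p.eraseLead := by
        conv_lhs => rw [← p.eraseLead_add_C_mul_X_pow, hd]
        rw [map_add, map_mul, map_pow, aeval_C, aeval_X, add_comm]
      have hkey : VanishesTo w (w.ord lt + 1) (aeval x p.eraseLead) := by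
        rcases eq_or_ne p.eraseLead 0 with h0 | h0
        · exact Or.inl (by rw [h0, map_zero])
        · have hlt' := (eraseLead_natDegree_le p).trans_lt (by omega : p.natDegree - 1 < d)
          obtain ⟨h1, h2⟩ := ih _ hlt' h0 rfl
          exact Or.inr (by rw [h2, hlt]; nlinarith)
      obtain ⟨h1, h2⟩ := ord_eq_of_vanishesTo_sub hlt0
        (g := aeval x p) (by rw [hsplit, add_sub_cancel_left]; exact hkey)
      exact ⟨h1, h2.trans hlt⟩

theorem ord_aeval_of_zero {c : K} (hx : 0 < w.ord (x - algebraMap K F c)) {p : K[X]}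
    (hp : p ≠ 0) :
    aeval x p ≠ 0 ∧ w.ord (aeval x p) = p.rootMultiplicity c * w.ord (x - algebraMap K F c) := by
  set t := x - algebraMap K F c with ht
  have ht0 : t ≠ 0 := by intro h; simp [h] at hx
  obtain ⟨q, hq, hqc⟩ := p.exists_eq_pow_rootMultiplicity_mul_and_not_dvd hp c
  have hv : VanishesTo w 1 (aeval x q - algebraMap K F (q.eval c)) := by
    obtain ⟨r, hr⟩ := X_sub_C_dvd_sub_C_eval (p := q) (a := c)
    have : aeval x q - algebraMap K F (q.eval c) = t * aeval x r := by
      rw [ht, ← aeval_C (x := x) (q.eval c), ← map_sub, hr, map_mul, map_sub, aeval_X, aeval_C]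
    rw [this]
    have hxmem : x ∈ w.toValuationSubring := by
      have h1 : t ∈ w.toValuationSubring := (ord_nonneg_iff _ _).1 hx.le
      simpa [ht] using add_mem h1 (w.algebraMap_mem' c)
    simpa using VanishesTo.mul (Or.inr hx : VanishesTo w 1 t) ((vanishesTo_zero_iff w).2
      (aeval_mem w.toValuationSubring w.algebraMap_mem' hxmem r))
  have hqc' : q.eval c ≠ 0 := fun h => hqc (dvd_iff_isRoot.2 h)
  obtain ⟨h1, h2⟩ := ord_eq_of_vanishesTo_sub (f := algebraMap K F (q.eval c))
    (by simpa using hqc') (by rwa [ord_algebraMap, zero_add])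
  have he : aeval x p = t ^ p.rootMultiplicity c * aeval x q := by
    conv_lhs => rw [hq]
    rw [map_mul, map_pow, map_sub, aeval_X, aeval_C]
  refine ⟨he ▸ mul_ne_zero (pow_ne_zero _ ht0) h1, ?_⟩
  rw [he, w.ord_mul (pow_ne_zero _ ht0) h1, h2, ord_algebraMap, add_zero, ord_pow]

theorem mem_adjoin_eq_div {a : F} (ha : a ∈ K⟮x⟯) :
    ∃ p q : K[X], a = aeval x p / aeval x q :=
  (mem_adjoin_simple_iff K a).1 ha

end Poly

variable [IsAlgClosed K] [IsFunctionField K F]

theorem ord_pos_or_ord_neg (w : Place K F) (x : F) :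
    w.ord x < 0 ∨ ∃ c : K, x = algebraMap K F c ∨ 0 < w.ord (x - algebraMap K F c) := by
  rcases lt_or_ge (w.ord x) 0 with h | h
  · exact Or.inl h
  · obtain ⟨c, hc⟩ := exists_residue w ((ord_nonneg_iff _ _).1 h)
    exact Or.inr ⟨c, hc.imp sub_eq_zero.1 fun h => by omega⟩

variable {x : F}

/-- The generator of `K(x)`. -/
abbrev gx (x : F) : K⟮x⟯ := AdjoinSimple.gen K x

omit [IsAlgClosed K] [IsFunctionField K F] in
theorem adjoin_gx_eq_top : IntermediateField.adjoin K ({gx (K := K) x} : Set K⟮x⟯) = ⊤ := by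
  apply IntermediateField.map_injective (K⟮x⟯).val
  rw [IntermediateField.adjoin_map, Set.image_singleton, ← AlgHom.fieldRange_eq_map,
    IntermediateField.fieldRange_val]
  rfl

omit [IsAlgClosed K] [IsFunctionField K F] in
theorem transcendental_gx (hx : Transcendental K x) : Transcendental K (gx (K := K) x) := by
  intro h
  exact hx (by simpa using h.algHom (K⟮x⟯).val)

omit [IsAlgClosed K] [IsFunctionField K F] in
theorem isFunctionField_adjoin (hx : Transcendental K x) : IsFunctionField K K⟮x⟯ := by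
  refine ⟨⟨gx x, transcendental_gx hx, ?_⟩⟩
  rw [adjoin_gx_eq_top]
  exact Module.Finite.of_surjective
    (Algebra.linearMap (⊤ : IntermediateField K K⟮x⟯) K⟮x⟯) fun a => ⟨⟨a, trivial⟩, rfl⟩

omit [IsFunctionField K F] in
theorem exists_place_zero (hx : Transcendental K x) (c : K) :
    ∃ v : Place K K⟮x⟯, 0 < v.ord (gx x - algebraMap K K⟮x⟯ c) := by
  have := isFunctionField_adjoin hx
  refine exists_ord_pos fun h => ?_
  have := h.add (isAlgebraic_algebraMap (A := K⟮x⟯) c)
  rw [sub_add_cancel] at this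
  exact transcendental_gx hx this

omit [IsFunctionField K F] in
theorem exists_place_pole (hx : Transcendental K x) :
    ∃ v : Place K K⟮x⟯, v.ord (gx (K := K) x) < 0 := by
  have := isFunctionField_adjoin hx
  exact exists_ord_neg (transcendental_gx hx)

omit [IsAlgClosed K] [IsFunctionField K F] in
/-- A quotient description of the elements of `K(x)`. -/
theorem gx_eq_div {a : K⟮x⟯} :
    ∃ p q : K[X], a = aeval (gx x) p / aeval (gx x) q := by
  refine mem_adjoin_eq_div ?_
  rw [adjoin_gx_eq_top]; trivial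

omit [IsAlgClosed K] [IsFunctionField K F] in
/-- The order at a place over `x = c` is proportional to `ord (x - c)`. -/
theorem ord_eq_of_zero {v v' : Place K K⟮x⟯} {c : K}
    (h : 0 < v.ord (gx x - algebraMap K K⟮x⟯ c))
    (h' : 0 < v'.ord (gx x - algebraMap K K⟮x⟯ c)) (a : K⟮x⟯) :
    v.ord a * v'.ord (gx x - algebraMap K K⟮x⟯ c) =
      v'.ord a * v.ord (gx x - algebraMap K K⟮x⟯ c) := by
  rcases eq_or_ne a 0 with rfl | ha
  · simp
  obtain ⟨p, q, rfl⟩ := gx_eq_div (a := a)
  have hp : p ≠ 0 := by rintro rfl; simp at ha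
  have hq : q ≠ 0 := by rintro rfl; simp at ha
  rw [ord_div v (ord_aeval_of_zero v h hp).1 (ord_aeval_of_zero v h hq).1,
    ord_div v' (ord_aeval_of_zero v' h' hp).1 (ord_aeval_of_zero v' h' hq).1,
    (ord_aeval_of_zero v h hp).2, (ord_aeval_of_zero v h hq).2,
    (ord_aeval_of_zero v' h' hp).2, (ord_aeval_of_zero v' h' hq).2]
  ring

omit [IsAlgClosed K] [IsFunctionField K F] in
theorem ord_eq_of_pole {v v' : Place K K⟮x⟯} (h : v.ord (gx (K := K) x) < 0)
    (h' : v'.ord (gx (K := K) x) < 0) (a : K⟮x⟯) :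
    v.ord a * v'.ord (gx (K := K) x) = v'.ord a * v.ord (gx (K := K) x) := by
  rcases eq_or_ne a 0 with rfl | ha
  · simp
  obtain ⟨p, q, rfl⟩ := gx_eq_div (a := a)
  have hp : p ≠ 0 := by rintro rfl; simp at ha
  have hq : q ≠ 0 := by rintro rfl; simp at ha
  rw [ord_div v (ord_aeval_of_pole v h hp).1 (ord_aeval_of_pole v h hq).1,
    ord_div v' (ord_aeval_of_pole v' h' hp).1 (ord_aeval_of_pole v' h' hq).1,
    (ord_aeval_of_pole v h hp).2, (ord_aeval_of_pole v h hq).2,
    (ord_aeval_of_pole v' h' hp).2, (ord_aeval_of_pole v' h' hq).2]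
  ring

omit [IsFunctionField K F] in
omit [IsAlgClosed K] in
theorem place_zero_unique {v v' : Place K K⟮x⟯} {c : K}
    (h : 0 < v.ord (gx x - algebraMap K K⟮x⟯ c))
    (h' : 0 < v'.ord (gx x - algebraMap K K⟮x⟯ c)) : v = v' := by
  refine eq_of_forall_mem fun a ha => ?_
  rw [← ord_nonneg_iff] at ha ⊢
  have := ord_eq_of_zero h h' a
  nlinarith [mul_nonneg ha h'.le]

omit [IsFunctionField K F] in
omit [IsAlgClosed K] in
theorem place_pole_unique {v v' : Place K K⟮x⟯} (h : v.ord (gx (K := K) x) < 0)
    (h' : v'.ord (gx (K := K) x) < 0) : v = v' := by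
  refine eq_of_forall_mem fun a ha => ?_
  rw [← ord_nonneg_iff] at ha ⊢
  have := ord_eq_of_pole h h' a
  nlinarith [mul_nonneg ha (neg_nonneg.2 h'.le)]

omit [IsAlgClosed K] [IsFunctionField K F] in
theorem ord_gx_sub (v : Place K K⟮x⟯) {c : K}
    (h : 0 < v.ord (gx x - algebraMap K K⟮x⟯ c)) : v.ord (gx x - algebraMap K K⟮x⟯ c) = 1 := by
  obtain ⟨t, ht0, ht⟩ := exists_ord_eq_one v
  obtain ⟨p, q, rfl⟩ := gx_eq_div (a := t)
  have hp : p ≠ 0 := by rintro rfl; simp at ht0
  have hq : q ≠ 0 := by rintro rfl; simp at ht0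
  rw [ord_div v (ord_aeval_of_zero v h hp).1 (ord_aeval_of_zero v h hq).1,
    (ord_aeval_of_zero v h hp).2, (ord_aeval_of_zero v h hq).2, ← sub_mul] at ht
  exact Int.eq_one_of_mul_eq_one_left h.le ht

omit [IsAlgClosed K] [IsFunctionField K F] in
theorem ord_gx_pole (v : Place K K⟮x⟯) (h : v.ord (gx (K := K) x) < 0) :
    v.ord (gx (K := K) x) = -1 := by
  obtain ⟨t, ht0, ht⟩ := exists_ord_eq_one v
  obtain ⟨p, q, rfl⟩ := gx_eq_div (a := t)
  have hp : p ≠ 0 := by rintro rfl; simp at ht0
  have hq : q ≠ 0 := by rintro rfl; simp at ht0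
  rw [ord_div v (ord_aeval_of_pole v h hp).1 (ord_aeval_of_pole v h hq).1,
    (ord_aeval_of_pole v h hp).2, (ord_aeval_of_pole v h hq).2, ← sub_mul] at ht
  have h2 : -v.ord (gx (K := K) x) = 1 := by
    refine Int.eq_one_of_mul_eq_one_left (a := -((p.natDegree : ℤ) - q.natDegree)) (by omega) ?_
    linarith
  omega

section Degree

variable (hx : Transcendental K x)
include hx

/-- The place `x = c` of `K(x)`. -/
def finitePlace (c : K) : Place K K⟮x⟯ := (exists_place_zero hx c).choose

/-- The place `x = ∞` of `K(x)`. -/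
def infinitePlace : Place K K⟮x⟯ := (exists_place_pole hx).choose

omit [IsFunctionField K F] in
theorem ord_finitePlace (c : K) :
    (finitePlace hx c).ord (gx x - algebraMap K K⟮x⟯ c) = 1 :=
  ord_gx_sub _ (exists_place_zero hx c).choose_spec

omit [IsFunctionField K F] in
theorem ord_infinitePlace : (infinitePlace hx).ord (gx (K := K) x) = -1 :=
  ord_gx_pole _ (exists_place_pole hx).choose_spec

variable [FiniteDimensional K⟮x⟯ F]

omit [IsFunctionField K F] in
theorem restrict_eq_finitePlace_iff {w : Place K F} {c : K} :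
    w.restrict K⟮x⟯ = finitePlace hx c ↔ 0 < w.ord (x - algebraMap K F c) := by
  have he : x - algebraMap K F c = algebraMap K⟮x⟯ F (gx x - algebraMap K K⟮x⟯ c) := by
    rw [map_sub, ← IsScalarTower.algebraMap_apply]; rfl
  have hpos := one_le_ramificationIndex (F := K⟮x⟯) w
  rw [he, w.ord_restrict (F := K⟮x⟯)]
  constructor
  · intro h
    rw [h, ord_finitePlace]; omega
  · intro h
    refine place_zero_unique ?_ (by rw [ord_finitePlace]; omega)
    by_contra! hle
    nlinarith

omit [IsFunctionField K F] in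
theorem restrict_eq_infinitePlace_iff {w : Place K F} :
    w.restrict K⟮x⟯ = infinitePlace hx ↔ w.ord x < 0 := by
  have he : x = algebraMap K⟮x⟯ F (gx x) := rfl
  have hpos := one_le_ramificationIndex (F := K⟮x⟯) w
  conv_rhs => rw [he, w.ord_restrict (F := K⟮x⟯)]
  constructor
  · intro h
    rw [h, ord_infinitePlace]; omega
  · intro h
    refine place_pole_unique ?_ (by rw [ord_infinitePlace]; omega)
    by_contra! hle
    nlinarith

omit [IsFunctionField K F] in
theorem ramificationIndex_eq_ord_sub {w : Place K F} {c : K}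
    (h : 0 < w.ord (x - algebraMap K F c)) :
    (w.ramificationIndex K⟮x⟯ : ℤ) = w.ord (x - algebraMap K F c) := by
  have he : x - algebraMap K F c = algebraMap K⟮x⟯ F (gx x - algebraMap K K⟮x⟯ c) := by
    rw [map_sub, ← IsScalarTower.algebraMap_apply]; rfl
  rw [he, w.ord_restrict (F := K⟮x⟯), (restrict_eq_finitePlace_iff hx).2 h, ord_finitePlace,
    mul_one]

omit [IsFunctionField K F] in
theorem ramificationIndex_eq_neg_ord {w : Place K F} (h : w.ord x < 0) :
    (w.ramificationIndex K⟮x⟯ : ℤ) = -w.ord x := by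
  have he : x = algebraMap K⟮x⟯ F (gx x) := rfl
  conv_rhs => rw [he, w.ord_restrict (F := K⟮x⟯), (restrict_eq_infinitePlace_iff hx).2 h,
    ord_infinitePlace, mul_neg, mul_one, neg_neg]

theorem sum_ord_poles_le (S : Finset (Place K F)) (hS : ∀ w ∈ S, w.ord x < 0) :
    ∑ w ∈ S, -w.ord x ≤ Module.finrank K⟮x⟯ F := by
  have := isFunctionField_adjoin hx
  have h1 := sum_ramificationIndex_le (F := K⟮x⟯) (v := infinitePlace hx) S
    fun w hw => (restrict_eq_infinitePlace_iff hx).2 (hS w hw)
  rw [← Finset.sum_congr rfl fun w hw => ramificationIndex_eq_neg_ord hx (hS w hw)]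
  exact_mod_cast h1

theorem finite_poles_of_transcendental : {w : Place K F | w.ord x < 0}.Finite := by
  have := isFunctionField_adjoin hx
  exact (finite_placesOver F (infinitePlace hx)).subset fun w hw =>
    (restrict_eq_infinitePlace_iff hx).2 hw

end Degree

theorem finite_ord_neg (f : F) : {w : Place K F | w.ord f < 0}.Finite := by
  rcases eq_algebraMap_or_transcendental (K := K) f with ⟨c, rfl⟩ | hf
  · simp [ord_algebraMap]
  · have := finiteDimensional_adjoin hf
    exact finite_poles_of_transcendental hf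

theorem finite_ord_ne_zero (f : F) : {w : Place K F | w.ord f ≠ 0}.Finite :=
  ((finite_ord_neg (K := K) f).union (finite_ord_neg (K := K) f⁻¹)).subset fun w hw => by
    simp only [Set.mem_ofPred_eq, Set.mem_union, w.ord_inv] at hw ⊢
    omega

/-- The divisor of a function. -/
def divisorOf (f : F) : Divisor K F :=
  Finsupp.ofSupportFinite (fun w : Place K F => w.ord f) (finite_ord_ne_zero f)

@[simp]
theorem divisorOf_apply (f : F) (w : Place K F) : divisorOf f w = w.ord f := rfl

/-- The polar divisor of a function. -/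
def polarDivisor (f : F) : Divisor K F :=
  (divisorOf f).mapRange (fun n => max (-n) 0) (by simp)

@[simp]
theorem polarDivisor_apply (f : F) (w : Place K F) :
    polarDivisor f w = max (-w.ord f) 0 := rfl

theorem polarDivisor_nonneg (f : F) : 0 ≤ polarDivisor (K := K) f :=
  Finsupp.le_def.2 fun w => by simp

omit [IsAlgClosed K] [IsFunctionField K F] in
theorem linearIndependent_pow_gx (hx : Transcendental K x) (l : ℕ) :
    LinearIndependent K fun j : Fin (l + 1) => (gx (K := K) x) ^ (j : ℕ) := by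
  rw [Fintype.linearIndependent_iff]
  intro g hg j
  have h0 : aeval (gx (K := K) x) (∑ j : Fin (l + 1), Polynomial.C (g j) * X ^ (j : ℕ)) = 0 := by
    simp only [map_sum, map_mul, map_pow, aeval_C, aeval_X, ← Algebra.smul_def]
    exact hg
  have := congrArg (fun p : K[X] => p.coeff j)
    (transcendental_iff.1 (transcendental_gx hx) _ h0)
  simpa [coeff_X_pow, Fin.val_inj, Finset.sum_ite_eq, Finset.sum_ite_eq'] using this

omit [IsAlgClosed K] [IsFunctionField K F] in
theorem linearIndependent_pow_mul (hx : Transcendental K x) (l : ℕ) {ι : Type*}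
    (u : Module.Basis ι K⟮x⟯ F) :
    LinearIndependent K fun p : Fin (l + 1) × ι => x ^ (p.1 : ℕ) * u p.2 := by
  have h := linearIndependent_smul (linearIndependent_pow_gx hx l) u.linearIndependent
  have heq : (fun p : Fin (l + 1) × ι => (gx (K := K) x) ^ (p.1 : ℕ) • u p.2) =
      fun p : Fin (l + 1) × ι => x ^ (p.1 : ℕ) * u p.2 := by
    funext p
    rw [Algebra.smul_def, map_pow, AdjoinSimple.algebraMap_gen]
  exact heq ▸ h

omit [IsAlgClosed K] [IsFunctionField K F] in
theorem mem_riemannRochSpace_pow_mul {B C : Divisor K F} (hB : 0 ≤ B)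
    (hxB : x ∈ riemannRochSpace B) {u : F} (hu : u ∈ riemannRochSpace C) {j l : ℕ} (hjl : j ≤ l) :
    x ^ j * u ∈ riemannRochSpace ((l : ℤ) • B + C) := by
  refine mem_riemannRochSpace.2 fun w => ?_
  have hpow : VanishesTo w (-((j : ℤ) * B w)) (x ^ j) := by
    induction j with
    | zero => simp [VanishesTo]
    | succ j ih =>
      rw [pow_succ]
      exact ((ih (by omega)).mul (mem_riemannRochSpace.1 hxB w)).mono (by push_cast; linarith)
  refine (hpow.mul (mem_riemannRochSpace.1 hu w)).mono ?_
  have hBw : 0 ≤ B w := Finsupp.le_def.1 hB w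
  have : (j : ℤ) * B w ≤ (l : ℤ) * B w :=
    mul_le_mul_of_nonneg_right (Int.ofNat_le.2 hjl) hBw
  rw [Finsupp.add_apply, Finsupp.smul_apply, smul_eq_mul]
  linarith

theorem self_mem_riemannRochSpace_polarDivisor (f : F) :
    f ∈ riemannRochSpace (polarDivisor (K := K) f) :=
  mem_riemannRochSpace.2 fun w => Or.inr (by simp only [polarDivisor_apply]; omega)

theorem finrank_mul_le (hx : Transcendental K x) {ι : Type*} [Fintype ι]
    (u : Module.Basis ι K⟮x⟯ F) {B C : Divisor K F} (hB : 0 ≤ B)
    (hxB : x ∈ riemannRochSpace B) (hu : ∀ i, u i ∈ riemannRochSpace C) (l : ℕ) :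
    (l + 1) * Fintype.card ι ≤ Module.finrank K (riemannRochSpace ((l : ℤ) • B + C)) := by
  have hmem : ∀ p : Fin (l + 1) × ι,
      x ^ (p.1 : ℕ) * u p.2 ∈ riemannRochSpace ((l : ℤ) • B + C) := fun p =>
    mem_riemannRochSpace_pow_mul hB hxB (hu p.2) (Nat.lt_succ_iff.1 p.1.2)
  have hind : LinearIndependent K fun p : Fin (l + 1) × ι =>
      (⟨x ^ (p.1 : ℕ) * u p.2, hmem p⟩ : riemannRochSpace ((l : ℤ) • B + C)) :=
    LinearIndependent.of_comp (riemannRochSpace ((l : ℤ) • B + C)).subtype
      (linearIndependent_pow_mul hx l u)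
  have h := hind.fintype_card_le_finrank
  rw [Fintype.card_prod, Fintype.card_fin] at h
  exact h

theorem finrank_le_degree_polarDivisor (hx : Transcendental K x) [FiniteDimensional K⟮x⟯ F] :
    (Module.finrank K⟮x⟯ F : ℤ) ≤ Divisor.degree (polarDivisor (K := K) x) := by
  obtain ⟨C, hC0, hC⟩ : ∃ C : Divisor K F, 0 ≤ C ∧
      ∀ i, Module.finBasis K⟮x⟯ F i ∈ riemannRochSpace C := by
    refine ⟨∑ i, polarDivisor (Module.finBasis K⟮x⟯ F i),
      Finset.sum_nonneg fun i _ => polarDivisor_nonneg _, fun i => ?_⟩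
    exact riemannRochSpace_mono (Finset.single_le_sum
      (f := fun i => polarDivisor (Module.finBasis K⟮x⟯ F i))
      (fun j _ => polarDivisor_nonneg _) (Finset.mem_univ i))
      (self_mem_riemannRochSpace_polarDivisor _)
  by_contra! hlt
  obtain ⟨l, hl⟩ : ∃ l : ℕ, Divisor.degree C + 1 < l := ⟨(Divisor.degree C + 2).toNat, by omega⟩
  have h1 := finrank_mul_le hx (Module.finBasis K⟮x⟯ F) (polarDivisor_nonneg (K := K) x)
    (self_mem_riemannRochSpace_polarDivisor x) hC l
  rw [Fintype.card_fin] at h1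
  have h2 := finrank_le_degree_add_one (K := K) (D := (l : ℤ) • polarDivisor (K := K) x + C)
    (add_nonneg (zsmul_nonneg (polarDivisor_nonneg _) (by positivity)) hC0)
  rw [map_add, map_zsmul, smul_eq_mul] at h2
  have h3 : (((l + 1) * Module.finrank K⟮x⟯ F : ℕ) : ℤ) ≤
      l * Divisor.degree (polarDivisor (K := K) x) + Divisor.degree C + 1 :=
    (Int.ofNat_le.2 h1).trans h2
  push_cast at h3
  have h4 := mul_le_mul_of_nonneg_left (Int.add_one_le_iff.2 hlt) (show (0 : ℤ) ≤ l by omega)
  linarith

theorem degree_polarDivisor_eq_sum (f : F) {S : Finset (Place K F)}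
    (hS : ∀ w, w.ord f < 0 → w ∈ S) (hS' : ∀ w ∈ S, w.ord f < 0) :
    Divisor.degree (polarDivisor (K := K) f) = ∑ w ∈ S, -w.ord f := by
  rw [degree_eq_sum, Finsupp.sum_of_support_subset _ (s := S) _ _ (fun _ _ => rfl)]
  · exact Finset.sum_congr rfl fun w hw => by
      have := hS' w hw
      simp only [polarDivisor_apply]; omega
  · intro w hw
    rw [Finsupp.mem_support_iff, polarDivisor_apply] at hw
    exact hS w (by omega)

/-- The degree of the polar divisor of `x` is `[F : K(x)]`. -/
theorem degree_polarDivisor (hx : Transcendental K x) [FiniteDimensional K⟮x⟯ F] :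
    Divisor.degree (polarDivisor (K := K) x) = Module.finrank K⟮x⟯ F := by
  refine le_antisymm ?_ (finrank_le_degree_polarDivisor hx)
  have hfin := finite_poles_of_transcendental hx
  rw [degree_polarDivisor_eq_sum x (S := hfin.toFinset) (by simp) (by simp)]
  exact sum_ord_poles_le hx _ (by simp)

omit [IsAlgClosed K] [IsFunctionField K F] in
theorem finrank_adjoin_inv (x : F) : Module.finrank K⟮x⁻¹⟯ F = Module.finrank K⟮x⟯ F := by
  rw [show K⟮x⁻¹⟯ = K⟮x⟯ from le_antisymm
    (adjoin_simple_le_iff.2 (inv_mem (mem_adjoin_simple_self K x)))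
    (adjoin_simple_le_iff.2 (by simpa using inv_mem (mem_adjoin_simple_self K x⁻¹)))]

/-- Principal divisors have degree zero. -/
theorem degree_divisorOf (f : F) : Divisor.degree (divisorOf (K := K) f) = 0 := by
  rcases eq_algebraMap_or_transcendental (K := K) f with ⟨c, rfl⟩ | hf
  · rw [show divisorOf (K := K) (algebraMap K F c) = 0 from
      Finsupp.ext fun w => by simp [ord_algebraMap]]
    simp
  · have hf' : Transcendental K f⁻¹ := fun h => hf (by simpa using h.inv)
    have := finiteDimensional_adjoin hf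
    have := finiteDimensional_adjoin hf'
    have h : divisorOf (K := K) f = polarDivisor f⁻¹ - polarDivisor f := Finsupp.ext fun w => by
      simp only [Finsupp.sub_apply, divisorOf_apply, polarDivisor_apply, w.ord_inv]
      omega
    rw [h, map_sub, degree_polarDivisor hf, degree_polarDivisor hf', finrank_adjoin_inv, sub_self]

theorem hasPrincipalDivisors : HasPrincipalDivisors K F :=
  ⟨fun f _ => ⟨divisorOf f, fun _ => rfl, degree_divisorOf f⟩⟩

/-! ### Fibres of `x` -/

section Fibers

variable (hx : Transcendental K x)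
include hx

omit [IsFunctionField K F] in
/-- The places of `K(x)` are `x = c` and `x = ∞`. -/
theorem eq_finitePlace_or_infinitePlace (v : Place K K⟮x⟯) :
    (∃ c, v = finitePlace hx c) ∨ v = infinitePlace hx := by
  have := isFunctionField_adjoin hx
  rcases ord_pos_or_ord_neg v (gx (K := K) x) with h | ⟨c, h | h⟩
  · exact Or.inr (place_pole_unique h (by rw [ord_infinitePlace]; omega))
  · exact absurd (h ▸ isAlgebraic_algebraMap c) (transcendental_gx hx)
  · exact Or.inl ⟨c, place_zero_unique h (by rw [ord_finitePlace]; omega)⟩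

omit hx [IsFunctionField K F] [IsAlgClosed K] in
theorem adjoin_sub_algebraMap (c : K) : K⟮x - algebraMap K F c⟯ = K⟮x⟯ :=
  le_antisymm
    (adjoin_simple_le_iff.2 (sub_mem (mem_adjoin_simple_self K x) (K⟮x⟯.algebraMap_mem c)))
    (adjoin_simple_le_iff.2 (by
      simpa using add_mem (mem_adjoin_simple_self K (x - algebraMap K F c))
        (K⟮x - algebraMap K F c⟯.algebraMap_mem c)))

variable [FiniteDimensional K⟮x⟯ F]

omit [FiniteDimensional (↥K⟮x⟯) F] in
/-- `∑ ord (x - c)` over the zeros of `x - c` is `[F : K(x)]`. -/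
theorem sum_ord_zeros (c : K) {S : Finset (Place K F)}
    (hS : ∀ w, w ∈ S ↔ 0 < w.ord (x - algebraMap K F c)) :
    ∑ w ∈ S, w.ord (x - algebraMap K F c) = Module.finrank K⟮x⟯ F := by
  have ht : Transcendental K (x - algebraMap K F c)⁻¹ := fun h => hx (by
    simpa using h.inv.add (isAlgebraic_algebraMap (A := F) c))
  have := finiteDimensional_adjoin ht
  have hd := degree_polarDivisor (K := K) ht
  rw [finrank_adjoin_inv, adjoin_sub_algebraMap] at hd
  rw [← hd, degree_polarDivisor_eq_sum _ (S := S)]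
  · exact Finset.sum_congr rfl fun w _ => by rw [w.ord_inv, neg_neg]
  · intro w hw; rw [w.ord_inv] at hw; exact (hS w).2 (by omega)
  · intro w hw; rw [w.ord_inv]; have := (hS w).1 hw; omega

/-- `∑ -ord x` over the poles of `x` is `[F : K(x)]`. -/
theorem sum_ord_poles {S : Finset (Place K F)} (hS : ∀ w, w ∈ S ↔ w.ord x < 0) :
    ∑ w ∈ S, -w.ord x = Module.finrank K⟮x⟯ F := by
  rw [← degree_polarDivisor (K := K) hx,
    degree_polarDivisor_eq_sum x (S := S) (fun w hw => (hS w).2 hw) fun w hw => (hS w).1 hw]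

theorem fullFiber_adjoin (v : Place K K⟮x⟯) :
    haveI := isFunctionField_adjoin hx
    FullFiber F v := by
  have := isFunctionField_adjoin hx
  rw [FullFiber]
  rcases eq_finitePlace_or_infinitePlace hx v with ⟨c, rfl⟩ | rfl
  · have hS : ∀ w : Place K F, w ∈ placesOver F (finitePlace hx c) ↔
        0 < w.ord (x - algebraMap K F c) :=
      fun w => mem_placesOver.trans (restrict_eq_finitePlace_iff hx)
    have h := sum_ord_zeros hx c hS
    rw [← Finset.sum_congr rfl fun w hw => ramificationIndex_eq_ord_sub hx ((hS w).1 hw)] at h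
    exact_mod_cast h
  · have hS : ∀ w : Place K F, w ∈ placesOver F (infinitePlace hx) ↔ w.ord x < 0 :=
      fun w => mem_placesOver.trans (restrict_eq_infinitePlace_iff hx)
    have h := sum_ord_poles hx hS
    rw [← Finset.sum_congr rfl fun w hw => ramificationIndex_eq_neg_ord hx ((hS w).1 hw)] at h
    exact_mod_cast h

end Fibers

end Fermat.Agent.FunctionFieldRR
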