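import Fermat.Agent.FunctionFieldRR.Basic

/-!
# Weak approximation for finitely many places
-/

set_option autoImplicit false

noncomputable section

open AlgebraicCurve

namespace Fermat.Agent.FunctionFieldRR

variable {K F : Type*} [Field K] [Field F] [Algebra K F]

theorem exists_ord_pos_ord_neg {P Q : Place K F} (h : P ≠ Q) :
    ∃ u : F, 0 < P.ord u ∧ Q.ord u < 0 := by
  obtain ⟨f, hfP, hfQ⟩ : ∃ f ∈ P.toValuationSubring, f ∉ Q.toValuationSubring := by
    by_contra! hc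
    exact h (eq_of_forall_mem hc)
  obtain ⟨g, hgQ, hgP⟩ : ∃ g ∈ Q.toValuationSubring, g ∉ P.toValuationSubring := by
    by_contra! hc
    exact h (eq_of_forall_mem hc).symm
  rw [← ord_nonneg_iff, not_le] at hgP hfQ
  rw [← ord_nonneg_iff] at hgQ hfP
  have hf0 : f ≠ 0 := by rintro rfl; simp at hfQ
  have hg0 : g ≠ 0 := by rintro rfl; simp at hgP
  refine ⟨f / g, ?_, ?_⟩ <;> rw [ord_div _ hf0 hg0] <;> omega

theorem exists_separating (P : Place K F) (s : Finset (Place K F)) (hP : P ∉ s) :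
    ∃ u : F, 0 < P.ord u ∧ ∀ Q ∈ s, Q.ord u < 0 := by
  classical
  induction s using Finset.induction with
  | empty => exact ⟨(exists_ord_eq_one P).choose, by simp [(exists_ord_eq_one P).choose_spec.2]⟩
  | @insert Q s hQ ih =>
    simp only [Finset.mem_insert, not_or] at hP
    obtain ⟨u, huP, hus⟩ := ih hP.2
    obtain ⟨w, hwP, hwQ⟩ := exists_ord_pos_ord_neg hP.1
    by_cases huQ : Q.ord u < 0
    · exact ⟨u, huP, by simpa using ⟨huQ, hus⟩⟩
    have hu0 : u ≠ 0 := by rintro rfl; simp at huP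
    have hw0 : w ≠ 0 := by rintro rfl; simp at hwP
    obtain ⟨r, hr0, hr⟩ : ∃ r : ℕ, 0 < r ∧ ∀ R ∈ s, |R.ord u| < r := by
      refine ⟨(∑ R ∈ s, (R.ord u).natAbs) + 1, Nat.succ_pos _, fun R hR => ?_⟩
      have := Finset.single_le_sum (f := fun R : Place K F => (R.ord u).natAbs) (by simp) hR
      rw [abs_lt]
      omega
    have hw : ∀ R : Place K F, R.ord (w ^ r) = r * R.ord w := fun R => ord_pow R w r
    have hwr0 : w ^ r ≠ 0 := pow_ne_zero _ hw0
    have hQ' : Q.ord (w ^ r) < Q.ord u := by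
      rw [hw]
      nlinarith [mul_le_mul_of_nonneg_left (show Q.ord w ≤ -1 by omega) (show (0:ℤ) ≤ r by omega)]
    have hsumQ : Q.ord (u + w ^ r) = Q.ord (w ^ r) := by
      rw [add_comm]; exact ord_add_eq_of_lt hwr0 hQ'
    have hne : u + w ^ r ≠ 0 := by
      intro h
      rw [h, Q.ord_zero, hw] at hsumQ
      nlinarith
    refine ⟨u + w ^ r, ?_, ?_⟩
    · refine le_ord_add (P := P) (m := 1) hne huP ?_
      rw [hw]; nlinarith
    · simp only [Finset.mem_insert, forall_eq_or_imp]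
      refine ⟨by rw [hsumQ, hw]; nlinarith, fun R hR => ?_⟩
      have habs := abs_lt.1 (hr R hR)
      have hu := hus R hR
      rcases lt_trichotomy (R.ord w) 0 with h | h | h
      · rw [add_comm, ord_add_eq_of_lt hwr0 (by rw [hw]; nlinarith), hw]; nlinarith
      · rw [ord_add_eq_of_lt hu0 (by rw [hw, h]; omega)]; exact hu
      · rw [ord_add_eq_of_lt hu0 (by rw [hw]; nlinarith)]; exact hu

theorem exists_near_one (P : Place K F) (s : Finset (Place K F)) (hP : P ∉ s) (m : ℤ) :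
    ∃ w : F, VanishesTo P m (w - 1) ∧ ∀ Q ∈ s, VanishesTo Q m w := by
  obtain ⟨u, huP, hus⟩ := exists_separating P s hP
  obtain ⟨k, hk0, hk⟩ : ∃ k : ℕ, 0 < k ∧ m ≤ k := ⟨m.toNat + 1, Nat.succ_pos _, by omega⟩
  have hu0 : u ≠ 0 := by rintro rfl; simp at huP
  have hpow : ∀ R : Place K F, R.ord (u ^ k) = k * R.ord u := fun R => ord_pow R u k
  have h1 : P.ord (1 + u ^ k) = 0 := by
    rw [ord_add_eq_of_lt one_ne_zero (by rw [P.ord_one, hpow]; positivity), P.ord_one]
  have hne : 1 + u ^ k ≠ 0 := by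
    intro h
    have h2 : u ^ k = -1 := eq_neg_of_add_eq_zero_right h
    have := hpow P
    rw [h2, ord_neg, P.ord_one] at this
    nlinarith
  refine ⟨(1 + u ^ k)⁻¹, ?_, fun Q hQ => Or.inr ?_⟩
  · have : (1 + u ^ k)⁻¹ - 1 = -(u ^ k * (1 + u ^ k)⁻¹) := by
      field_simp
      ring
    rw [this]
    refine VanishesTo.neg (Or.inr ?_)
    rw [P.ord_mul (pow_ne_zero _ hu0) (inv_ne_zero hne), P.ord_inv, h1, hpow]
    nlinarith
  · have hneg : Q.ord (u ^ k) < Q.ord (1 : F) := by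
      rw [hpow, Q.ord_one]; nlinarith [hus Q hQ]
    rw [Q.ord_inv, add_comm, ord_add_eq_of_lt (pow_ne_zero _ hu0) hneg, hpow]
    nlinarith [hus Q hQ]

/-- Weak approximation. -/
theorem exists_approx (s : Finset (Place K F)) (g : Place K F → F) (m : Place K F → ℤ) :
    ∃ f : F, ∀ P ∈ s, VanishesTo P (m P) (f - g P) := by
  classical
  set M : ℕ := ∑ P ∈ s, ((m P).natAbs + ∑ Q ∈ s, (Q.ord (g P)).natAbs) with hM
  have hb : ∀ P ∈ s, ∀ Q ∈ s, m P ≤ (2 * M : ℕ) + P.ord (g Q) := by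
    intro P hP Q hQ
    have h1 := Finset.single_le_sum
      (f := fun P : Place K F => (m P).natAbs + ∑ Q ∈ s, (Q.ord (g P)).natAbs) (by simp) hP
    have h2 := Finset.single_le_sum
      (f := fun P : Place K F => (m P).natAbs + ∑ Q ∈ s, (Q.ord (g P)).natAbs) (by simp) hQ
    have h3 := Finset.single_le_sum (f := fun R : Place K F => (R.ord (g Q)).natAbs) (by simp) hP
    omega
  choose w hw1 hw2 using fun P : Place K F =>
    exists_near_one P (s.erase P) (Finset.notMem_erase P s) (2 * M : ℕ)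
  refine ⟨∑ Q ∈ s, w Q * g Q, fun P hP => ?_⟩
  have : (∑ Q ∈ s, w Q * g Q) - g P = (w P - 1) * g P + ∑ Q ∈ s.erase P, w Q * g Q := by
    rw [← Finset.add_sum_erase s _ hP]; ring
  rw [this]
  have hg : ∀ Q, VanishesTo P (P.ord (g Q)) (g Q) := fun Q => Or.inr le_rfl
  refine (((hw1 P).mul (hg P)).mono (hb P hP P hP)).add (VanishesTo.sum _ _ fun Q hQ => ?_)
  exact ((hw2 Q P (Finset.mem_erase.2 ⟨Ne.symm (Finset.ne_of_mem_erase hQ), hP⟩)).mul (hg Q)).mono
    (hb P hP Q (Finset.mem_of_mem_erase hQ))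

/-- There are functions with prescribed orders at finitely many places. -/
theorem exists_ord_eq (s : Finset (Place K F)) (n : Place K F → ℤ) :
    ∃ f : F, f ≠ 0 ∧ ∀ P ∈ s, P.ord f = n P := by
  choose t ht0 ht using fun P : Place K F => exists_ord_eq_one P
  obtain ⟨f, hf⟩ := exists_approx s (fun P => t P ^ n P) (fun P => n P + 1)
  have key : ∀ P ∈ s, f ≠ 0 ∧ P.ord f = n P := by
    intro P hP
    have ho : P.ord (t P ^ n P) = n P := by rw [P.ord_zpow, ht P, mul_one]
    have := ord_eq_of_vanishesTo_sub (zpow_ne_zero (n P) (ht0 P)) (by rw [ho]; exact hf P hP)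
    exact ⟨this.1, this.2.trans ho⟩
  rcases s.eq_empty_or_nonempty with rfl | ⟨P, hP⟩
  · exact ⟨1, one_ne_zero, by simp⟩
  · exact ⟨f, (key P hP).1, fun Q hQ => (key Q hQ).2⟩

end Fermat.Agent.FunctionFieldRR
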