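import Fermat.Agent.FunctionFieldRR.ReducedBasis

/-!
# The Riemann–Roch theorem

For a separating element `x` the divisor `canonicalDiv = different - 2·(x)∞` satisfies
`l(D) - l(canonicalDiv - D) = deg D + 1 - g` with `g = l(canonicalDiv)`.
-/

set_option autoImplicit false

noncomputable section

open AlgebraicCurve IntermediateField Polynomial
open scoped Classical

namespace Fermat.Agent.FunctionFieldRR

variable {K F : Type*} [Field K] [Field F] [Algebra K F] [IsAlgClosed K] [IsFunctionField K F]
  {x : F}

section Rational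

omit [IsFunctionField K F] in
/-- An element of `K(x)` regular at every finite place is a polynomial in `x`. -/
theorem exists_polynomial_of_regular (hx : Transcendental K x) {a : K⟮x⟯}
    (h : ∀ c : K, VanishesTo (finitePlace hx c) 0 a) : ∃ p : K[X], a = aeval (gx x) p := by
  have := isFunctionField_adjoin hx
  obtain ⟨p, q, rfl⟩ := gx_eq_div (a := a)
  induction hd : q.natDegree using Nat.strong_induction_on generalizing p q with
  | _ d ih =>
    rcases eq_or_ne q 0 with rfl | hq
    · exact ⟨0, by simp⟩
    rcases Nat.eq_zero_or_pos d with rfl | hdpos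
    · refine ⟨p * Polynomial.C (q.coeff 0)⁻¹, ?_⟩
      have hc : aeval (gx (K := K) x) q = algebraMap K K⟮x⟯ (q.coeff 0) := by
        conv_lhs => rw [eq_C_of_natDegree_eq_zero hd, aeval_C]
      rw [map_mul, aeval_C, hc, map_inv₀, div_eq_mul_inv]
    · obtain ⟨c, hc⟩ := IsAlgClosed.exists_root q
        (fun h => by rw [natDegree_eq_zero_iff_degree_le_zero.2 h.le] at hd; omega)
      have hv : 0 < (finitePlace hx c).ord (gx x - algebraMap K K⟮x⟯ c) := by
        rw [ord_finitePlace]; exact one_pos
      have hp : p.IsRoot c := by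
        by_contra hp
        have hp0 : p ≠ 0 := by rintro rfl; simp at hp
        obtain ⟨h1, h1'⟩ := ord_aeval_of_zero _ hv hp0
        obtain ⟨h2, h2'⟩ := ord_aeval_of_zero _ hv hq
        have hh := (h c).resolve_left (div_ne_zero h1 h2)
        rw [ord_div _ h1 h2, h1', h2', rootMultiplicity_eq_zero hp] at hh
        have := (rootMultiplicity_pos hq).2 hc
        rw [ord_finitePlace] at hh
        omega
      obtain ⟨p', rfl⟩ := dvd_iff_isRoot.2 hp
      obtain ⟨q', rfl⟩ := dvd_iff_isRoot.2 hc
      have hq' : q' ≠ 0 := right_ne_zero_of_mul hq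
      have ht : aeval (gx (K := K) x) (Polynomial.X - Polynomial.C c) ≠ 0 :=
        (ord_aeval_of_zero _ hv (X_sub_C_ne_zero c)).1
      rw [natDegree_mul (X_sub_C_ne_zero c) hq', natDegree_X_sub_C] at hd
      rw [map_mul, map_mul, mul_div_mul_left _ _ ht] at h ⊢
      exact ih q'.natDegree (by omega) p' q' h rfl

omit [IsFunctionField K F] in
theorem vanishesTo_finitePlace_aeval (hx : Transcendental K x) (c : K) (p : K[X]) :
    VanishesTo (finitePlace hx c) 0 (aeval (gx x) p) := by
  refine (vanishesTo_zero_iff _).2 (aeval_mem _ (finitePlace hx c).algebraMap_mem' ?_ p)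
  have h1 : gx x - algebraMap K K⟮x⟯ c ∈ (finitePlace hx c).toValuationSubring :=
    (ord_nonneg_iff _ _).1 (by rw [ord_finitePlace]; exact zero_le_one)
  simpa using add_mem h1 ((finitePlace hx c).algebraMap_mem' c)

omit [IsFunctionField K F] in
theorem ord_infinitePlace_aeval (hx : Transcendental K x) {p : K[X]} (hp : p ≠ 0) :
    aeval (gx (K := K) x) p ≠ 0 ∧ (infinitePlace hx).ord (aeval (gx x) p) = -(p.natDegree : ℤ) := by
  obtain ⟨h1, h2⟩ := ord_aeval_of_pole (infinitePlace hx) (x := gx (K := K) x)
    (by rw [ord_infinitePlace]; omega) hp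
  exact ⟨h1, by rw [h2, ord_infinitePlace]; ring⟩

omit [IsFunctionField K F] in
theorem vanishesTo_infinitePlace_zpow (hx : Transcendental K x) (k : ℤ) :
    VanishesTo (infinitePlace hx) (-k) ((gx (K := K) x) ^ k) :=
  Or.inr (by rw [(infinitePlace hx).ord_zpow, ord_infinitePlace]; omega)

omit [IsAlgClosed K] [IsFunctionField K F] in
theorem gx_ne_zero (hx : Transcendental K x) : gx (K := K) x ≠ 0 := fun h =>
  transcendental_gx hx (h ▸ isAlgebraic_zero)

end Rational

omit [IsAlgClosed K] [IsFunctionField K F] in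
theorem aeval_gx_eq_zero (hx : Transcendental K x) {p : K[X]}
    (h : aeval (gx (K := K) x) p = 0) : p = 0 :=
  transcendental_iff.1 (transcendental_gx hx) p h

theorem aeval_mul_mem {D : Divisor K F} {b : F} {d m : ℤ} {p : K[X]}
    (hb : b ∈ riemannRochSpace (D + d • polarDivisor (K := K) x))
    (hp : p ∈ degreeLT K (m - d + 1).toNat) :
    aeval x p * b ∈ riemannRochSpace (D + m • polarDivisor (K := K) x) := by
  refine mem_riemannRochSpace.2 fun w => ?_
  rcases eq_or_ne p 0 with rfl | hp0
  · simp [VanishesTo]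
  have hdeg : (p.natDegree : ℤ) ≤ m - d := by
    have := (natDegree_lt_iff_degree_lt hp0).2 (mem_degreeLT.1 hp)
    omega
  have hb' := mem_riemannRochSpace.1 hb w
  simp only [Finsupp.add_apply, Finsupp.smul_apply, smul_eq_mul, polarDivisor_apply] at hb' ⊢
  by_cases hwx : w.ord x < 0
  · have h1 : VanishesTo w (p.natDegree * w.ord x) (aeval x p) :=
      Or.inr (ord_aeval_of_pole w hwx hp0).2.ge
    rw [max_eq_left (by omega)] at hb' ⊢
    refine (h1.mul hb').mono ?_
    nlinarith [mul_le_mul_of_nonneg_right hdeg (show 0 ≤ -w.ord x by omega)]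
  · have h1 : VanishesTo w 0 (aeval x p) := (vanishesTo_zero_iff w).2
      (aeval_mem w.toValuationSubring w.algebraMap_mem' ((ord_nonneg_iff _ _).1 (not_lt.1 hwx)) _)
    rw [max_eq_right (by omega)] at hb' ⊢
    exact (h1.mul hb').mono (by simp)

/-- The polynomial combinations with degree bounds `k`. -/
def boundedComb {ι : Type*} [Fintype ι] (b : ι → F) (k : ι → ℕ) (x : F) :
    ((i : ι) → degreeLT K (k i)) →ₗ[K] F :=
  (combPoly (x := x) b).comp (LinearMap.pi fun i => (degreeLT K (k i)).subtype ∘ₗ LinearMap.proj i)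

omit [IsAlgClosed K] [IsFunctionField K F] in
theorem finrank_range_boundedComb (hx : Transcendental K x) {ι : Type*} [Fintype ι]
    (b : Module.Basis ι K⟮x⟯ F) (k : ι → ℕ) :
    Module.finrank K (LinearMap.range (boundedComb (K := K) b k x)) = ∑ i, k i := by
  have hinj : Function.Injective (boundedComb (K := K) b k x) := by
    rw [injective_iff_map_eq_zero]
    intro p hp
    have h0 : combPoly (x := x) (b : ι → F) (fun i => (p i : K[X])) = 0 := hp
    rw [combPoly_eq_sum_smul] at h0
    have := Fintype.linearIndependent_iff.1 b.linearIndependent _ h0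
    funext i
    exact Subtype.ext (aeval_gx_eq_zero hx (this i))
  have : ∀ i, Module.Free K (degreeLT K (k i)) := fun i =>
    Module.Free.of_equiv (degreeLTEquiv K (k i)).symm
  have : ∀ i, Module.Finite K (degreeLT K (k i)) := fun i =>
    Module.Finite.equiv (degreeLTEquiv K (k i)).symm
  rw [LinearMap.finrank_range_of_inj hinj, Module.finrank_pi_fintype]
  exact Finset.sum_congr rfl fun i _ => by
    rw [(degreeLTEquiv K (k i)).finrank_eq, Module.finrank_fintype_fun_eq_card, Fintype.card_fin]

section Main

variable (hx : Transcendental K x) [FiniteDimensional K⟮x⟯ F] [Algebra.IsSeparable K⟮x⟯ F]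
include hx

/-- The different exponent over `K(x)`. -/
def differentExp (w : Place K F) : ℕ :=
  haveI := isFunctionField_adjoin hx
  diffExp K⟮x⟯ w

/-- The different divisor of `F` over `K(x)`. -/
def differentDiv : Divisor K F :=
  Finsupp.ofSupportFinite (fun w : Place K F => (differentExp hx w : ℤ)) (by
    have := isFunctionField_adjoin hx
    refine (finite_diffExp_ne_zero (F := K⟮x⟯) (fullFiber_adjoin hx) finite_ord_neg).subset ?_
    intro w hw
    simpa [differentExp] using hw)

theorem differentDiv_apply (w : Place K F) : differentDiv hx w = (differentExp hx w : ℤ) := rfl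

/-- The canonical divisor `different - 2·(x)∞`. -/
def canonicalDiv : Divisor K F := differentDiv hx - (2 : ℤ) • polarDivisor (K := K) x

theorem canonicalDiv_apply (w : Place K F) :
    canonicalDiv hx w = (differentExp hx w : ℤ) - 2 * max (-w.ord x) 0 := rfl

omit [IsFunctionField K F] in
theorem ord_nonneg_of_restrict_eq {w : Place K F} {c : K}
    (hc : w.restrict K⟮x⟯ = finitePlace hx c) : 0 ≤ w.ord x := by
  have hz := (restrict_eq_finitePlace_iff hx).1 hc
  by_contra! hneg
  have := ord_aeval_of_pole w hneg (X_sub_C_ne_zero c)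
  rw [map_sub, aeval_X, aeval_C] at this
  rw [this.2, natDegree_X_sub_C] at hz
  omega

/-- Membership in `L(canonicalDiv - D)` is a trace condition on the two charts. -/
theorem mem_canonical_sub_iff [IsFunctionField K K⟮x⟯] (D : Divisor K F) (f : F) :
    f ∈ riemannRochSpace (canonicalDiv hx - D) ↔
      (∀ c : K, ∀ g : F, (∀ w ∈ placesOver F (finitePlace hx c), VanishesTo w (-D w) g) →
        VanishesTo (finitePlace hx c) 0 (Algebra.trace K⟮x⟯ F (f * g))) ∧
      ∀ g : F, (∀ w ∈ placesOver F (infinitePlace hx), VanishesTo w (-D w) g) →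
        VanishesTo (infinitePlace hx) 0
          (Algebra.trace K⟮x⟯ F (((gx (K := K) x) ^ (2 : ℤ) • f) * g)) := by
  have hfull := fullFiber_adjoin (F := F) hx
  rw [mem_riemannRochSpace]
  constructor
  · intro hf
    refine ⟨fun c => (forall_trace_regular_iff hfull (v := finitePlace hx c) (fun w => D w)).2
      fun w hw => ?_, (forall_trace_regular_iff hfull (v := infinitePlace hx) (fun w => D w)).2
      fun w hw => ?_⟩
    · refine (hf w).mono ?_
      rw [Finsupp.sub_apply, canonicalDiv_apply, differentExp,
        max_eq_right (neg_nonpos.2 (ord_nonneg_of_restrict_eq hx (mem_placesOver.1 hw)))]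
      omega
    · have hwx := (mem_infFiber hx).1 hw
      have he := ramificationIndex_eq_neg_ord hx hwx
      refine (vanishesTo_mul_algebraMap (mem_placesOver.1 hw)
        (vanishesTo_infinitePlace_zpow hx 2) (hf w)).mono ?_
      rw [Finsupp.sub_apply, canonicalDiv_apply, differentExp, he, max_eq_left (by omega)]
      linarith
  · rintro ⟨hfin, hinf⟩ w
    rw [Finsupp.sub_apply, canonicalDiv_apply]
    rcases eq_finitePlace_or_infinitePlace hx (w.restrict K⟮x⟯) with ⟨c, hc⟩ | hc
    · refine ((forall_trace_regular_iff hfull (v := finitePlace hx c) (fun w => D w)).1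
        (hfin c) w (mem_placesOver.2 hc)).mono ?_
      rw [differentExp, max_eq_right (neg_nonpos.2 (ord_nonneg_of_restrict_eq hx hc))]
      omega
    · have hwx := (restrict_eq_infinitePlace_iff hx).1 hc
      have he := ramificationIndex_eq_neg_ord hx hwx
      have h2 := vanishesTo_mul_algebraMap hc (vanishesTo_infinitePlace_zpow hx (-2))
        ((forall_trace_regular_iff hfull (v := infinitePlace hx) (fun w => D w)).1 hinf w
          (mem_placesOver.2 hc))
      rw [smul_smul, ← zpow_add₀ (gx_ne_zero hx), show (-2 : ℤ) + 2 = 0 by norm_num,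
        zpow_zero, one_smul] at h2
      refine h2.mono ?_
      rw [differentExp, he, max_eq_left (by omega)]
      linarith

theorem vanishesTo_of_mem_finite {D : Divisor K F} {m : ℤ} {g : F}
    (hg : g ∈ riemannRochSpace (D + m • polarDivisor (K := K) x)) {c : K} {w : Place K F}
    (hc : w.restrict K⟮x⟯ = finitePlace hx c) : VanishesTo w (-D w) g := by
  refine (mem_riemannRochSpace.1 hg w).mono ?_
  simp only [Finsupp.add_apply, Finsupp.smul_apply, smul_eq_mul, polarDivisor_apply]
  rw [max_eq_right (neg_nonpos.2 (ord_nonneg_of_restrict_eq hx hc)), mul_zero, add_zero]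

omit [Algebra.IsSeparable (↥K⟮x⟯) F] in
theorem vanishesTo_twisted_infinite [IsFunctionField K K⟮x⟯] {D : Divisor K F} {d : ℤ} {g : F}
    (hg : g ∈ riemannRochSpace (D + d • polarDivisor (K := K) x)) {w : Place K F}
    (hw : w ∈ placesOver F (infinitePlace hx)) :
    VanishesTo w (-D w) ((gx (K := K) x) ^ (-d) • g) := by
  have hwx := (mem_infFiber hx).1 hw
  have he := ramificationIndex_eq_neg_ord hx hwx
  refine (vanishesTo_mul_algebraMap (mem_placesOver.1 hw)
    (vanishesTo_infinitePlace_zpow hx (-d)) (mem_riemannRochSpace.1 hg w)).mono ?_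
  simp only [Finsupp.add_apply, Finsupp.smul_apply, smul_eq_mul, polarDivisor_apply]
  rw [he, max_eq_left (by omega)]
  linarith

theorem le_range_dual [IsFunctionField K K⟮x⟯] {D : Divisor K F} {ι : Type*} [Fintype ι]
    [DecidableEq ι] (b : Module.Basis ι K⟮x⟯ F) (d : ι → ℤ)
    (hb : ∀ i, b i ∈ riemannRochSpace (D + d i • polarDivisor (K := K) x)) :
    riemannRochSpace (canonicalDiv hx - D) ≤
      LinearMap.range (boundedComb (K := K) b.traceDual (fun i => (d i - 1).toNat) x) := by
  intro f hf
  obtain ⟨hfin, hinf⟩ := (mem_canonical_sub_iff hx D f).1 hf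
  choose p hp using fun i => exists_polynomial_of_regular hx fun c =>
    hfin c (b i) fun w hw => vanishesTo_of_mem_finite hx (hb i) (mem_placesOver.1 hw)
  have hdeg : ∀ i, p i ∈ degreeLT K (d i - 1).toNat := by
    intro i
    rcases eq_or_ne (p i) 0 with h0 | h0
    · rw [h0]; exact zero_mem _
    have key := hinf _ fun w hw => vanishesTo_twisted_infinite hx (hb i) hw
    rw [smul_mul_smul_comm, map_smul, smul_eq_mul, ← zpow_add₀ (gx_ne_zero hx), hp i] at key
    obtain ⟨hne, hord⟩ := ord_infinitePlace_aeval hx h0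
    have := key.resolve_left (mul_ne_zero (zpow_ne_zero _ (gx_ne_zero hx)) hne)
    rw [(infinitePlace hx).ord_mul (zpow_ne_zero _ (gx_ne_zero hx)) hne, hord,
      (infinitePlace hx).ord_zpow, ord_infinitePlace] at this
    rw [mem_degreeLT, ← natDegree_lt_iff_degree_lt h0]
    omega
  refine ⟨fun i => ⟨p i, hdeg i⟩, ?_⟩
  show combPoly (x := x) (b.traceDual : _ → F) p = f
  rw [combPoly_eq_sum_smul]
  conv_rhs => rw [← b.traceDual.sum_repr f]
  exact Finset.sum_congr rfl fun i _ => by
    rw [Module.Basis.traceDual_repr_apply, Algebra.traceForm_apply, ← hp i]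

omit [IsAlgClosed K] [IsFunctionField K F] hx in
theorem trace_boundedComb_mul {ι : Type*} [Fintype ι] [DecidableEq ι]
    (b : Module.Basis ι K⟮x⟯ F) (k : ι → ℕ) (p : (i : ι) → degreeLT K (k i)) (i : ι) :
    Algebra.trace K⟮x⟯ F (boundedComb (K := K) b.traceDual k x p * b i) =
      aeval (gx x) (p i : K[X]) := by
  have hf' : boundedComb (K := K) b.traceDual k x p =
      ∑ j, aeval (gx (K := K) x) (p j : K[X]) • b.traceDual j := combPoly_eq_sum_smul _ _
  rw [hf', Finset.sum_mul, map_sum, Finset.sum_eq_single i]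
  · rw [smul_mul_assoc, map_smul, Module.Basis.trace_traceDual_mul, if_pos rfl, smul_eq_mul,
      mul_one]
  · intro j _ hj
    rw [smul_mul_assoc, map_smul, Module.Basis.trace_traceDual_mul, if_neg (Ne.symm hj),
      smul_zero]
  · simp

omit [Algebra.IsSeparable (↥K⟮x⟯) F] in
theorem range_dual_finite [IsFunctionField K K⟮x⟯] {D : Divisor K F} {ι : Type*} [Fintype ι]
    (b : ι → F) (k : ι → ℕ) (f : F) (p : (i : ι) → degreeLT K (k i))
    (hspan : ∀ m : ℤ, ∀ g ∈ riemannRochSpace (D + m • polarDivisor (K := K) x),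
      ∃ r : ι → K[X], g = combPoly (x := x) b r)
    (htr : ∀ i, Algebra.trace K⟮x⟯ F (f * b i) = aeval (gx x) (p i : K[X]))
    (c : K) (g : F) (hg : ∀ w ∈ placesOver F (finitePlace hx c), VanishesTo w (-D w) g) :
    VanishesTo (finitePlace hx c) 0 (Algebra.trace K⟮x⟯ F (f * g)) := by
  obtain ⟨q, m, -, hqc, hqm⟩ := exists_clear_denominators hx g D (some c) fun c' hc' w' hw' =>
    hg w' (mem_placesOver.2 ((restrict_eq_finitePlace_iff hx).2 (by
      rw [Option.mem_some_iff] at hc'; exact hc' ▸ hw')))
  obtain ⟨r, hr⟩ := hspan m _ hqm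
  rw [combPoly_eq_sum_smul] at hr
  have heq : aeval (gx (K := K) x) q • (f * g) =
      ∑ i, aeval (gx (K := K) x) (r i) • (f * b i) := by
    rw [← mul_smul_comm, Algebra.smul_def, ← aeval_algebraMap_apply,
      AdjoinSimple.algebraMap_gen, hr, Finset.mul_sum]
    simp_rw [mul_smul_comm]
  have htq := congrArg (Algebra.trace K⟮x⟯ F) heq
  rw [map_smul, map_sum, smul_eq_mul] at htq
  have hreg : VanishesTo (finitePlace hx c) 0
      (aeval (gx (K := K) x) q * Algebra.trace K⟮x⟯ F (f * g)) := by
    rw [htq]
    refine VanishesTo.sum _ _ fun i _ => ?_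
    rw [map_smul, htr, smul_eq_mul, ← map_mul]
    exact vanishesTo_finitePlace_aeval hx c _
  have hq0 : q ≠ 0 := by rintro rfl; exact hqc c rfl eval_zero
  obtain ⟨hne, hord⟩ := ord_aeval_of_zero (finitePlace hx c) (x := gx (K := K) x) (c := c)
    (by rw [ord_finitePlace]; exact one_pos) hq0
  rw [rootMultiplicity_eq_zero (show ¬ q.IsRoot c from hqc c rfl), Nat.cast_zero,
    zero_mul] at hord
  rcases hreg with h | h
  · exact Or.inl ((mul_eq_zero.1 h).resolve_left hne)
  · refine (em (Algebra.trace K⟮x⟯ F (f * g) = 0)).imp id fun hne' => ?_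
    rw [(finitePlace hx c).ord_mul hne hne', hord, zero_add] at h
    exact h

omit [Algebra.IsSeparable (↥K⟮x⟯) F] in
theorem range_dual_infinite [IsFunctionField K K⟮x⟯] {D : Divisor K F} {ι : Type*} [Fintype ι]
    (b : Module.Basis ι K⟮x⟯ F) (d : ι → ℤ)
    (hb : ∀ i, b i ∈ riemannRochSpace (D + d i • polarDivisor (K := K) x))
    (hind : LinearIndependent K (fun i => fiberCoord (F := K⟮x⟯) (placesOver F (infinitePlace hx))
      (twist hx D * x ^ (-(d i)) * b i)))
    (f : F) (p : (i : ι) → degreeLT K (d i - 1).toNat)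
    (htr : ∀ i, Algebra.trace K⟮x⟯ F (f * b i) = aeval (gx x) (p i : K[X]))
    (g : F) (hg : ∀ w ∈ placesOver F (infinitePlace hx), VanishesTo w (-D w) g) :
    VanishesTo (infinitePlace hx) 0
      (Algebra.trace K⟮x⟯ F (((gx (K := K) x) ^ (2 : ℤ) • f) * g)) := by
  have hx0 : x ≠ 0 := fun h => hx (h ▸ isAlgebraic_zero)
  have hco : ∀ i, VanishesTo (infinitePlace hx) 0 ((gx (K := K) x) ^ (d i) * b.repr g i) :=
    fun i => by
    refine coeff_regular_of_independent (v := infinitePlace hx) (k := 0)
      (fun w hw => mem_placesOver.1 hw) (fun i => (gx (K := K) x) ^ (d i) * b.repr g i)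
      (fun i => twist hx D * x ^ (-(d i)) * b i) ?_ hind ?_ i
    · intro j w' hw'
      have := vanishesTo_twist_mul hx (hb j) hw' (k := d j)
      rw [sub_self, mul_zero] at this
      exact this
    · intro w' hw'
      have hsum : ∑ j, ((gx (K := K) x) ^ (d j) * b.repr g j) •
          (twist hx D * x ^ (-(d j)) * b j) = twist hx D * g := by
        conv_rhs => rw [← b.sum_repr g, Finset.mul_sum]
        refine Finset.sum_congr rfl fun j _ => ?_
        rw [Algebra.smul_def, Algebra.smul_def, map_mul, map_zpow₀,
          AdjoinSimple.algebraMap_gen, zpow_neg]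
        field_simp
      rw [hsum]
      exact (VanishesTo.mul (Or.inr ((twist_spec hx D).2 w' hw').ge :
        VanishesTo w' (D w') (twist hx D)) (hg w' hw')).mono (by simp)
  have hexp : Algebra.trace K⟮x⟯ F (((gx (K := K) x) ^ (2 : ℤ) • f) * g) =
      ∑ i, (gx (K := K) x) ^ (2 : ℤ) * (b.repr g i * aeval (gx x) (p i : K[X])) := by
    rw [smul_mul_assoc, map_smul, smul_eq_mul]
    conv_lhs => rw [← b.sum_repr g, Finset.mul_sum, map_sum, Finset.mul_sum]
    refine Finset.sum_congr rfl fun i _ => ?_
    rw [mul_smul_comm, map_smul, smul_eq_mul, htr]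
  rw [hexp]
  refine VanishesTo.sum _ _ fun i _ => ?_
  rcases eq_or_ne (p i : K[X]) 0 with h0 | h0
  · rw [h0]; simp [VanishesTo]
  obtain ⟨hne, hord⟩ := ord_infinitePlace_aeval hx h0
  have hlt := (natDegree_lt_iff_degree_lt h0).2 (mem_degreeLT.1 (p i).2)
  have h3 := ((vanishesTo_infinitePlace_zpow hx (2 - d i)).mul (hco i)).mul
    (Or.inr hord.ge : VanishesTo (infinitePlace hx) (-((p i : K[X]).natDegree : ℤ))
      (aeval (gx (K := K) x) (p i : K[X])))
  rw [← mul_assoc ((gx (K := K) x) ^ (2 - d i)), ← zpow_add₀ (gx_ne_zero hx),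
    sub_add_cancel, mul_assoc] at h3
  exact h3.mono (by omega)

/-- The two counts attached to a reduced basis. -/
theorem exists_degrees (D : Divisor K F) :
    ∃ d : Fin (Module.finrank K⟮x⟯ F) → ℤ,
      (∀ m : ℤ, Module.finrank K (riemannRochSpace (D + m • polarDivisor (K := K) x)) =
        ∑ i, (m - d i + 1).toNat) ∧
      Module.finrank K (riemannRochSpace (canonicalDiv hx - D)) = ∑ i, (d i - 1).toNat := by
  have := isFunctionField_adjoin hx
  obtain ⟨b, d, hb, hind, hspan⟩ := exists_reducedBasis hx D
  refine ⟨d, fun m => ?_, ?_⟩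
  · rw [← finrank_range_boundedComb hx b fun i => (m - d i + 1).toNat]
    have heq : riemannRochSpace (D + m • polarDivisor (K := K) x) =
        LinearMap.range (boundedComb (K := K) b (fun i => (m - d i + 1).toNat) x) := by
      refine le_antisymm (fun f hf => ?_) ?_
      · obtain ⟨p, hp, rfl⟩ := hspan m f hf
        exact ⟨fun i => ⟨p i, hp i⟩, rfl⟩
      · rintro _ ⟨p, rfl⟩
        show combPoly (x := x) (b : _ → F) (fun i => (p i : K[X])) ∈ _
        rw [combPoly_apply]
        exact Submodule.sum_mem _ fun i _ => aeval_mul_mem (hb i) (p i).2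
    rw [heq]
  · rw [← finrank_range_boundedComb hx b.traceDual fun i => (d i - 1).toNat]
    have heq : riemannRochSpace (canonicalDiv hx - D) =
        LinearMap.range (boundedComb (K := K) b.traceDual (fun i => (d i - 1).toNat) x) := by
      refine le_antisymm (le_range_dual hx b d hb) ?_
      rintro _ ⟨p, rfl⟩
      refine (mem_canonical_sub_iff hx D _).2 ⟨fun c g hg => ?_, fun g hg => ?_⟩
      · exact range_dual_finite hx (b : _ → F) _ _ p
          (fun m g hg => by obtain ⟨r, -, hr⟩ := hspan m g hg; exact ⟨r, hr⟩)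
          (trace_boundedComb_mul b _ p) c g hg
      · exact range_dual_infinite hx b d hb hind _ p (trace_boundedComb_mul b _ p) g hg
    rw [heq]

/-- `χ(D) = l(D) - l(canonicalDiv - D)`. -/
def eulerChar (D : Divisor K F) : ℤ :=
  (Module.finrank K (riemannRochSpace D) : ℤ) -
    Module.finrank K (riemannRochSpace (canonicalDiv hx - D))

theorem exists_eventually_eq (D : Divisor K F) :
    ∃ M : ℤ, ∀ m ≥ M,
      (Module.finrank K (riemannRochSpace (D + m • polarDivisor (K := K) x)) : ℤ) =
        Module.finrank K⟮x⟯ F * m + eulerChar hx D := by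
  obtain ⟨d, h1, h2⟩ := exists_degrees hx D
  refine ⟨∑ i, |d i|, fun m hm => ?_⟩
  have h0 := h1 0
  rw [zero_smul, add_zero] at h0
  rw [h1 m, eulerChar, h0, h2]
  push_cast
  rw [← Finset.sum_sub_distrib]
  have : ((Module.finrank K⟮x⟯ F : ℕ) : ℤ) * m =
      ∑ _i : Fin (Module.finrank K⟮x⟯ F), m := by simp
  rw [this, ← Finset.sum_add_distrib]
  refine Finset.sum_congr rfl fun i _ => ?_
  have := le_abs_self (d i)
  have := Finset.single_le_sum (f := fun i => |d i|) (fun j _ => abs_nonneg _) (Finset.mem_univ i)
  omega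

theorem eulerChar_add_polar (D : Divisor K F) :
    eulerChar hx (D + polarDivisor (K := K) x) = eulerChar hx D + Module.finrank K⟮x⟯ F := by
  obtain ⟨M, hM⟩ := exists_eventually_eq hx D
  obtain ⟨M', hM'⟩ := exists_eventually_eq hx (D + polarDivisor (K := K) x)
  have h1 := hM (max M M' + 1) (by omega)
  have h2 := hM' (max M M') (le_max_right _ _)
  rw [show D + polarDivisor (K := K) x + max M M' • polarDivisor (K := K) x =
    D + (max M M' + 1) • polarDivisor (K := K) x by rw [add_smul, one_smul]; abel] at h2
  rw [h1] at h2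
  linarith

theorem eulerChar_add_divisorOf (D : Divisor K F) {f : F} (hf : f ≠ 0) :
    eulerChar hx (D + divisorOf f) = eulerChar hx D := by
  obtain ⟨M, hM⟩ := exists_eventually_eq hx D
  obtain ⟨M', hM'⟩ := exists_eventually_eq hx (D + divisorOf f)
  have h1 := hM (max M M') (le_max_left _ _)
  have h2 := hM' (max M M') (le_max_right _ _)
  rw [add_right_comm, finrank_riemannRochSpace_shift _ hf, h1] at h2
  linarith

theorem eulerChar_add_single_le (D : Divisor K F) (P : Place K F) :
    eulerChar hx (D + Finsupp.single P 1) ≤ eulerChar hx D + 1 := by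
  obtain ⟨M, hM⟩ := exists_eventually_eq hx D
  obtain ⟨M', hM'⟩ := exists_eventually_eq hx (D + Finsupp.single P 1)
  have h1 := hM (max M M') (le_max_left _ _)
  have h2 := hM' (max M M') (le_max_right _ _)
  rw [add_right_comm] at h2
  have := finrank_le_add_single (D + max M M' • polarDivisor (K := K) x) P
  linarith [(Int.ofNat_le.2 this)]

theorem eulerChar_sub_degree_antitone {D D' : Divisor K F} (h : D ≤ D') :
    eulerChar hx D' - Divisor.degree D' ≤ eulerChar hx D - Divisor.degree D := by
  obtain ⟨E, rfl⟩ : ∃ E : Divisor K F, D' = D + E := ⟨D' - D, by abel⟩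
  have hE : 0 ≤ E := le_add_iff_nonneg_right D |>.1 h
  clear h
  induction hk : (Divisor.degree E).toNat generalizing E with
  | zero =>
    have h0 : E = 0 := by
      have hdeg : Divisor.degree E ≤ 0 := by omega
      rw [degree_eq_sum] at hdeg
      ext P
      by_contra hP
      have hP' : P ∈ E.support := Finsupp.mem_support_iff.2 hP
      have h1 : E P ≤ E.sum fun _ n => n :=
        Finset.single_le_sum (f := fun Q => E Q) (fun Q _ => Finsupp.le_def.1 hE Q) hP'
      have := Finsupp.le_def.1 hE P
      simp only [Finsupp.coe_zero, Pi.zero_apply] at this hP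
      omega
    simp [h0]
  | succ k ih =>
    obtain ⟨P, hP⟩ : E.support.Nonempty := by
      rw [Finset.nonempty_iff_ne_empty]
      intro h
      rw [Finsupp.support_eq_empty.1 h, map_zero] at hk
      simp at hk
    have hEP : 1 ≤ E P := by
      have h1 := Finsupp.le_def.1 hE P
      have h2 := Finsupp.mem_support_iff.1 hP
      simp only [Finsupp.coe_zero, Pi.zero_apply] at h1
      omega
    have hE' : 0 ≤ E - Finsupp.single P 1 := Finsupp.le_def.2 fun Q => by
      rw [Finsupp.sub_apply, Finsupp.single_apply]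
      have := Finsupp.le_def.1 hE Q
      simp only [Finsupp.coe_zero, Pi.zero_apply] at this ⊢
      split_ifs with hPQ
      · subst hPQ; omega
      · omega
    have hdegP : Divisor.degree (Finsupp.single P (1 : ℤ)) = 1 := by
      rw [Divisor.degree_single, deg_eq_one]; rfl
    have h1 := ih (E - Finsupp.single P 1) hE' (by rw [map_sub, hdegP]; omega)
    have h2 := eulerChar_add_single_le hx (D + (E - Finsupp.single P 1)) P
    rw [add_assoc, sub_add_cancel] at h2
    simp only [map_add, map_sub, hdegP] at h1 ⊢
    linarith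

theorem eulerChar_add_single (D : Divisor K F) (P : Place K F) :
    eulerChar hx (D + Finsupp.single P 1) = eulerChar hx D + 1 := by
  refine le_antisymm (eulerChar_add_single_le hx D P) ?_
  have hdegP : Divisor.degree (Finsupp.single P (1 : ℤ)) = 1 := by
    rw [Divisor.degree_single, deg_eq_one]; rfl
  -- an effective divisor equivalent to `(x)∞` through `P`
  obtain ⟨Z, hZ, hPZ, hZdeg, hχ⟩ : ∃ Z : Divisor K F, 0 ≤ Z ∧ 1 ≤ Z P ∧
      Divisor.degree Z = Module.finrank K⟮x⟯ F ∧
      eulerChar hx (D + Z) = eulerChar hx D + Module.finrank K⟮x⟯ F := by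
    rcases ord_pos_or_ord_neg P x with h | ⟨c, h | h⟩
    · exact ⟨_, polarDivisor_nonneg x, by simp; omega, degree_polarDivisor hx,
        eulerChar_add_polar hx D⟩
    · exact absurd (h ▸ isAlgebraic_algebraMap c) hx
    · have ht : x - algebraMap K F c ≠ 0 := fun h' => by simp [h'] at h
      have hpoles : ∀ w : Place K F, w.ord x < 0 → w.ord (x - algebraMap K F c) = w.ord x :=
        fun w hw => by
          rw [sub_eq_add_neg]
          exact ord_add_eq_of_lt (fun h0 => by simp [h0] at hw)
            (by rw [ord_neg, ord_algebraMap]; exact hw)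
      have hnonneg : ∀ w : Place K F, 0 ≤ w.ord x → 0 ≤ w.ord (x - algebraMap K F c) :=
        fun w hw => (ord_nonneg_iff _ _).2 (sub_mem ((ord_nonneg_iff _ _).1 hw) (w.algebraMap_mem' c))
      refine ⟨polarDivisor (K := K) x + divisorOf (x - algebraMap K F c),
        Finsupp.le_def.2 fun w => ?_, ?_, ?_, ?_⟩
      · simp only [Finsupp.add_apply, polarDivisor_apply, divisorOf_apply, Finsupp.coe_zero,
          Pi.zero_apply]
        by_cases hw : w.ord x < 0
        · rw [hpoles w hw]; omega
        · have := hnonneg w (by omega); omega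
      · simp only [Finsupp.add_apply, polarDivisor_apply, divisorOf_apply]; omega
      · rw [map_add, degree_divisorOf, degree_polarDivisor hx, add_zero]
      · rw [← add_assoc, eulerChar_add_divisorOf hx _ ht, eulerChar_add_polar hx D]
  have h := eulerChar_sub_degree_antitone hx (D := D + Finsupp.single P 1) (D' := D + Z)
    (add_le_add le_rfl (Finsupp.le_def.2 fun Q => by
      rw [Finsupp.single_apply]
      split_ifs with hPQ
      · exact hPQ ▸ hPZ
      · exact Finsupp.le_def.1 hZ Q))
  rw [map_add, map_add, hdegP, hZdeg, hχ] at h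
  linarith

theorem eulerChar_eq (D : Divisor K F) :
    eulerChar hx D = Divisor.degree D + eulerChar hx 0 := by
  induction D using Finsupp.induction with
  | zero => simp
  | single_add P k E _ _ ih =>
    have key : ∀ (j : ℤ), eulerChar hx (Finsupp.single P j + E) = j + eulerChar hx E := by
      intro j
      induction j with
      | zero => simp
      | succ j ih =>
        rw [Finsupp.single_add, add_right_comm, eulerChar_add_single, ih]; ring
      | pred j ih =>
        have h := eulerChar_add_single hx (Finsupp.single P (-(j : ℤ) - 1) + E) P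
        rw [add_right_comm, ← Finsupp.single_add, sub_add_cancel, ih] at h
        linarith
    rw [key, ih, map_add, Divisor.degree_single, deg_eq_one]
    push_cast; ring

/-- The genus: the dimension of `L(canonicalDiv)`. -/
def genusOf : ℕ := Module.finrank K (riemannRochSpace (canonicalDiv hx))

/-- **Riemann–Roch**. -/
theorem riemannRoch (D : Divisor K F) :
    (Module.finrank K (riemannRochSpace D) : ℤ) -
      Module.finrank K (riemannRochSpace (canonicalDiv hx - D)) =
        Divisor.degree D + 1 - genusOf hx := by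
  have h0 : eulerChar hx 0 = 1 - genusOf hx := by
    rw [eulerChar, genusOf, finrank_riemannRochSpace_zero, sub_zero]
    norm_num
  have := eulerChar_eq hx D
  rw [eulerChar, h0] at this
  linarith

/-- The degree of the canonical divisor is `2g - 2`. -/
theorem degree_canonicalDiv :
    Divisor.degree (canonicalDiv hx) = 2 * (genusOf hx : ℤ) - 2 := by
  have h := riemannRoch hx (canonicalDiv hx)
  rw [sub_self, finrank_riemannRochSpace_zero, show Module.finrank K
    (riemannRochSpace (canonicalDiv hx)) = genusOf hx from rfl] at h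
  push_cast at h
  linarith

/-- Riemann's inequality. -/
theorem riemann_inequality (D : Divisor K F) :
    Divisor.degree D + 1 - genusOf hx ≤ (Module.finrank K (riemannRochSpace D) : ℤ) := by
  have := riemannRoch hx D
  omega

theorem finrank_eq_of_degree_gt {D : Divisor K F}
    (h : 2 * (genusOf hx : ℤ) - 2 < Divisor.degree D) :
    (Module.finrank K (riemannRochSpace D) : ℤ) = Divisor.degree D + 1 - genusOf hx := by
  rw [← riemannRoch hx D, finrank_riemannRochSpace_eq_zero (D := canonicalDiv hx - D)
    (by rw [map_sub, degree_canonicalDiv]; omega)]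
  simp

/-- The different degree formula: `2g - 2 = deg different - 2 [F : K(x)]`. -/
theorem two_genusOf_sub_two :
    2 * (genusOf hx : ℤ) - 2 =
      Divisor.degree (differentDiv hx) - 2 * Module.finrank K⟮x⟯ F := by
  rw [← degree_canonicalDiv, canonicalDiv, map_sub, map_zsmul, degree_polarDivisor hx,
    smul_eq_mul]

end Main

end Fermat.Agent.FunctionFieldRR
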