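import Fermat.Agent.FunctionFieldRR.Laurent
import Fermat.Prelude.Def_AlgebraicCurve_CanonicalDivisor

/-!
# Kähler differentials at a place

The derivative of the Laurent expansion computes `ordDifferential`.
-/

set_option autoImplicit false

noncomputable section

open AlgebraicCurve IntermediateField Polynomial
open scoped Classical

namespace Fermat.Agent.FunctionFieldRR

variable {K F : Type*} [Field K] [Field F] [Algebra K F] [IsAlgClosed K] [IsFunctionField K F]

/-- `LaurentSeries K` as an `F`-module through the expansion at `P`. -/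
def ExpModule (_P : Place K F) : Type _ := LaurentSeries K

namespace ExpModule

variable (P : Place K F)

instance : AddCommGroup (ExpModule P) := inferInstanceAs (AddCommGroup (LaurentSeries K))

instance : Module K (ExpModule P) := inferInstanceAs (Module K (LaurentSeries K))

instance : Module F (ExpModule P) :=
  Module.compHom (LaurentSeries K) (laurentExp P)

/-- The identification with Laurent series. -/
def toSeries : ExpModule P ≃ LaurentSeries K := Equiv.refl _

theorem toSeries_smul (f : F) (y : ExpModule P) :
    toSeries P (f • y) = laurentExp P f * toSeries P y := rfl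

instance : IsScalarTower K F (ExpModule P) := ⟨fun c f y => by
  apply (toSeries P).injective
  rw [toSeries_smul, Algebra.smul_def, map_mul, laurentExp_algebraMap, mul_assoc,
    HahnSeries.C_mul_eq_smul]
  rfl⟩

end ExpModule

section Derivation

variable (P : Place K F)

/-- The derivative of the expansion, as a derivation. -/
def expDerivation : Derivation K F (ExpModule P) where
  toFun f := (ExpModule.toSeries P).symm (LaurentSeries.derivative K (laurentExp P f))
  map_add' f g := by
    apply (ExpModule.toSeries P).injective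
    simp only [Equiv.apply_symm_apply, map_add]
    rfl
  map_smul' c f := by
    apply (ExpModule.toSeries P).injective
    rw [Algebra.smul_def, map_mul, laurentExp_algebraMap, HahnSeries.C_mul_eq_smul, map_smul]
    rfl
  map_one_eq_zero' := by
    apply (ExpModule.toSeries P).injective
    show LaurentSeries.derivative K (laurentExp P 1) = (0 : LaurentSeries K)
    ext n
    rw [map_one, laurent_derivative_coeff, HahnSeries.coeff_one]
    split_ifs with h
    · simp [h]
    · simp
  leibniz' f g := by
    apply (ExpModule.toSeries P).injective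
    show LaurentSeries.derivative K (laurentExp P (f * g)) = _
    rw [map_mul, laurent_derivative_mul]
    rfl

/-- The expansion of differentials. -/
def dExp : Ω[F⁄K] →ₗ[F] ExpModule P := (expDerivation P).liftKaehlerDifferential

/-- The Laurent series of a differential. -/
def diffSeries (ω : Ω[F⁄K]) : LaurentSeries K := ExpModule.toSeries P (dExp P ω)

theorem diffSeries_D (f : F) :
    diffSeries P (KaehlerDifferential.D K F f) = LaurentSeries.derivative K (laurentExp P f) := by
  rw [diffSeries, dExp, Derivation.liftKaehlerDifferential_comp_D]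
  rfl

theorem diffSeries_smul (f : F) (ω : Ω[F⁄K]) :
    diffSeries P (f • ω) = laurentExp P f * diffSeries P ω := by
  rw [diffSeries, map_smul]; rfl

theorem diffSeries_zero : diffSeries P (0 : Ω[F⁄K]) = 0 := by
  rw [diffSeries, map_zero]; rfl

omit [IsAlgClosed K] [IsFunctionField K F] in
theorem order_eq_of_coeff {y : LaurentSeries K} {m : ℤ} (hm : y.coeff m ≠ 0)
    (hlow : ∀ i < m, y.coeff i = 0) : y.order = m := by
  refine le_antisymm (HahnSeries.order_le_of_coeff_ne_zero hm) ?_
  by_contra! hlt
  have hy : y ≠ 0 := fun h => hm (by rw [h]; rfl)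
  exact HahnSeries.coeff_order_eq_zero.not.2 hy (hlow _ hlt)

theorem laurentExp_order {f : F} (hf : f ≠ 0) : (laurentExp P f).order = P.ord f :=
  order_eq_of_coeff (coeff_laurentExp_ord_ne_zero P hf) fun _ hi =>
    coeff_laurentExp_eq_zero P (Or.inr le_rfl : VanishesTo P (P.ord f) f) hi

/-- Leading coefficient of the derivative of an expansion. -/
theorem derivative_coeff_ord (f : F) :
    (LaurentSeries.derivative K (laurentExp P f)).coeff (P.ord f - 1) =
      (P.ord f : K) * (laurentExp P f).coeff (P.ord f) := by
  rw [laurent_derivative_coeff, sub_add_cancel]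

theorem derivative_coeff_lt (f : F) {i : ℤ} (hi : i < P.ord f - 1) :
    (LaurentSeries.derivative K (laurentExp P f)).coeff i = 0 := by
  rw [laurent_derivative_coeff,
    coeff_laurentExp_eq_zero P (Or.inr le_rfl : VanishesTo P (P.ord f) f) (by omega), mul_zero]

omit [IsAlgClosed K] [IsFunctionField K F] in
theorem exists_dCoord_eq : ∃ u : F, u ≠ 0 ∧ P.ord u = 1 ∧
    P.dCoord = KaehlerDifferential.D K F u := by
  refine ⟨((IsDiscreteValuationRing.exists_irreducible P.toValuationSubring).choose : F),
    ?_, ?_, rfl⟩
  · simpa using (IsDiscreteValuationRing.exists_irreducible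
      P.toValuationSubring).choose_spec.ne_zero
  · exact P.ord_coe_irreducible
      (IsDiscreteValuationRing.exists_irreducible P.toValuationSubring).choose_spec

theorem diffSeries_dCoord : diffSeries P P.dCoord ≠ 0 ∧ (diffSeries P P.dCoord).order = 0 := by
  obtain ⟨u, hu0, hu, hdu⟩ := exists_dCoord_eq P
  have h1 : (diffSeries P P.dCoord).coeff 0 ≠ 0 := by
    have := derivative_coeff_ord P u
    rw [hu, sub_self, Int.cast_one, one_mul] at this
    rw [hdu, diffSeries_D, this, ← hu]
    exact coeff_laurentExp_ord_ne_zero P hu0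
  refine ⟨fun h => h1 (by rw [h]; rfl), order_eq_of_coeff h1 fun i hi => ?_⟩
  rw [hdu, diffSeries_D]
  exact derivative_coeff_lt P u (by omega)

theorem dCoord_ne_zero' : P.dCoord ≠ 0 := fun h =>
  (diffSeries_dCoord P).1 (by rw [h, diffSeries_zero])

end Derivation

section Span

variable {x : F} [FiniteDimensional K⟮x⟯ F] [Algebra.IsSeparable K⟮x⟯ F]

omit [IsAlgClosed K] [IsFunctionField K F] [FiniteDimensional K⟮x⟯ F]
  [Algebra.IsSeparable K⟮x⟯ F] in
theorem D_mem_span_of_mem_adjoin {a : F} (ha : a ∈ K⟮x⟯) :
    KaehlerDifferential.D K F a ∈ Submodule.span F {KaehlerDifferential.D K F x} := by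
  obtain ⟨p, q, rfl⟩ := (mem_adjoin_simple_iff K a).1 ha
  have hp : ∀ r : K[X], KaehlerDifferential.D K F (aeval x r) ∈
      Submodule.span F {KaehlerDifferential.D K F x} := fun r => by
    rw [Derivation.map_aeval]
    exact Submodule.smul_mem _ _ (Submodule.mem_span_singleton_self _)
  rw [div_eq_mul_inv, Derivation.leibniz, Derivation.leibniz_inv]
  exact Submodule.add_mem _ (Submodule.smul_mem _ _ (Submodule.smul_mem _ _ (hp q)))
    (Submodule.smul_mem _ _ (hp p))

omit [IsAlgClosed K] [IsFunctionField K F] [FiniteDimensional K⟮x⟯ F] in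
/-- The differential of a separating element spans. -/
theorem span_D_eq_top : Submodule.span F {KaehlerDifferential.D K F x} = ⊤ := by
  rw [← top_le_iff, ← KaehlerDifferential.span_range_derivation, Submodule.span_le]
  rintro _ ⟨f, rfl⟩
  set N := Submodule.span F {KaehlerDifferential.D K F x}
  have key : ∀ p : (K⟮x⟯)[X], KaehlerDifferential.D K F (aeval f p) -
      aeval f (derivative p) • KaehlerDifferential.D K F f ∈ N := by
    intro p
    induction p using Polynomial.induction_on' with
    | add p q hp hq =>
      rw [map_add, map_add, derivative_add, map_add, add_smul]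
      convert N.add_mem hp hq using 1
      abel
    | monomial k a =>
      rw [derivative_monomial, aeval_monomial, aeval_monomial, Derivation.leibniz,
        Derivation.leibniz_pow, map_mul, map_natCast, ← Nat.cast_smul_eq_nsmul F, smul_smul,
        smul_smul]
      have he : algebraMap K⟮x⟯ F a * (k : F) * f ^ (k - 1) =
          algebraMap K⟮x⟯ F a * ((k : F) * f ^ (k - 1)) := mul_assoc _ _ _
      rw [he, add_sub_cancel_left]
      exact N.smul_mem _ (D_mem_span_of_mem_adjoin a.2)
  have hf := key (minpoly K⟮x⟯ f)
  rw [minpoly.aeval, map_zero, zero_sub, Submodule.neg_mem_iff] at hf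
  have hne : aeval f (derivative (minpoly K⟮x⟯ f)) ≠ 0 :=
    (Algebra.IsSeparable.isSeparable K⟮x⟯ f).aeval_derivative_ne_zero (minpoly.aeval _ f)
  have := N.smul_mem (aeval f (derivative (minpoly K⟮x⟯ f)))⁻¹ hf
  rwa [smul_smul, inv_mul_cancel₀ hne, one_smul] at this

end Span

section Generated

theorem D_ne_zero (x : F) [FiniteDimensional K⟮x⟯ F] [Algebra.IsSeparable K⟮x⟯ F] :
    KaehlerDifferential.D K F x ≠ 0 := by
  intro h
  have htop := span_D_eq_top (K := K) (x := x)
  rw [h, Submodule.span_zero_singleton] at htop
  obtain ⟨P⟩ := (inferInstance : Nonempty (Place K F))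
  exact dCoord_ne_zero' P ((Submodule.mem_bot F).1 (htop ▸ Submodule.mem_top))

theorem finrank_kaehler_eq_one (x : F) [FiniteDimensional K⟮x⟯ F] [Algebra.IsSeparable K⟮x⟯ F] :
    Module.Free F Ω[F⁄K] ∧ Module.finrank F Ω[F⁄K] = 1 := by
  refine ⟨inferInstance, finrank_eq_one (KaehlerDifferential.D K F x) (D_ne_zero x) fun w => ?_⟩
  exact Submodule.mem_span_singleton.1 ((span_D_eq_top (K := K) (x := x)).symm ▸ Submodule.mem_top)

theorem dCoordGenerates (x : F) [FiniteDimensional K⟮x⟯ F] [Algebra.IsSeparable K⟮x⟯ F]
    (P : Place K F) : P.DCoordGenerates := by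
  refine ⟨top_unique ?_⟩
  rw [← span_D_eq_top (K := K) (x := x), Submodule.span_le, Set.singleton_subset_iff]
  obtain ⟨f, hf⟩ := Submodule.mem_span_singleton.1
    ((span_D_eq_top (K := K) (x := x)).symm ▸ Submodule.mem_top (x := P.dCoord))
  have hf0 : f ≠ 0 := fun h => dCoord_ne_zero' P (by rw [← hf, h, zero_smul])
  exact Submodule.mem_span_singleton.2 ⟨f⁻¹, by rw [← hf, smul_smul, inv_mul_cancel₀ hf0, one_smul]⟩

/-- `ordDifferential` is the order of the series of the differential. -/
theorem ordDifferential_eq_order (x : F) [FiniteDimensional K⟮x⟯ F] [Algebra.IsSeparable K⟮x⟯ F]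
    (P : Place K F) {ω : Ω[F⁄K]} (hω : ω ≠ 0) :
    diffSeries P ω ≠ 0 ∧ P.ordDifferential ω = (diffSeries P ω).order := by
  have := dCoordGenerates x P
  have := nontrivial_of_ne _ _ (dCoord_ne_zero' P)
  obtain ⟨f, hf⟩ := P.exists_eq_smul_dCoord ω
  have hf0 : f ≠ 0 := by rintro rfl; exact hω (by rw [hf, zero_smul])
  obtain ⟨h1, h2⟩ := diffSeries_dCoord P
  have hι : laurentExp P f ≠ 0 := by simpa using hf0
  rw [hf, diffSeries_smul]
  refine ⟨mul_ne_zero hι h1, ?_⟩
  rw [Place.ordDifferential, ← hf, P.differentialCoeff_unique hf, HahnSeries.order_mul hι h1, h2,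
    laurentExp_order P hf0, add_zero]

theorem ordDifferential_smul' (x : F) [FiniteDimensional K⟮x⟯ F] [Algebra.IsSeparable K⟮x⟯ F]
    (P : Place K F) {c : F} (hc : c ≠ 0) {ω : Ω[F⁄K]} (hω : ω ≠ 0) :
    P.ordDifferential (c • ω) = P.ord c + P.ordDifferential ω := by
  have hcω : c • ω ≠ 0 := smul_ne_zero hc hω
  rw [(ordDifferential_eq_order x P hcω).2, (ordDifferential_eq_order x P hω).2, diffSeries_smul,
    HahnSeries.order_mul (by simpa using hc) (ordDifferential_eq_order x P hω).1,
    laurentExp_order P hc]

variable {x : F} [FiniteDimensional K⟮x⟯ F] [Algebra.IsSeparable K⟮x⟯ F]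

theorem ordDifferential_D_eq {P : Place K F} {f : F} (hf : f ≠ 0) (h : (P.ord f : K) ≠ 0)
    (y : F) (hy : KaehlerDifferential.D K F y = KaehlerDifferential.D K F f) (hx : x = y) :
    P.ordDifferential (KaehlerDifferential.D K F y) = P.ord f - 1 := by
  subst hx
  rw [(ordDifferential_eq_order x P (D_ne_zero x)).2, hy, diffSeries_D]
  refine order_eq_of_coeff ?_ fun i hi => derivative_coeff_lt P f hi
  rw [derivative_coeff_ord]
  exact mul_ne_zero h (coeff_laurentExp_ord_ne_zero P hf)

/-- `ord (dx) = ord (x - c) - 1` at a tame zero of `x - c`. -/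
theorem ordDifferential_D_of_zero {P : Place K F} {c : K}
    (h : (P.ord (x - algebraMap K F c) : K) ≠ 0) :
    P.ordDifferential (KaehlerDifferential.D K F x) = P.ord (x - algebraMap K F c) - 1 :=
  ordDifferential_D_eq (x := x) (f := x - algebraMap K F c) (fun h' => h (by simp [h'])) h x
    (by simp) rfl

/-- `ord (dx) = ord x - 1` at a tame pole of `x`. -/
theorem ordDifferential_D_of_pole {P : Place K F} (h : (P.ord x : K) ≠ 0) :
    P.ordDifferential (KaehlerDifferential.D K F x) = P.ord x - 1 :=
  ordDifferential_D_eq (x := x) (f := x) (fun h' => h (by simp [h'])) h x rfl rfl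

end Generated

end Fermat.Agent.FunctionFieldRR
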