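import Fermat.Agent.FunctionFieldRR.RiemannRoch
import Fermat.Agent.FunctionFieldRR.Kaehler
import Fermat.Prelude.Def_AlgebraicCurve_IsCurveOver

/-!
# Canonical divisors and the genus

For a separating tame element `x`: `div (dx) = different - 2·(x)∞`, so Prelude's `genus` is the
Riemann–Roch genus.
-/

set_option autoImplicit false

noncomputable section

open AlgebraicCurve IntermediateField Polynomial
open scoped Classical

namespace Fermat.Agent.FunctionFieldRR

variable {K F : Type*} [Field K] [Field F] [Algebra K F] [IsAlgClosed K] [IsFunctionField K F]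
  {x : F} (hx : Transcendental K x) [FiniteDimensional K⟮x⟯ F] [Algebra.IsSeparable K⟮x⟯ F]
include hx

omit [Algebra.IsSeparable K⟮x⟯ F] in
/-- The ramification index over `K(x)`, computed from `x`. -/
theorem ord_sub_or_ord (w : Place K F) :
    (w.ord x < 0 ∧ (w.ramificationIndex K⟮x⟯ : ℤ) = -w.ord x) ∨
      (0 ≤ w.ord x ∧ ∃ c : K, 0 < w.ord (x - algebraMap K F c) ∧
        (w.ramificationIndex K⟮x⟯ : ℤ) = w.ord (x - algebraMap K F c)) := by
  by_cases h : w.ord x < 0
  · exact Or.inl ⟨h, ramificationIndex_eq_neg_ord hx h⟩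
  · rcases ord_pos_or_ord_neg w x with h' | ⟨c, h' | h'⟩
    · exact absurd h' h
    · exact absurd (h' ▸ isAlgebraic_algebraMap c) hx
    · exact Or.inr ⟨not_lt.1 h, c, h', ramificationIndex_eq_ord_sub hx h'⟩

theorem differentExp_eq_of_tame {w : Place K F} (h : (w.ramificationIndex K⟮x⟯ : K) ≠ 0) :
    differentExp hx w = w.ramificationIndex K⟮x⟯ - 1 := by
  have := isFunctionField_adjoin hx
  exact diffExp_eq_of_tame (fullFiber_adjoin hx) h

theorem ramificationIndex_le_differentExp_add_one (w : Place K F) :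
    w.ramificationIndex K⟮x⟯ ≤ differentExp hx w + 1 := by
  have := isFunctionField_adjoin hx
  have h : w.ramificationIndex K⟮x⟯ - 1 ≤ differentExp hx w :=
    sub_one_le_diffExp (fullFiber_adjoin hx) w
  omega

/-- `div (dx) = different - 2·(x)∞` at tame places. -/
theorem ordDifferential_D_eq_canonicalDiv {w : Place K F}
    (h : (w.ramificationIndex K⟮x⟯ : K) ≠ 0) :
    w.ordDifferential (KaehlerDifferential.D K F x) = canonicalDiv hx w := by
  have he := differentExp_eq_of_tame hx h
  have hpos := one_le_ramificationIndex (F := K⟮x⟯) w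
  rw [canonicalDiv_apply, he]
  rcases ord_sub_or_ord hx w with ⟨hneg, heq⟩ | ⟨hnn, c, hc, heq⟩
  · have hcast : (w.ord x : K) ≠ 0 := by
      rw [show w.ord x = -((w.ramificationIndex K⟮x⟯ : ℕ) : ℤ) by omega, Int.cast_neg,
        Int.cast_natCast]
      exact neg_ne_zero.2 h
    rw [ordDifferential_D_of_pole hcast, max_eq_left (by omega)]
    omega
  · rw [ordDifferential_D_of_zero (c := c) (by rw [← heq, Int.cast_natCast]; exact h),
      max_eq_right (by omega)]
    omega

/-- The divisor of a nonzero differential is linearly equivalent to `canonicalDiv`. -/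
theorem exists_eq_canonicalDiv_add (htame : ∀ w : Place K F, (w.ramificationIndex K⟮x⟯ : K) ≠ 0)
    {ω : Ω[F⁄K]} (hω : ω ≠ 0) {W : Divisor K F} (hW : ∀ w, W w = w.ordDifferential ω) :
    ∃ f : F, f ≠ 0 ∧ W = canonicalDiv hx + divisorOf f := by
  obtain ⟨f, rfl⟩ := Submodule.mem_span_singleton.1
    ((span_D_eq_top (K := K) (x := x)).symm ▸ Submodule.mem_top (x := ω))
  have hf : f ≠ 0 := fun h => hω (by rw [h, zero_smul])
  refine ⟨f, hf, Finsupp.ext fun w => ?_⟩
  rw [hW, ordDifferential_smul' x w hf (D_ne_zero x),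
    ordDifferential_D_eq_canonicalDiv hx (htame w), Finsupp.add_apply, divisorOf_apply, add_comm]

/-- Prelude's genus is the Riemann–Roch genus. -/
theorem genus_eq_genusOf [HasCanonicalDivisor (K := K) (F := F)]
    (htame : ∀ w : Place K F, (w.ramificationIndex K⟮x⟯ : K) ≠ 0) :
    AlgebraicCurve.genus K F = genusOf hx := by
  have hne : ∃ ω : Ω[F⁄K], ω ≠ 0 := ⟨_, D_ne_zero x⟩
  rw [AlgebraicCurve.genus, dif_pos hne]
  obtain ⟨f, -, hW⟩ := exists_eq_canonicalDiv_add hx htame hne.choose_spec
    (canonicalDivisorOf_apply hne.choose_spec)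
  rw [hW, map_add, degree_divisorOf, degree_canonicalDiv hx]
  omega

/-! ### Characteristic zero -/

section CharZero

variable [CharZero K]

omit [IsFunctionField K F] [Algebra.IsSeparable K⟮x⟯ F] hx in
omit [IsAlgClosed K] [FiniteDimensional (↥K⟮x⟯) F] in
/-- In characteristic zero every place is tame. -/
theorem tame_of_charZero (w : Place K F) [Algebra.IsIntegral K⟮x⟯ F] :
    (w.ramificationIndex K⟮x⟯ : K) ≠ 0 :=
  Nat.cast_ne_zero.2 (by have := w.ramificationIndex_pos (F := K⟮x⟯); omega)

end CharZero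

end Fermat.Agent.FunctionFieldRR
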