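import Fermat.Agent.FunctionFieldRR.Laurent
import Fermat.Agent.FunctionFieldRR.Approximation
import Fermat.Prelude.Def_AlgebraicCurve_DivisorPushPull

/-!
# Fibres of a finite extension of function fields

For a place `v` of `F` and a finite extension `F'/F`, we study the places over `v`: the bound
`∑ e ≤ [F' : F]`, and, when equality holds, regularity of coordinates, trace and norm formulas.
-/

set_option autoImplicit false

noncomputable section

open AlgebraicCurve
open scoped Classical

namespace Fermat.Agent.FunctionFieldRR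

variable {K F F' : Type*} [Field K] [Field F] [Field F'] [Algebra K F] [Algebra K F']
  [Algebra F F'] [IsScalarTower K F F'] [FiniteDimensional F F']

section Restrict

variable (w : Place K F')

omit [Algebra K F] [IsScalarTower K F F'] in
theorem one_le_ramificationIndex : 1 ≤ w.ramificationIndex F := w.ramificationIndex_pos (F := F)

theorem vanishesTo_algebraMap_of_restrict {v : Place K F} (hw : w.restrict F = v) {k : ℤ} {a : F}
    (ha : VanishesTo v k a) : VanishesTo w (w.ramificationIndex F * k) (algebraMap F F' a) := by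
  rcases ha with rfl | ha
  · exact Or.inl (map_zero _)
  · refine Or.inr ?_
    rw [w.ord_restrict (F := F) a, hw]
    exact mul_le_mul_of_nonneg_left ha (by positivity)

end Restrict

variable [IsAlgClosed K] [IsFunctionField K F] [IsFunctionField K F']
variable (v : Place K F)

/-- The value at a place, as a ring homomorphism on the valuation ring. -/
def residueHom : v.toValuationSubring →+* K :=
  PowerSeries.constantCoeff.comp (expHom v)

theorem residueHom_apply (f : v.toValuationSubring) : residueHom v f = residueConst v (f : F) :=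
  constantCoeff_expHom v f

/-- Index set: a place in `S` and an integer below its ramification index. -/
abbrev FiberIndex (S : Finset (Place K F')) : Type _ :=
  Σ w : S, Fin ((w : Place K F').ramificationIndex F)

omit [Algebra K F] [IsScalarTower K F F'] [FiniteDimensional F F'] [IsAlgClosed K]
  [IsFunctionField K F] [IsFunctionField K F'] in
theorem exists_fiberFn (S : Finset (Place K F')) (p : FiberIndex (F := F) S) :
    ∃ b : F', VanishesTo (p.1 : Place K F') ((p.1 : Place K F').ramificationIndex F)
        (b - unif (p.1 : Place K F') ^ (p.2 : ℕ)) ∧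
      ∀ w' ∈ S, w' ≠ p.1 → VanishesTo w' (w'.ramificationIndex F) b := by
  classical
  obtain ⟨b, hb⟩ := exists_approx S
    (fun w => if w = p.1 then unif (p.1 : Place K F') ^ (p.2 : ℕ) else 0)
    (fun w => (w.ramificationIndex F : ℤ))
  refine ⟨b, ?_, fun w' hw' hne => ?_⟩
  · simpa using hb p.1 p.1.2
  · simpa [hne] using hb w' hw'

/-- Functions adapted to the fibre. -/
def fiberFn (S : Finset (Place K F')) (p : FiberIndex (F := F) S) : F' :=
  (exists_fiberFn S p).choose

omit [Algebra K F] [IsScalarTower K F F'] [FiniteDimensional F F'] [IsAlgClosed K]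
  [IsFunctionField K F]
  [IsFunctionField K F'] in
theorem fiberFn_self (S : Finset (Place K F')) (p : FiberIndex (F := F) S) :
    VanishesTo (p.1 : Place K F') ((p.1 : Place K F').ramificationIndex F)
      (fiberFn S p - unif (p.1 : Place K F') ^ (p.2 : ℕ)) :=
  (exists_fiberFn S p).choose_spec.1

omit [Algebra K F] [IsScalarTower K F F'] [FiniteDimensional F F'] [IsAlgClosed K]
  [IsFunctionField K F]
  [IsFunctionField K F'] in
theorem fiberFn_other (S : Finset (Place K F')) (p : FiberIndex (F := F) S) {w' : Place K F'}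
    (hw' : w' ∈ S) (hne : w' ≠ p.1) :
    VanishesTo w' (w'.ramificationIndex F) (fiberFn S p) :=
  (exists_fiberFn S p).choose_spec.2 w' hw' hne

omit [Algebra K F] [IsScalarTower K F F'] [FiniteDimensional F F'] [IsAlgClosed K]
  [IsFunctionField K F]
  [IsFunctionField K F'] in
theorem fiberFn_regular (S : Finset (Place K F')) (p : FiberIndex (F := F) S) {w' : Place K F'}
    (hw' : w' ∈ S) : VanishesTo w' 0 (fiberFn S p) := by
  by_cases h : w' = p.1
  · subst h
    have h1 : VanishesTo (p.1 : Place K F') 0 (unif (p.1 : Place K F') ^ (p.2 : ℕ)) :=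
      Or.inr (by rw [ord_pow, ord_unif]; positivity)
    simpa using ((fiberFn_self S p).mono (by positivity : (0 : ℤ) ≤ _)).add h1
  · exact (fiberFn_other S p hw' h).mono (by positivity)

/-- The first `e` coefficients of the expansions at the places of `S`. -/
def fiberCoord (S : Finset (Place K F')) (f : F') (q : FiberIndex (F := F) S) : K :=
  (laurentExp (q.1 : Place K F') f).coeff ((q.2 : ℕ) : ℤ)

omit [Algebra K F] [IsScalarTower K F F'] [FiniteDimensional F F'] [IsFunctionField K F] in
theorem fiberCoord_eq_zero (S : Finset (Place K F')) {f : F'} {q : FiberIndex (F := F) S}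
    (h : VanishesTo (q.1 : Place K F') ((q.1 : Place K F').ramificationIndex F) f) :
    fiberCoord S f q = 0 :=
  coeff_laurentExp_eq_zero _ h (by exact_mod_cast q.2.2)

omit [Algebra K F] [IsScalarTower K F F'] [FiniteDimensional F F'] [IsFunctionField K F] in
theorem fiberCoord_mul_fiberFn (S : Finset (Place K F')) {f : F'}
    (p q : FiberIndex (F := F) S) (hf : VanishesTo (q.1 : Place K F') 0 f) :
    fiberCoord S (f * fiberFn S p) q =
      if q.1 = p.1 ∧ (p.2 : ℕ) ≤ (q.2 : ℕ) then
        (laurentExp (q.1 : Place K F') f).coeff (((q.2 : ℕ) : ℤ) - (p.2 : ℕ))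
      else 0 := by
  by_cases h : q.1 = p.1
  · obtain ⟨w, i⟩ := p
    obtain ⟨w', j⟩ := q
    obtain rfl : w' = w := h
    have hz : fiberCoord S (f * (fiberFn S ⟨w', i⟩ - unif (w' : Place K F') ^ (i : ℕ)))
        ⟨w', j⟩ = 0 :=
      fiberCoord_eq_zero S (by simpa using hf.mul (fiberFn_self S ⟨w', i⟩))
    simp only [fiberCoord] at hz ⊢
    rw [show f * fiberFn S ⟨w', i⟩ = f * (fiberFn S ⟨w', i⟩ - unif (w' : Place K F') ^ (i : ℕ)) +
      unif (w' : Place K F') ^ (i : ℕ) * f by ring, map_add, HahnSeries.coeff_add, hz, zero_add,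
      map_mul, map_pow, laurentExp_unif, HahnSeries.single_pow, one_pow,
      HahnSeries.coeff_single_mul, one_mul]
    simp only [nsmul_eq_mul, mul_one, true_and]
    split_ifs with hij
    · rfl
    · exact coeff_laurentExp_eq_zero _ hf (by omega)
  · rw [if_neg (fun hh : _ ∧ _ => h hh.1)]
    refine fiberCoord_eq_zero S ?_
    simpa using hf.mul (fiberFn_other S p q.1.2 fun hh => h (Subtype.ext hh))

theorem fiberCoord_algebraMap_mul (S : Finset (Place K F')) (q : FiberIndex (F := F) S)
    (hS : (q.1 : Place K F').restrict F = v) {a : F} (ha : VanishesTo v 0 a) {f : F'}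
    (hf : VanishesTo (q.1 : Place K F') 0 f) :
    fiberCoord S (algebraMap F F' a * f) q = residueConst v a * fiberCoord S f q := by
  have h1 := vanishesTo_algebraMap_of_restrict (q.1 : Place K F') hS
    (residueConst_spec v ((vanishesTo_zero_iff v).1 ha))
  rw [mul_one, map_sub, ← IsScalarTower.algebraMap_apply] at h1
  have hz := fiberCoord_eq_zero S (q := q) (f :=
    (algebraMap F F' a - algebraMap K F' (residueConst v a)) * f) (by simpa using h1.mul hf)
  simp only [fiberCoord] at hz ⊢
  rw [sub_mul, map_sub, HahnSeries.coeff_sub, sub_eq_zero] at hz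
  rw [hz, map_mul, laurentExp_algebraMap, HahnSeries.C_mul_eq_smul, HahnSeries.coeff_smul,
    smul_eq_mul]

omit [Algebra K F] [IsScalarTower K F F'] [FiniteDimensional F F'] [IsFunctionField K F] in
theorem fiberCoord_zero_eq (S : Finset (Place K F')) (p q : FiberIndex (F := F) S) :
    fiberCoord S (fiberFn S p) q = if q = p then 1 else 0 := by
  have h1 : VanishesTo (q.1 : Place K F') 0 (1 : F') := Or.inr (by simp)
  have := fiberCoord_mul_fiberFn S p q h1
  rw [one_mul] at this
  rw [this]
  rw [show laurentExp (q.1 : Place K F') (1 : F') = 1 from map_one _]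
  by_cases hqp : q = p
  · subst hqp
    simp [HahnSeries.coeff_one]
  · rw [if_neg hqp]
    split_ifs with h
    · obtain ⟨w, i⟩ := p
      obtain ⟨w', j⟩ := q
      obtain rfl : w' = w := h.1
      have hij : (i : ℕ) ≠ j := fun hh => hqp (by rw [Fin.ext hh.symm])
      rw [HahnSeries.coeff_one, if_neg (fun hh => hij (by simp only at hh; omega))]
    · rfl

variable {v}

theorem fiberCoord_sum (S : Finset (Place K F')) (hS : ∀ w ∈ S, w.restrict F = v)
    (a : FiberIndex (F := F) S → F) (ha : ∀ p, VanishesTo v 0 (a p)) (q : FiberIndex (F := F) S) :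
    fiberCoord S (∑ p, a p • fiberFn S p) q = residueConst v (a q) := by
  classical
  rw [fiberCoord, map_sum, HahnSeries.coeff_sum]
  rw [Finset.sum_eq_single q]
  · have := fiberCoord_algebraMap_mul v S q (hS _ q.1.2) (ha q) (fiberFn_regular S q q.1.2)
    rw [fiberCoord_zero_eq, if_pos rfl, mul_one] at this
    rw [Algebra.smul_def]
    exact this
  · intro p _ hp
    have := fiberCoord_algebraMap_mul v S q (hS _ q.1.2) (ha p) (fiberFn_regular S p q.1.2)
    rw [fiberCoord_zero_eq, if_neg (Ne.symm hp), mul_zero] at this
    rw [Algebra.smul_def]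
    exact this
  · simp

omit [FiniteDimensional F F'] [IsFunctionField K F'] [IsAlgClosed K] [IsFunctionField K F]
  [Field F'] [Algebra K F'] [Algebra F F'] [IsScalarTower K F F'] in
/-- Scaling a nonzero family to a regular one with a unit among its values. -/
theorem exists_scale {ι : Type*} [Fintype ι] (a : ι → F) (ha : ∃ i, a i ≠ 0) :
    ∃ i, a i ≠ 0 ∧ ∀ j, VanishesTo v (v.ord (a i)) (a j) := by
  classical
  obtain ⟨i, hi⟩ := ha
  obtain ⟨j, hj, hmin⟩ := Finset.exists_min_image (Finset.univ.filter fun i => a i ≠ 0)
    (fun i => v.ord (a i)) ⟨i, by simp [hi]⟩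
  simp only [Finset.mem_filter, Finset.mem_univ, true_and] at hj hmin
  exact ⟨j, hj, fun k => (em (a k = 0)).imp id (hmin k)⟩

theorem residueConst_ne_zero {a : F} (ha : a ≠ 0) (h : v.ord a = 0) : residueConst v a ≠ 0 := by
  have := constantCoeff_expHom_ne_zero v ha h
  rwa [constantCoeff_expHom] at this

theorem linearIndependent_fiberFn (S : Finset (Place K F')) (hS : ∀ w ∈ S, w.restrict F = v) :
    LinearIndependent F (fiberFn (F := F) S) := by
  rw [Fintype.linearIndependent_iff]
  intro a ha
  by_contra! hne
  obtain ⟨i, hi, hmin⟩ := exists_scale (v := v) a hne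
  obtain ⟨t, ht0, ht⟩ := exists_ord_eq_one v
  set c := t ^ (-v.ord (a i))
  have hc0 : c ≠ 0 := zpow_ne_zero _ ht0
  have hc : v.ord c = -v.ord (a i) := by rw [v.ord_zpow, ht, mul_one]
  have hreg : ∀ j, VanishesTo v 0 (c * a j) := fun j => by
    simpa [hc] using VanishesTo.mul (Or.inr le_rfl : VanishesTo v (v.ord c) c) (hmin j)
  have h := fiberCoord_sum S hS (fun j => c * a j) hreg i
  have hz : ∑ p, (c * a p) • fiberFn S p = 0 := by
    simp_rw [mul_smul]
    rw [← Finset.smul_sum, ha, smul_zero]
  rw [hz] at h
  refine residueConst_ne_zero (mul_ne_zero hc0 hi) ?_ (h.symm.trans ?_)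
  · rw [v.ord_mul hc0 hi, hc]; ring
  · simp [fiberCoord]

omit [Algebra K F] [IsScalarTower K F F'] [FiniteDimensional F F'] [IsAlgClosed K]
  [IsFunctionField K F] [IsFunctionField K F'] in
theorem card_fiberIndex (S : Finset (Place K F')) :
    Fintype.card (FiberIndex (F := F) S) = ∑ w ∈ S, w.ramificationIndex F := by
  rw [Fintype.card_sigma, Finset.sum_coe_sort S fun w => Fintype.card (Fin (w.ramificationIndex F))]
  simp

theorem sum_ramificationIndex_le (S : Finset (Place K F')) (hS : ∀ w ∈ S, w.restrict F = v) :
    ∑ w ∈ S, w.ramificationIndex F ≤ Module.finrank F F' := by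
  rw [← card_fiberIndex]
  exact (linearIndependent_fiberFn S hS).fintype_card_le_finrank

variable (F') (v) in
theorem finite_placesOver : {w : Place K F' | w.restrict F = v}.Finite := by
  by_contra h
  obtain ⟨S, hS, hcard⟩ := Set.Infinite.exists_subset_card_eq h (Module.finrank F F' + 1)
  have h1 := sum_ramificationIndex_le (v := v) S fun w hw => hS hw
  have h2 : S.card ≤ ∑ w ∈ S, w.ramificationIndex F := by
    rw [Finset.card_eq_sum_ones]
    exact Finset.sum_le_sum fun w _ => one_le_ramificationIndex w
  omega

variable (F') (v) in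
/-- The places over a given place. -/
def placesOver : Finset (Place K F') := (finite_placesOver F' v).toFinset

theorem mem_placesOver {w : Place K F'} : w ∈ placesOver F' v ↔ w.restrict F = v := by
  simp [placesOver]

variable (F') (v) in
/-- The fibre over `v` is full: `∑ e = [F' : F]`. -/
def FullFiber : Prop :=
  ∑ w ∈ placesOver F' v, w.ramificationIndex F = Module.finrank F F'

section Full

variable (hfull : FullFiber F' v)
include hfull

/-- Basis adapted to a full fibre. -/
def fiberBasis : Module.Basis (FiberIndex (F := F) (placesOver F' v)) F F' :=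
  haveI : Nonempty (FiberIndex (F := F) (placesOver F' v)) := Fintype.card_pos_iff.1 (by
    rw [card_fiberIndex, show ∑ w ∈ placesOver F' v, w.ramificationIndex F =
      Module.finrank F F' from hfull]
    exact Module.finrank_pos)
  basisOfLinearIndependentOfCardEqFinrank
    (linearIndependent_fiberFn _ fun _ hw => mem_placesOver.1 hw)
    (by rw [card_fiberIndex]; exact hfull)

theorem fiberBasis_apply (p : FiberIndex (F := F) (placesOver F' v)) :
    fiberBasis hfull p = fiberFn (placesOver F' v) p := by
  simp only [fiberBasis, coe_basisOfLinearIndependentOfCardEqFinrank]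

theorem fiberBasis_repr_regular {f : F'} (hf : ∀ w ∈ placesOver F' v, VanishesTo w 0 f)
    (p : FiberIndex (F := F) (placesOver F' v)) :
    VanishesTo v 0 ((fiberBasis hfull).repr f p) := by
  set a := fun p => (fiberBasis hfull).repr f p with hadef
  by_contra hp
  have hap : a p ≠ 0 := fun h => hp (Or.inl h)
  obtain ⟨i, hi, hmin⟩ := exists_scale (v := v) a ⟨p, hap⟩
  have hneg : v.ord (a i) < 0 := by
    by_contra! hnn
    exact hp ((hmin p).mono hnn)
  obtain ⟨t, ht0, ht⟩ := exists_ord_eq_one v
  set c := t ^ (-v.ord (a i))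
  have hc0 : c ≠ 0 := zpow_ne_zero _ ht0
  have hc : v.ord c = -v.ord (a i) := by rw [v.ord_zpow, ht, mul_one]
  have hcv : VanishesTo v (-v.ord (a i)) c := Or.inr hc.ge
  have hreg : ∀ j, VanishesTo v 0 (c * a j) := fun j => by
    simpa using hcv.mul (hmin j)
  have h := fiberCoord_sum _ (fun _ hw => mem_placesOver.1 hw) (fun j => c * a j) hreg i
  have hsum : ∑ p, (c * a p) • fiberFn (placesOver F' v) p = c • f := by
    simp_rw [mul_smul]
    rw [← Finset.smul_sum]
    congr 1
    conv_rhs => rw [← (fiberBasis hfull).sum_repr f]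
    exact Finset.sum_congr rfl fun p _ => by rw [fiberBasis_apply]
  rw [hsum] at h
  refine residueConst_ne_zero (mul_ne_zero hc0 hi) (by rw [v.ord_mul hc0 hi, hc]; ring)
    (h.symm.trans (fiberCoord_eq_zero _ ?_))
  have hw := mem_placesOver.1 (i.1 : placesOver F' v).2
  have := (vanishesTo_algebraMap_of_restrict _ hw hcv).mul (hf _ i.1.2)
  rw [Algebra.smul_def]
  refine this.mono ?_
  rw [add_zero]
  exact le_mul_of_one_le_right (by positivity) (by omega)

theorem residueConst_fiberBasis_repr {f : F'} (hf : ∀ w ∈ placesOver F' v, VanishesTo w 0 f)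
    (p : FiberIndex (F := F) (placesOver F' v)) :
    residueConst v ((fiberBasis hfull).repr f p) = fiberCoord (placesOver F' v) f p := by
  rw [← fiberCoord_sum _ (fun _ hw => mem_placesOver.1 hw)
    (fun p => (fiberBasis hfull).repr f p) (fiberBasis_repr_regular hfull hf) p]
  congr 1
  conv_rhs => rw [← (fiberBasis hfull).sum_repr f]
  exact Finset.sum_congr rfl fun p _ => by rw [fiberBasis_apply]

open Classical in
/-- Multiplication by a regular function in an adapted basis, over the valuation ring. -/
def fiberMatrix {f : F'} (hf : ∀ w ∈ placesOver F' v, VanishesTo w 0 f) :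
    Matrix (FiberIndex (F := F) (placesOver F' v)) (FiberIndex (F := F) (placesOver F' v))
      v.toValuationSubring :=
  fun q p => ⟨Algebra.leftMulMatrix (fiberBasis hfull) f q p, by
    rw [Algebra.leftMulMatrix_eq_repr_mul, fiberBasis_apply]
    exact (vanishesTo_zero_iff v).1 (fiberBasis_repr_regular hfull (fun w hw => by
      simpa using (hf w hw).mul (fiberFn_regular _ p hw)) q)⟩

theorem residueHom_fiberMatrix {f : F'} (hf : ∀ w ∈ placesOver F' v, VanishesTo w 0 f)
    (q p : FiberIndex (F := F) (placesOver F' v)) :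
    residueHom v (fiberMatrix hfull hf q p) =
      if q.1 = p.1 ∧ (p.2 : ℕ) ≤ (q.2 : ℕ) then
        (laurentExp (q.1 : Place K F') f).coeff (((q.2 : ℕ) : ℤ) - (p.2 : ℕ))
      else 0 := by
  rw [residueHom_apply]
  simp only [fiberMatrix, Algebra.leftMulMatrix_eq_repr_mul, fiberBasis_apply]
  rw [residueConst_fiberBasis_repr hfull (fun w hw => by
      simpa using (hf w hw).mul (fiberFn_regular _ p hw)) q,
    fiberCoord_mul_fiberFn _ p q (hf _ q.1.2)]

theorem residueHom_fiberMatrix_diag {f : F'} (hf : ∀ w ∈ placesOver F' v, VanishesTo w 0 f)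
    (p : FiberIndex (F := F) (placesOver F' v)) :
    residueHom v (fiberMatrix hfull hf p p) = residueConst (p.1 : Place K F') f := by
  rw [residueHom_fiberMatrix hfull hf p p, if_pos ⟨rfl, le_rfl⟩, sub_self]
  exact coeff_zero_laurentExp _ ((vanishesTo_zero_iff _).1 (hf _ p.1.2))

open Classical in
/-- The trace of a regular function is regular, with value `∑ e f(w)`. -/
theorem trace_regular {f : F'} (hf : ∀ w ∈ placesOver F' v, VanishesTo w 0 f) :
    VanishesTo v 0 (Algebra.trace F F' f) ∧
      residueConst v (Algebra.trace F F' f) =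
        ∑ w ∈ placesOver F' v, (w.ramificationIndex F : K) * residueConst w f := by
  have htr : Algebra.trace F F' f = ((Matrix.trace (fiberMatrix hfull hf) :
      v.toValuationSubring) : F) := by
    rw [Algebra.trace_eq_matrix_trace (fiberBasis hfull)]
    simp only [Matrix.trace, Matrix.diag, fiberMatrix]
    exact (map_sum v.toValuationSubring.subtype
      (fun i => fiberMatrix hfull hf i i) Finset.univ).symm
  refine ⟨htr ▸ (vanishesTo_zero_iff v).2 (Matrix.trace (fiberMatrix hfull hf)).2, ?_⟩
  rw [htr, ← residueHom_apply]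
  simp only [Matrix.trace, Matrix.diag, map_sum, residueHom_fiberMatrix_diag hfull hf]
  rw [Fintype.sum_sigma,
    ← Finset.sum_coe_sort (placesOver F' v)
      fun w => (w.ramificationIndex F : K) * residueConst w f]
  exact Finset.sum_congr rfl fun w _ => by simp

open Classical in
/-- The norm of a regular function is regular, with value `∏ f(w) ^ e`. -/
theorem norm_regular {f : F'} (hf : ∀ w ∈ placesOver F' v, VanishesTo w 0 f) :
    VanishesTo v 0 (Algebra.norm F f) ∧
      residueConst v (Algebra.norm F f) =
        ∏ w ∈ placesOver F' v, residueConst w f ^ w.ramificationIndex F := by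
  have hdet : Algebra.norm F f = (((fiberMatrix hfull hf).det : v.toValuationSubring) : F) := by
    rw [Algebra.norm_eq_matrix_det (fiberBasis hfull)]
    exact (RingHom.map_det v.toValuationSubring.subtype (fiberMatrix hfull hf)).symm
  refine ⟨hdet ▸ (vanishesTo_zero_iff v).2 (fiberMatrix hfull hf).det.2, ?_⟩
  rw [hdet, ← residueHom_apply, RingHom.map_det]
  set M : Matrix (FiberIndex (F := F) (placesOver F' v)) (FiberIndex (F := F) (placesOver F' v))
    K := (residueHom v).mapMatrix (fiberMatrix hfull hf) with hM
  have hentry : ∀ q p, q ≠ p → (p.2 : ℕ) = (q.2 : ℕ) ∨ (q.2 : ℕ) < (p.2 : ℕ) → M q p = 0 := by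
    intro q p hne hle
    rw [hM, RingHom.mapMatrix_apply, Matrix.map_apply, residueHom_fiberMatrix hfull hf q p,
      if_neg]
    rintro ⟨h1, h2⟩
    obtain ⟨w, i⟩ := p
    obtain ⟨w', j⟩ := q
    obtain rfl : w' = w := h1
    exact hne (by rw [Fin.ext (a := j) (b := i) (by simp only at h2 hle; omega)])
  have htri : M.BlockTriangular fun p => OrderDual.toDual (p.2 : ℕ) := fun q p h =>
    hentry q p (fun hh => by subst hh; exact lt_irrefl _ h) (Or.inr (by simpa using h))
  rw [Matrix.BlockTriangular.det htri]
  have hblock : ∀ k, (M.toSquareBlock (fun p => OrderDual.toDual (p.2 : ℕ)) k) =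
      Matrix.diagonal fun p => M p.1 p.1 := by
    intro k
    ext p q
    by_cases h : p = q
    · subst h
      rw [Matrix.diagonal_apply_eq]
      rfl
    · rw [Matrix.diagonal_apply_ne _ h]
      exact hentry p.1 q.1 (fun hh => h (Subtype.ext hh))
        (Or.inl (OrderDual.toDual.injective (q.2.trans p.2.symm)))
  simp only [hblock, Matrix.det_diagonal]
  rw [Finset.prod_congr rfl fun k _ => (Finset.prod_subtype
      (Finset.univ.filter fun p : FiberIndex (F := F) (placesOver F' v) =>
        OrderDual.toDual (p.2 : ℕ) = k) (by simp) fun p => M p p).symm,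
    Finset.prod_fiberwise_of_maps_to (fun p _ => Finset.mem_image_of_mem _ (Finset.mem_univ p))]
  simp only [hM, RingHom.mapMatrix_apply, Matrix.map_apply, residueHom_fiberMatrix_diag hfull hf]
  rw [Fintype.prod_sigma,
    ← Finset.prod_coe_sort (placesOver F' v) fun w => residueConst w f ^ w.ramificationIndex F]
  exact Finset.prod_congr rfl fun w _ => by simp

end Full

end Fermat.Agent.FunctionFieldRR
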