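import Fermat.Agent.FunctionFieldRR.FiberTheory

/-!
# The different exponent of a finite separable extension of function fields

`diffExp w` is the largest pole order at `w` of an element of the trace dual of the regular
functions on the fibre. In the tame case it is `e - 1`.
-/

set_option autoImplicit false

noncomputable section

open AlgebraicCurve
open scoped Classical

namespace Fermat.Agent.FunctionFieldRR

variable {K F F' : Type*} [Field K] [Field F] [Field F'] [Algebra K F] [Algebra K F']
  [Algebra F F'] [IsScalarTower K F F'] [FiniteDimensional F F']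
  [IsAlgClosed K] [IsFunctionField K F] [IsFunctionField K F']

/-- `y` pairs every function regular over `v` to a function regular at `v`. -/
def IsDual (v : Place K F) (y : F') : Prop :=
  ∀ g : F', (∀ w ∈ placesOver F' v, VanishesTo w 0 g) → VanishesTo v 0 (Algebra.trace F F' (y * g))

omit [IsAlgClosed K] [IsFunctionField K F] [IsFunctionField K F'] in
theorem vanishesTo_mul_algebraMap {v : Place K F} {w : Place K F'} (hw : w.restrict F = v)
    {k m : ℤ} {a : F} {y : F'} (ha : VanishesTo v k a) (hy : VanishesTo w m y) :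
    VanishesTo w (w.ramificationIndex F * k + m) (a • y) := by
  rw [Algebra.smul_def]
  exact (vanishesTo_algebraMap_of_restrict w hw ha).mul hy

variable (hfull : ∀ v : Place K F, FullFiber F' v)
include hfull

/-- Functions with poles bounded by `e - 1` lie in the trace dual. -/
theorem isDual_of_one_sub {v : Place K F} {y : F'}
    (hy : ∀ w ∈ placesOver F' v, VanishesTo w (1 - w.ramificationIndex F) y) : IsDual v y := by
  intro g hg
  obtain ⟨t, ht0, ht⟩ := exists_ord_eq_one v
  have h1 : ∀ w ∈ placesOver F' v, VanishesTo w 1 (t • (y * g)) := fun w hw => by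
    have := vanishesTo_mul_algebraMap (mem_placesOver.1 hw) (Or.inr ht.ge : VanishesTo v 1 t)
      ((hy w hw).mul (hg w hw))
    exact this.mono (by omega)
  obtain ⟨h2, h3⟩ := trace_regular (hfull v) fun w hw => (h1 w hw).mono zero_le_one
  rw [Finset.sum_eq_zero (fun w hw => ?_)] at h3
  · have h4 := residueConst_spec v ((vanishesTo_zero_iff v).1 h2)
    rw [h3, map_zero, sub_zero, map_smul, smul_eq_mul] at h4
    have h5 := VanishesTo.mul (Or.inr (by rw [v.ord_inv, ht]) : VanishesTo v (-1) t⁻¹) h4
    rw [inv_mul_cancel_left₀ ht0] at h5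
    exact h5.mono (by omega)
  · rw [residueConst_eq w (c := 0) (by simpa using h1 w hw), mul_zero]

variable [Algebra.IsSeparable F F']

omit hfull in
/-- The trace dual is bounded by the dual of a regular basis. -/
theorem IsDual.vanishesTo {v : Place K F} {y : F'} (hy : IsDual v y)
    {ι : Type*} [Fintype ι] [DecidableEq ι] (u : Module.Basis ι F F')
    (hu : ∀ i, ∀ w ∈ placesOver F' v, VanishesTo w 0 (u i)) {w : Place K F'}
    (hw : w ∈ placesOver F' v) {m : ℤ} (hm : ∀ i, VanishesTo w m (u.traceDual i)) :
    VanishesTo w m y := by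
  rw [← u.traceDual.sum_repr y]
  refine VanishesTo.sum _ _ fun i _ => ?_
  rw [Module.Basis.traceDual_repr_apply, Algebra.traceForm_apply]
  exact (vanishesTo_mul_algebraMap (mem_placesOver.1 hw) (hy (u i) (hu i)) (hm i)).mono (by simp)

theorem bddAbove_dual_poles (w : Place K F') :
    BddAbove {n : ℕ | ∃ y : F', y ≠ 0 ∧ IsDual (w.restrict F) y ∧ w.ord y = -(n : ℤ)} := by
  set u := fiberBasis (hfull (w.restrict F))
  refine ⟨∑ i, (w.ord (u.traceDual i)).natAbs, ?_⟩
  rintro n ⟨y, hy0, hy, hn⟩
  have := (hy.vanishesTo u (fun i w' hw' => by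
      rw [fiberBasis_apply]; exact fiberFn_regular _ _ hw')
    (mem_placesOver.2 rfl : w ∈ placesOver F' (w.restrict F))
    (m := -((∑ i, (w.ord (u.traceDual i)).natAbs : ℕ) : ℤ)) fun i => Or.inr (by
      have := Finset.single_le_sum (f := fun i => (w.ord (u.traceDual i)).natAbs) (by simp)
        (Finset.mem_univ i)
      omega)).resolve_left hy0
  omega

omit [IsFunctionField K F] [Algebra.IsSeparable F F'] hfull in
variable (F) in
/-- The different exponent. -/
def diffExp (w : Place K F') : ℕ :=
  sSup {n : ℕ | ∃ y : F', y ≠ 0 ∧ IsDual (w.restrict F) y ∧ w.ord y = -(n : ℤ)}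

omit [Algebra.IsSeparable F F'] in
theorem isDual_one (v : Place K F) : IsDual (F' := F') v 1 :=
  isDual_of_one_sub hfull fun w _ => Or.inr (by
    have := one_le_ramificationIndex (F := F) w
    simp; omega)

theorem exists_dual_ord_eq (w : Place K F') :
    ∃ y : F', y ≠ 0 ∧ IsDual (w.restrict F) y ∧ w.ord y = -(diffExp F w : ℤ) :=
  Nat.sSup_mem (s := {n : ℕ | ∃ y : F', y ≠ 0 ∧ IsDual (w.restrict F) y ∧ w.ord y = -(n : ℤ)})
    ⟨0, 1, one_ne_zero, isDual_one hfull _, by simp⟩ (bddAbove_dual_poles hfull w)

theorem isDual_iff {v : Place K F} {y : F'} :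
    IsDual v y ↔ ∀ w ∈ placesOver F' v, VanishesTo w (-(diffExp F w : ℤ)) y := by
  constructor
  · intro hy w hw
    rcases eq_or_ne y 0 with rfl | hy0
    · exact VanishesTo.zero
    refine Or.inr ?_
    rcases le_or_gt 0 (w.ord y) with h | h
    · omega
    have := le_csSup (bddAbove_dual_poles hfull w)
      (show (-w.ord y).toNat ∈ {n : ℕ | ∃ z : F', z ≠ 0 ∧ IsDual (w.restrict F) z ∧
          w.ord z = -(n : ℤ)} from
        ⟨y, hy0, (mem_placesOver.1 hw).symm ▸ hy, by omega⟩)
    rw [diffExp]; omega
  · intro hy g hg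
    choose z hz0 hz hzord using fun w : Place K F' => exists_dual_ord_eq hfull w
    set S := placesOver F' v
    set m : ℕ := ∑ w ∈ S, ∑ w' ∈ S, (w'.ord (z w)).natAbs with hm
    have hm' : ∀ w ∈ S, ∀ w' ∈ S, 0 ≤ (m : ℤ) + w'.ord (z w) := by
      intro w hw w' hw'
      have h1 := Finset.single_le_sum (f := fun w => ∑ w' ∈ S, (w'.ord (z w)).natAbs) (by simp) hw
      have h2 := Finset.single_le_sum (f := fun w' : Place K F' => (w'.ord (z w)).natAbs)
        (by simp) hw'
      omega
    choose q hq using fun w : Place K F' =>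
      exists_approx S (fun w' => if w' = w then y / z w else 0) (fun _ => (m : ℤ))
    have hq0 : ∀ w ∈ S, ∀ w' ∈ S, VanishesTo w' 0 (q w) := by
      intro w hw w' hw'
      have h1 := (hq w w' hw').mono (Int.natCast_nonneg m)
      by_cases h : w' = w
      · subst h
        rw [if_pos rfl] at h1
        have h2 : VanishesTo w' 0 (y / z w') := by
          rw [div_eq_mul_inv]
          exact ((hy w' hw).mul (Or.inr le_rfl : VanishesTo w' _ (z w')⁻¹)).mono
            (by rw [w'.ord_inv, hzord]; omega)
        simpa using h1.add h2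
      · simpa [h] using h1
    set r := y - ∑ w ∈ S, z w * q w with hr
    have hrv : ∀ w' ∈ S, VanishesTo w' 0 r := by
      intro w' hw'
      have hsplit : r = (y - z w' * q w') - ∑ w ∈ S.erase w', z w * q w := by
        rw [hr, ← Finset.add_sum_erase _ _ hw']; ring
      rw [hsplit]
      refine VanishesTo.sub ?_ (VanishesTo.sum _ _ fun w hw => ?_)
      · have h1 := hq w' w' hw'
        rw [if_pos rfl] at h1
        have h2 := ((VanishesTo.mul (Or.inr le_rfl : VanishesTo w' _ (z w')) h1).mono
          (m' := 0) (by linarith [hm' w' hw' w' hw'])).neg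
        rwa [mul_sub, mul_div_cancel₀ _ (hz0 w'), neg_sub] at h2
      · have h1 := hq w w' hw'
        rw [if_neg (Ne.symm (Finset.ne_of_mem_erase hw)), sub_zero] at h1
        exact (VanishesTo.mul (Or.inr le_rfl : VanishesTo w' _ (z w)) h1).mono
          (by linarith [hm' w (Finset.mem_of_mem_erase hw) w' hw'])
    have hsum : y * g = r * g + ∑ w ∈ S, z w * (q w * g) := by
      rw [hr, sub_mul, Finset.sum_mul]
      simp_rw [← mul_assoc]
      ring
    rw [hsum, map_add, map_sum]
    refine VanishesTo.add ?_ (VanishesTo.sum _ _ fun w hw => ?_)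
    · refine isDual_of_one_sub hfull (fun w' hw' => (hrv w' hw').mono ?_) g hg
      have := one_le_ramificationIndex (F := F) w'
      omega
    · have h := hz w
      rw [mem_placesOver.1 hw] at h
      exact h _ fun w' hw' => by simpa using (hq0 w hw w' hw').mul (hg w' hw')

theorem sub_one_le_diffExp_aux (w : Place K F') :
    ∃ y : F', y ≠ 0 ∧ IsDual (w.restrict F) y ∧
      w.ord y = -((w.ramificationIndex F - 1 : ℕ) : ℤ) := by
  obtain ⟨y, hy0, hy⟩ := exists_ord_eq (placesOver F' (w.restrict F))
    fun w' : Place K F' => if w' = w then -((w.ramificationIndex F - 1 : ℕ) : ℤ) else 0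
  refine ⟨y, hy0, isDual_of_one_sub hfull fun w' hw' => Or.inr ?_,
    by simpa using hy w (mem_placesOver.2 rfl)⟩
  rw [hy w' hw']
  have := one_le_ramificationIndex (F := F) w'
  split_ifs with h
  · subst h; omega
  · omega

theorem sub_one_le_diffExp (w : Place K F') : w.ramificationIndex F - 1 ≤ diffExp F w :=
  le_csSup (bddAbove_dual_poles hfull w) (sub_one_le_diffExp_aux hfull w)

/-- In the tame case the different exponent is `e - 1`. -/
theorem diffExp_eq_of_tame {w : Place K F'} (h : (w.ramificationIndex F : K) ≠ 0) :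
    diffExp F w = w.ramificationIndex F - 1 := by
  refine le_antisymm ?_ (sub_one_le_diffExp hfull w)
  by_contra! hlt
  obtain ⟨y, hy0, hy, hord⟩ := exists_dual_ord_eq hfull w
  obtain ⟨t, ht0, ht⟩ := exists_ord_eq_one (w.restrict F)
  set S := placesOver F' (w.restrict F)
  have hwS : w ∈ S := mem_placesOver.2 rfl
  have hty0 : t • y ≠ 0 := smul_ne_zero ht0 hy0
  have hty : ∀ w' : Place K F', w'.restrict F = w.restrict F →
      w'.ord (t • y) = w'.ramificationIndex F + w'.ord y := fun w' hw' => by
    rw [Algebra.smul_def, w'.ord_mul (by simpa using ht0) hy0, w'.ord_restrict (F := F), hw', ht,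
      mul_one]
  set m : ℕ := ∑ w' ∈ S, (w'.ord (t • y)).natAbs with hm
  have hm' : ∀ w' ∈ S, (0 : ℤ) ≤ m + w'.ord (t • y) := fun w' hw' => by
    have := Finset.single_le_sum (f := fun w' : Place K F' => (w'.ord (t • y)).natAbs)
      (by simp) hw'
    omega
  obtain ⟨g, hg⟩ := exists_approx S (fun w' => if w' = w then (t • y)⁻¹ else 0)
    fun _ => ((m + 1 : ℕ) : ℤ)
  have hgreg : ∀ w' ∈ S, VanishesTo w' 0 g := fun w' hw' => by
    have h1 := (hg w' hw').mono (Int.natCast_nonneg _)
    by_cases hww : w' = w
    · subst hww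
      rw [if_pos rfl] at h1
      have h2 : VanishesTo w' 0 (t • y)⁻¹ := Or.inr (by rw [w'.ord_inv, hty w' rfl, hord]; omega)
      simpa using h1.add h2
    · simpa [hww] using h1
  -- the product `t y g` is `1` at `w` and `0` at the other places
  have hprod : ∀ w' ∈ S, VanishesTo w' 1 (t • y * g - if w' = w then 1 else 0) := by
    intro w' hw'
    have h1 := (VanishesTo.mul (Or.inr le_rfl : VanishesTo w' _ (t • y)) (hg w' hw')).mono
      (m' := 1) (by have := hm' w' hw'; push_cast; omega)
    by_cases hww : w' = w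
    · subst hww
      simp only [if_pos] at h1 ⊢
      rwa [mul_sub, mul_inv_cancel₀ hty0] at h1
    · simp only [if_neg hww, sub_zero] at h1 ⊢
      exact h1
  have hreg : ∀ w' ∈ S, VanishesTo w' 0 (t • y * g) := fun w' hw' => by
    have := (hprod w' hw').mono zero_le_one
    by_cases hww : w' = w
    · rw [if_pos hww] at this
      simpa using this.add (Or.inr (by simp) : VanishesTo w' 0 (1 : F'))
    · simpa [hww] using this
  obtain ⟨-, h3⟩ := trace_regular (hfull (w.restrict F)) hreg
  have hval : ∀ w' ∈ S, residueConst w' (t • y * g) = if w' = w then (1 : K) else 0 := by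
    intro w' hw'
    refine residueConst_eq w' ?_
    have := hprod w' hw'
    split_ifs at this ⊢ <;> simpa using this
  rw [Finset.sum_congr rfl (fun w' hw' => by rw [hval w' hw'])] at h3
  simp only [mul_ite, mul_one, mul_zero, Finset.sum_ite_eq'] at h3
  rw [if_pos (mem_placesOver.2 rfl)] at h3
  have h4 := hy g hgreg
  refine h (h3.symm.trans ?_)
  rw [smul_mul_assoc, map_smul, smul_eq_mul]
  exact residueConst_eq _ (by
    simpa using VanishesTo.mul (Or.inr ht.ge : VanishesTo (w.restrict F) 1 t) h4)

/-- The twisted duality: pairing against functions with poles bounded by `D`. -/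
theorem forall_trace_regular_iff {v : Place K F} (D : Place K F' → ℤ) {y : F'} :
    (∀ g : F', (∀ w ∈ placesOver F' v, VanishesTo w (-D w) g) →
        VanishesTo v 0 (Algebra.trace F F' (y * g))) ↔
      ∀ w ∈ placesOver F' v, VanishesTo w (D w - diffExp F w) y := by
  obtain ⟨h, h0, hh⟩ := exists_ord_eq (placesOver F' v) D
  have hhV : ∀ w ∈ placesOver F' v, VanishesTo w (D w) h ∧ VanishesTo w (-D w) h⁻¹ := fun w hw =>
    ⟨Or.inr (hh w hw).ge, Or.inr (by rw [w.ord_inv, hh w hw])⟩
  have key : (∀ g : F', (∀ w ∈ placesOver F' v, VanishesTo w (-D w) g) →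
      VanishesTo v 0 (Algebra.trace F F' (y * g))) ↔ IsDual v (y * h⁻¹) := by
    constructor
    · intro H g hg
      rw [mul_assoc]
      exact H _ fun w hw => by simpa using (hhV w hw).2.mul (hg w hw)
    · intro H g hg
      have := H (h * g) fun w hw => by simpa using (hhV w hw).1.mul (hg w hw)
      rwa [mul_assoc, ← mul_assoc h⁻¹, inv_mul_cancel₀ h0, one_mul] at this
  rw [key, isDual_iff hfull]
  refine forall₂_congr fun w hw => ?_
  constructor
  · intro h1
    have := (hhV w hw).1.mul h1
    rw [mul_comm y, ← mul_assoc, mul_inv_cancel₀ h0, one_mul] at this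
    exact this.mono (by omega)
  · intro h1
    exact (h1.mul (hhV w hw).2).mono (by omega)

/-- Outside a finite set the different exponent vanishes. -/
theorem finite_diffExp_ne_zero
    (hfin : ∀ f : F', {w : Place K F' | w.ord f < 0}.Finite) :
    {w : Place K F' | diffExp F w ≠ 0}.Finite := by
  let u := Module.finBasis F F'
  set B : Set (Place K F') := ⋃ i, ({w | w.ord (u i) < 0} ∪ {w | w.ord (u.traceDual i) < 0})
  have hB : B.Finite := Set.finite_iUnion fun i => (hfin _).union (hfin _)
  refine Set.Finite.subset (hB.biUnion fun w _ => finite_placesOver F' (w.restrict F)) ?_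
  intro w hw
  by_contra hcon
  simp only [Set.mem_iUnion, Set.mem_ofPred_eq, not_exists, exists_prop, not_and] at hcon
  apply hw
  obtain ⟨y, hy0, hy, hord⟩ := exists_dual_ord_eq hfull w
  have hreg : ∀ w' : Place K F', w'.restrict F = w.restrict F → ∀ i,
      VanishesTo w' 0 (u i) ∧ VanishesTo w' 0 (u.traceDual i) := by
    intro w' hw' i
    have h1 : w' ∉ B := fun h => hcon w' h hw'.symm
    simp only [B, Set.mem_iUnion, Set.mem_union, Set.mem_ofPred_eq, not_exists, not_or,
      not_lt] at h1
    exact ⟨Or.inr (h1 i).1, Or.inr (h1 i).2⟩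
  have := (hy.vanishesTo u (fun i w' hw' => (hreg w' (mem_placesOver.1 hw') i).1)
    (mem_placesOver.2 rfl : w ∈ placesOver F' (w.restrict F))
    (fun i => (hreg w rfl i).2)).resolve_left hy0
  omega

end Fermat.Agent.FunctionFieldRR
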