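import Fermat.Agent.FunctionFieldRR.PlaceExists

/-!
# Laurent expansions at a place
-/

set_option autoImplicit false

noncomputable section

open AlgebraicCurve Polynomial

namespace Fermat.Agent.FunctionFieldRR

section LaurentDerivative

variable {R : Type*} [CommRing R]

theorem laurent_derivative_coeff (f : LaurentSeries R) (n : ℤ) :
    (LaurentSeries.derivative R f).coeff n = ((n + 1 : ℤ) : R) * f.coeff (n + 1) := by
  simp [zsmul_eq_mul]

theorem laurent_single_zpow (d : ℤ) {K : Type*} [Field K] :
    (HahnSeries.single (1 : ℤ) (1 : K) : LaurentSeries K) ^ d = HahnSeries.single d 1 := by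
  induction d with
  | zero => exact (HahnSeries.single_zero_one).symm
  | succ n ih =>
    rw [zpow_add_one₀ (by simp), ih, HahnSeries.single_mul_single, mul_one]
  | pred n ih =>
    rw [zpow_sub_one₀ (by simp), ih, mul_inv_eq_iff_eq_mul₀ (by simp),
      HahnSeries.single_mul_single, mul_one, sub_add_cancel]

theorem ofPowerSeries_coeff_neg (p : PowerSeries R) {k : ℤ} (hk : k < 0) :
    (HahnSeries.ofPowerSeries ℤ R p).coeff k = 0 := by
  rw [HahnSeries.ofPowerSeries_apply]
  refine HahnSeries.embDomain_of_notMem_range ?_
  rintro ⟨m, rfl⟩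
  exact absurd hk (not_lt.mpr (Int.natCast_nonneg m))

theorem ofPowerSeries_coeff_nat (p : PowerSeries R) (n : ℕ) :
    (HahnSeries.ofPowerSeries ℤ R p).coeff (n : ℤ) = PowerSeries.coeff n p :=
  HahnSeries.ofPowerSeries_apply_coeff p n

theorem laurent_derivative_ofPowerSeries (p : PowerSeries R) :
    LaurentSeries.derivative R (HahnSeries.ofPowerSeries ℤ R p) =
      HahnSeries.ofPowerSeries ℤ R (PowerSeries.derivative R p) := by
  ext k
  rw [laurent_derivative_coeff]
  rcases lt_or_ge k 0 with hk | hk
  · rw [ofPowerSeries_coeff_neg _ hk]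
    rcases eq_or_ne (k + 1) 0 with h | h
    · simp [h]
    · rw [ofPowerSeries_coeff_neg _ (by omega), mul_zero]
  · obtain ⟨n, rfl⟩ := Int.eq_ofNat_of_zero_le hk
    rw [show ((n : ℤ) + 1) = ((n + 1 : ℕ) : ℤ) by push_cast; rfl, ofPowerSeries_coeff_nat,
      ofPowerSeries_coeff_nat, PowerSeries.coeff_derivative]
    push_cast; ring

theorem laurent_derivative_single_mul (m : ℤ) (p : PowerSeries R) :
    LaurentSeries.derivative R (HahnSeries.single m 1 * HahnSeries.ofPowerSeries ℤ R p) =
      HahnSeries.single (m - 1) (m : R) * HahnSeries.ofPowerSeries ℤ R p +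
        HahnSeries.single m 1 * HahnSeries.ofPowerSeries ℤ R (PowerSeries.derivative R p) := by
  ext k
  rw [laurent_derivative_coeff, HahnSeries.coeff_add, ← laurent_derivative_ofPowerSeries,
    HahnSeries.coeff_single_mul, HahnSeries.coeff_single_mul, HahnSeries.coeff_single_mul,
    laurent_derivative_coeff, show k - (m - 1) = k + 1 - m by ring,
    show k - m + 1 = k + 1 - m by ring]
  push_cast; ring

theorem exists_single_mul (f : LaurentSeries R) :
    ∃ (m : ℤ) (p : PowerSeries R),
      f = HahnSeries.single m 1 * HahnSeries.ofPowerSeries ℤ R p :=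
  ⟨_, _, (LaurentSeries.single_order_mul_powerSeriesPart f).symm⟩

theorem laurent_derivative_mul (f g : LaurentSeries R) :
    LaurentSeries.derivative R (f * g) =
      f * LaurentSeries.derivative R g + g * LaurentSeries.derivative R f := by
  obtain ⟨m, p, rfl⟩ := exists_single_mul f
  obtain ⟨m', q, rfl⟩ := exists_single_mul g
  have h : HahnSeries.single m (1 : R) * HahnSeries.ofPowerSeries ℤ R p *
      (HahnSeries.single m' 1 * HahnSeries.ofPowerSeries ℤ R q) =
      HahnSeries.single (m + m') 1 * HahnSeries.ofPowerSeries ℤ R (p * q) := by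
    rw [mul_mul_mul_comm, HahnSeries.single_mul_single, mul_one, RingHom.map_mul]
  rw [h, laurent_derivative_single_mul, laurent_derivative_single_mul,
    laurent_derivative_single_mul, (PowerSeries.derivative R).leibniz, smul_eq_mul, smul_eq_mul,
    map_add, map_mul, map_mul, map_mul]
  have e1 : HahnSeries.single (m + m' - 1) (((m + m' : ℤ)) : R) =
      HahnSeries.single m (1 : R) * HahnSeries.single (m' - 1) (m' : R) +
      HahnSeries.single m' (1 : R) * HahnSeries.single (m - 1) (m : R) := by
    rw [HahnSeries.single_mul_single, HahnSeries.single_mul_single, one_mul, one_mul,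
      show m + (m' - 1) = m + m' - 1 by ring, show m' + (m - 1) = m + m' - 1 by ring,
      ← HahnSeries.single_add]
    push_cast; rw [add_comm (m : R)]
  have e2 : HahnSeries.single (m + m') (1 : R) =
      HahnSeries.single m (1 : R) * HahnSeries.single m' 1 := by
    rw [HahnSeries.single_mul_single, mul_one]
  rw [e1, e2]
  ring

end LaurentDerivative

variable {K F : Type*} [Field K] [Field F] [Algebra K F]
variable [IsAlgClosed K] [IsFunctionField K F]

section Residue

variable (P : Place K F)

/-- The value of a function at a place, junk value `0` at poles. -/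
def residueConst (f : F) : K :=
  letI := Classical.propDecidable
  if h : f ∈ P.toValuationSubring then (exists_residue P h).choose else 0

theorem residueConst_spec {f : F} (hf : f ∈ P.toValuationSubring) :
    VanishesTo P 1 (f - algebraMap K F (residueConst P f)) := by
  rw [residueConst, dif_pos hf]
  exact (exists_residue P hf).choose_spec

theorem residueConst_eq {f : F} {c : K} (h : VanishesTo P 1 (f - algebraMap K F c)) :
    residueConst P f = c := by
  refine residue_unique P (residueConst_spec P ?_) h
  have := (h.mono zero_le_one).add (vanishesTo_algebraMap (P := P) c)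
  rw [sub_add_cancel] at this
  exact (vanishesTo_zero_iff P).1 this

/-- A chosen uniformizer. -/
def unif : F := (exists_ord_eq_one P).choose

omit [IsAlgClosed K] [IsFunctionField K F] in
theorem unif_ne_zero : unif P ≠ 0 := (exists_ord_eq_one P).choose_spec.1

omit [IsAlgClosed K] [IsFunctionField K F] in
theorem ord_unif : P.ord (unif P) = 1 := (exists_ord_eq_one P).choose_spec.2

/-- Shift of an expansion. -/
def expTail (f : F) : F := (f - algebraMap K F (residueConst P f)) / unif P

theorem expTail_mem {f : F} (hf : f ∈ P.toValuationSubring) :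
    expTail P f ∈ P.toValuationSubring := by
  rw [← ord_nonneg_iff, expTail]
  rcases residueConst_spec P hf with h | h
  · simp [h]
  · rcases eq_or_ne (f - algebraMap K F (residueConst P f)) 0 with h0 | h0
    · simp [h0]
    · rw [ord_div P h0 (unif_ne_zero P), ord_unif]; omega

theorem iterate_expTail_mem {f : F} (hf : f ∈ P.toValuationSubring) :
    ∀ n, (expTail P)^[n] f ∈ P.toValuationSubring
  | 0 => hf
  | n + 1 => by
    rw [Function.iterate_succ_apply']
    exact expTail_mem P (iterate_expTail_mem hf n)

/-- Taylor coefficients. -/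
def expCoeff (f : F) (n : ℕ) : K := residueConst P ((expTail P)^[n] f)

theorem expansion_eq (f : F) (n : ℕ) :
    f = ∑ i ∈ Finset.range n, algebraMap K F (expCoeff P f i) * unif P ^ i +
      unif P ^ n * (expTail P)^[n] f := by
  induction n with
  | zero => simp
  | succ n ih =>
    rw [Finset.sum_range_succ, Function.iterate_succ_apply', expTail, add_assoc, pow_succ]
    conv_lhs => rw [ih]
    rw [mul_assoc, mul_div_cancel₀ _ (unif_ne_zero P), expCoeff]
    ring

theorem vanishesTo_expansion {f : F} (hf : f ∈ P.toValuationSubring) (n : ℕ) :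
    VanishesTo P n (f - aeval (unif P) (PowerSeries.trunc n (PowerSeries.mk (expCoeff P f)))) := by
  have h : aeval (unif P) (PowerSeries.trunc n (PowerSeries.mk (expCoeff P f))) =
      ∑ i ∈ Finset.range n, algebraMap K F (expCoeff P f i) * unif P ^ i := by
    rw [PowerSeries.trunc_apply, map_sum, Nat.Ico_zero_eq_range]
    exact Finset.sum_congr rfl fun i _ => by simp [aeval_monomial]
  rw [h]
  nth_rewrite 1 [expansion_eq P f n]
  rw [add_sub_cancel_left]
  have h1 : VanishesTo P (n : ℤ) (unif P ^ n) :=
    Or.inr (by rw [ord_pow, ord_unif, mul_one])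
  simpa using h1.mul ((vanishesTo_zero_iff P).2 (iterate_expTail_mem P hf n))

omit [IsAlgClosed K] [IsFunctionField K F] in
theorem vanishesTo_aeval {t : F} (ht : VanishesTo P 1 t) {q : K[X]} {n : ℕ}
    (h : X ^ n ∣ q) : VanishesTo P n (aeval t q) := by
  obtain ⟨r, rfl⟩ := h
  rw [map_mul, map_pow, aeval_X]
  have h1 : VanishesTo P (n : ℤ) (t ^ n) := by
    rcases ht with rfl | ht
    · rcases eq_or_ne n 0 with rfl | hn
      · exact Or.inr (by simp)
      · exact Or.inl (zero_pow hn)
    · exact Or.inr (by rw [ord_pow]; exact le_mul_of_one_le_right (by positivity) ht)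
  have h2 : VanishesTo P 0 (aeval t r) :=
    (vanishesTo_zero_iff P).2 (aeval_mem P.toValuationSubring P.algebraMap_mem'
      ((vanishesTo_zero_iff P).1 (ht.mono zero_le_one)) r)
  simpa using h1.mul h2

omit [IsAlgClosed K] [IsFunctionField K F] in
theorem coeff_eq_zero_of_vanishesTo {q : K[X]} {n : ℕ}
    (h : VanishesTo P n (aeval (unif P) q)) : ∀ i < n, q.coeff i = 0 := by
  intro i
  induction i using Nat.strong_induction_on with
  | _ i ih =>
    intro hi
    obtain ⟨r, hr⟩ := X_pow_dvd_iff.2 fun d (hd : d < i) => ih d hd (hd.trans hi)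
    rw [hr]
    have hcoe : (X ^ i * r).coeff (0 + i) = r.coeff 0 := coeff_X_pow_mul r i 0
    rw [zero_add] at hcoe
    rw [hcoe]
    by_contra hc
    have hv : VanishesTo P 1 (aeval (unif P) r - algebraMap K F (r.coeff 0)) := by
      have := vanishesTo_aeval P (t := unif P) (Or.inr (ord_unif P).ge) (q := r - C (r.coeff 0))
        (n := 1) (by simp [X_dvd_iff])
      simpa using this
    obtain ⟨h0, hord⟩ := ord_eq_of_vanishesTo_sub
      (f := algebraMap K F (r.coeff 0)) (by simpa using hc) (by rwa [ord_algebraMap])
    rw [ord_algebraMap] at hord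
    rw [hr, map_mul, map_pow, aeval_X] at h
    rcases h with h | h
    · exact mul_ne_zero (pow_ne_zero _ (unif_ne_zero P)) h0 h
    · rw [P.ord_mul (pow_ne_zero _ (unif_ne_zero P)) h0, ord_pow, ord_unif, hord] at h
      omega

/-- The power series expansion, as a function. -/
def expSeries (f : F) : PowerSeries K := PowerSeries.mk (expCoeff P f)

theorem expSeries_unique {f : F} (hf : f ∈ P.toValuationSubring) (A : PowerSeries K)
    (h : ∀ n : ℕ, VanishesTo P n (f - aeval (unif P) (PowerSeries.trunc n A))) :
    expSeries P f = A := by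
  ext i
  have h1 := (h (i + 1)).sub (vanishesTo_expansion P hf (i + 1))
  rw [sub_sub_sub_cancel_left, ← map_sub] at h1
  have := coeff_eq_zero_of_vanishesTo P h1 i (Nat.lt_succ_self i)
  simpa [expSeries, PowerSeries.coeff_trunc, sub_eq_zero] using this

/-- The power series expansion of regular functions. -/
def expHom : P.toValuationSubring →+* PowerSeries K where
  toFun f := expSeries P f
  map_one' := expSeries_unique P (one_mem P.toValuationSubring) 1 fun n => by
    rcases n with _ | n
    · exact (vanishesTo_zero_iff P).2 (by simp)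
    · simpa using VanishesTo.zero
  map_zero' := expSeries_unique P (zero_mem P.toValuationSubring) 0 fun n => by
    simpa using VanishesTo.zero
  map_add' f g := expSeries_unique P (add_mem f.2 g.2) _ fun n => by
    have := (vanishesTo_expansion P f.2 n).add (vanishesTo_expansion P g.2 n)
    convert this using 1
    simp [expSeries]; ring
  map_mul' f g := expSeries_unique P (mul_mem f.2 g.2) _ fun n => by
    simp only [expSeries]
    have hf := vanishesTo_expansion P f.2 n
    have hg := vanishesTo_expansion P g.2 n
    set A := PowerSeries.mk (expCoeff P f) with hA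
    set B := PowerSeries.mk (expCoeff P g) with hB
    have hdvd : X ^ n ∣ PowerSeries.trunc n A * PowerSeries.trunc n B -
        PowerSeries.trunc n (A * B) := by
      rw [X_pow_dvd_iff]
      intro d hd
      rw [Polynomial.coeff_sub, PowerSeries.coeff_trunc, if_pos hd, Polynomial.coeff_mul,
        PowerSeries.coeff_mul, sub_eq_zero]
      refine Finset.sum_congr rfl fun x hx => ?_
      have := Finset.HasAntidiagonal.mem_antidiagonal.1 hx
      rw [PowerSeries.coeff_trunc, PowerSeries.coeff_trunc, if_pos (by omega), if_pos (by omega)]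
    have h3 := vanishesTo_aeval P (t := unif P) (Or.inr (ord_unif P).ge) hdvd
    have ha : VanishesTo P 0 (aeval (unif P) (PowerSeries.trunc n A)) :=
      (vanishesTo_zero_iff P).2 (aeval_mem P.toValuationSubring P.algebraMap_mem'
        ((ord_nonneg_iff _ _).1 (by rw [ord_unif]; omega)) _)
    have h4 : VanishesTo P n (((f : F) - aeval (unif P) (PowerSeries.trunc n A)) * (g : F)) := by
      simpa using hf.mul ((vanishesTo_zero_iff P).2 g.2)
    have h5 : VanishesTo P n (aeval (unif P) (PowerSeries.trunc n A) *
        ((g : F) - aeval (unif P) (PowerSeries.trunc n B))) := by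
      simpa using ha.mul hg
    convert (h4.add h5).add h3 using 1
    simp only [map_sub, map_mul]
    ring

theorem expHom_apply (f : P.toValuationSubring) : expHom P f = expSeries P (f : F) := rfl

theorem constantCoeff_expHom (f : P.toValuationSubring) :
    PowerSeries.constantCoeff (expHom P f) = residueConst P (f : F) := by
  rw [expHom_apply, expSeries, ← PowerSeries.coeff_zero_eq_constantCoeff_apply,
    PowerSeries.coeff_mk]
  rfl

theorem expHom_algebraMap (c : K) :
    expHom P (algebraMap K P.toValuationSubring c) = PowerSeries.C c :=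
  expSeries_unique P (P.algebraMap_mem' c) _ fun n => by
    rcases n with _ | n
    · exact (vanishesTo_zero_iff P).2 (by simpa using P.algebraMap_mem' c)
    · simpa using VanishesTo.zero

theorem expHom_unif :
    expHom P ⟨unif P, (ord_nonneg_iff _ _).1 (by rw [ord_unif]; omega)⟩ = PowerSeries.X :=
  expSeries_unique P ((ord_nonneg_iff _ _).1 (by rw [ord_unif]; omega)) _ fun n => by
    rcases n with _ | _ | n
    · exact (vanishesTo_zero_iff P).2 (by
        simpa using (ord_nonneg_iff _ _).1 (by rw [ord_unif]; omega))
    · have h : PowerSeries.trunc 1 (PowerSeries.X : PowerSeries K) = 0 := by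
        ext d
        simp [PowerSeries.coeff_X]
      rw [h, map_zero, sub_zero]
      exact Or.inr (by simp [ord_unif])
    · simpa using VanishesTo.zero

theorem constantCoeff_expHom_ne_zero {f : F} (hf : f ≠ 0) (h : P.ord f = 0) :
    PowerSeries.constantCoeff (expHom P ⟨f, (ord_nonneg_iff _ _).1 h.ge⟩) ≠ 0 := by
  rw [constantCoeff_expHom]
  intro h0
  have := residueConst_spec P ((ord_nonneg_iff _ _).1 h.ge)
  rw [h0, map_zero, sub_zero] at this
  rcases this with h' | h'
  · exact hf h'
  · omega

theorem expHom_injective : Function.Injective (expHom P) := by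
  rw [injective_iff_map_eq_zero]
  intro f hf
  by_contra hne
  have hf0 : (f : F) ≠ 0 := fun h => hne (Subtype.ext h)
  obtain ⟨n, hn⟩ : ∃ n : ℕ, P.ord (f : F) = n :=
    ⟨_, (Int.toNat_of_nonneg (ord_nonneg_of_mem P f.2)).symm⟩
  have hu : (f : F) / unif P ^ n ≠ 0 := div_ne_zero hf0 (pow_ne_zero _ (unif_ne_zero P))
  have hu0 : P.ord ((f : F) / unif P ^ n) = 0 := by
    rw [ord_div P hf0 (pow_ne_zero _ (unif_ne_zero P)), ord_pow, ord_unif]; omega
  have hfac : f = ⟨unif P, (ord_nonneg_iff _ _).1 (by rw [ord_unif]; omega)⟩ ^ n *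
      ⟨_, (ord_nonneg_iff _ _).1 hu0.ge⟩ :=
    Subtype.ext (by simp [mul_div_cancel₀ _ (pow_ne_zero n (unif_ne_zero P))])
  rw [hfac, map_mul, map_pow, expHom_unif] at hf
  have := (mul_eq_zero.1 hf).resolve_left (pow_ne_zero _ PowerSeries.X_ne_zero)
  exact constantCoeff_expHom_ne_zero P hu hu0 (by rw [this, map_zero])

/-- The Laurent expansion at a place, for the chosen uniformizer. -/
def laurentExp : F →+* LaurentSeries K :=
  IsFractionRing.lift (A := P.toValuationSubring)
    (g := (HahnSeries.ofPowerSeries ℤ K).comp (expHom P))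
    (by simpa using (HahnSeries.ofPowerSeries_injective (Γ := ℤ)).comp (expHom_injective P))

theorem laurentExp_of_mem {f : F} (hf : f ∈ P.toValuationSubring) :
    laurentExp P f = HahnSeries.ofPowerSeries ℤ K (expHom P ⟨f, hf⟩) :=
  IsFractionRing.lift_algebraMap (g := (HahnSeries.ofPowerSeries ℤ K).comp (expHom P)) _ ⟨f, hf⟩

theorem laurentExp_algebraMap (c : K) : laurentExp P (algebraMap K F c) = HahnSeries.C c := by
  rw [laurentExp_of_mem P (P.algebraMap_mem' c)]
  have : (⟨algebraMap K F c, P.algebraMap_mem' c⟩ : P.toValuationSubring) =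
      algebraMap K P.toValuationSubring c := rfl
  rw [this, expHom_algebraMap, HahnSeries.ofPowerSeries_C]

theorem laurentExp_unif : laurentExp P (unif P) = HahnSeries.single 1 1 := by
  rw [laurentExp_of_mem P ((ord_nonneg_iff _ _).1 (by rw [ord_unif]; omega)), expHom_unif,
    HahnSeries.ofPowerSeries_X]

/-- Normal form of the expansion of a nonzero function. -/
theorem exists_laurentExp_eq {f : F} (hf : f ≠ 0) :
    ∃ p : PowerSeries K, PowerSeries.constantCoeff p ≠ 0 ∧
      laurentExp P f = HahnSeries.single (P.ord f) 1 * HahnSeries.ofPowerSeries ℤ K p := by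
  have hu : f / unif P ^ P.ord f ≠ 0 := div_ne_zero hf (zpow_ne_zero _ (unif_ne_zero P))
  have hu0 : P.ord (f / unif P ^ P.ord f) = 0 := by
    rw [ord_div P hf (zpow_ne_zero _ (unif_ne_zero P)), P.ord_zpow, ord_unif]; ring
  refine ⟨_, constantCoeff_expHom_ne_zero P hu hu0, ?_⟩
  have h : laurentExp P f = laurentExp P (unif P) ^ P.ord f *
      laurentExp P (f / unif P ^ P.ord f) := by
    rw [← map_zpow₀, ← map_mul, mul_div_cancel₀ _ (zpow_ne_zero _ (unif_ne_zero P))]
  rw [h, laurentExp_unif, ← laurentExp_of_mem]
  rw [laurent_single_zpow]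

theorem coeff_laurentExp_ord_ne_zero {f : F} (hf : f ≠ 0) :
    (laurentExp P f).coeff (P.ord f) ≠ 0 := by
  obtain ⟨p, hp, h⟩ := exists_laurentExp_eq P hf
  rw [h, HahnSeries.coeff_single_mul, sub_self, one_mul, ← Nat.cast_zero,
    ofPowerSeries_coeff_nat, PowerSeries.coeff_zero_eq_constantCoeff_apply]
  exact hp

theorem coeff_laurentExp_eq_zero {f : F} {m i : ℤ} (h : VanishesTo P m f) (hi : i < m) :
    (laurentExp P f).coeff i = 0 := by
  rcases eq_or_ne f 0 with rfl | hf
  · simp
  obtain ⟨p, -, hp⟩ := exists_laurentExp_eq P hf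
  have hm := h.resolve_left hf
  rw [hp, HahnSeries.coeff_single_mul, one_mul, ofPowerSeries_coeff_neg _ (by omega)]

theorem vanishesTo_of_coeff_eq_zero {f : F} {m : ℤ}
    (h : ∀ i < m, (laurentExp P f).coeff i = 0) : VanishesTo P m f := by
  rcases eq_or_ne f 0 with rfl | hf
  · exact VanishesTo.zero
  refine Or.inr (le_of_not_gt fun hlt => ?_)
  exact coeff_laurentExp_ord_ne_zero P hf (h _ hlt)

theorem coeff_zero_laurentExp {f : F} (hf : f ∈ P.toValuationSubring) :
    (laurentExp P f).coeff 0 = residueConst P f := by
  rw [laurentExp_of_mem P hf, ← Nat.cast_zero, ofPowerSeries_coeff_nat,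
    PowerSeries.coeff_zero_eq_constantCoeff_apply, constantCoeff_expHom]

end Residue

end Fermat.Agent.FunctionFieldRR
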