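import Fermat.Agent.FunctionFieldRR.RationalBase
import Fermat.Agent.FunctionFieldRR.Different

/-!
# Reduced bases

For a divisor `D` we find a basis `b` of `F` over `K(x)` and integers `deg b` with
`L(D + m·(x)∞) = { ∑ pᵢ(x) bᵢ : deg pᵢ ≤ m - degᵢ }` for every `m`.
-/

set_option autoImplicit false

noncomputable section

open AlgebraicCurve IntermediateField Polynomial
open scoped Classical

namespace Fermat.Agent.FunctionFieldRR

section Flag

/-- An increasing exhaustive flag has an adapted basis. -/
theorem exists_adapted_set {K V : Type*} [Field K] [AddCommGroup V] [Module K V]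
    [FiniteDimensional K V] (U : ℤ → Submodule K V) (hmono : Monotone U) (m₀ m₁ : ℤ)
    (h₀ : ∀ m ≤ m₀, U m = ⊥) (h₁ : U m₁ = ⊤) :
    ∃ (s : Set V) (d : V → ℤ), LinearIndepOn K id s ∧ (∀ b ∈ s, b ∈ U (d b)) ∧
      ∀ m, Submodule.span K {b ∈ s | d b ≤ m} = U m := by
  have key : ∀ j : ℕ, ∃ (s : Set V) (d : V → ℤ), LinearIndepOn K id s ∧
      (∀ b ∈ s, b ∈ U (d b) ∧ m₀ < d b) ∧ (∀ b ∈ s, d b ≤ m₀ + j) ∧
      ∀ m ≤ m₀ + j, Submodule.span K {b ∈ s | d b ≤ m} = U m := by
    intro j
    induction j with
    | zero =>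
      refine ⟨∅, fun _ => 0, linearIndepOn_empty K id, by simp, by simp, fun m hm => ?_⟩
      rw [h₀ m (by simpa using hm)]
      simp
    | succ j ih =>
      obtain ⟨s, d, hs, hmem, hle, hspan⟩ := ih
      have hst : s ⊆ (U (m₀ + (j + 1 : ℕ)) : Set V) := fun b hb =>
        hmono (by have := hle b hb; push_cast; omega) (hmem b hb).1
      set s' := hs.extend hst with hs'
      have hsub : s ⊆ s' := LinearIndepOn.subset_extend _ _
      have hs't : s' ⊆ (U (m₀ + (j + 1 : ℕ)) : Set V) := LinearIndepOn.extend_subset _ _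
      have hspan' : Submodule.span K s' = U (m₀ + (j + 1 : ℕ)) := by
        refine le_antisymm (Submodule.span_le.2 hs't) ?_
        intro v hv
        exact hs.subset_span_extend hst hv
      refine ⟨s', fun b => if b ∈ s then d b else m₀ + (j + 1 : ℕ),
        hs.linearIndepOn_extend hst, fun b hb => ?_, fun b hb => ?_, fun m hm => ?_⟩
      · simp only
        split_ifs with h
        · exact hmem b h
        · exact ⟨hs't hb, by push_cast; omega⟩
      · simp only
        split_ifs with h
        · have := hle b h; push_cast; omega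
        · exact le_rfl
      · rcases lt_or_eq_of_le hm with hlt | rfl
        · rw [← hspan m (by push_cast at hlt; omega)]
          congr 1
          ext b
          simp only [Set.mem_ofPred_eq]
          constructor
          · rintro ⟨hb, hbm⟩
            split_ifs at hbm with h
            · exact ⟨h, hbm⟩
            · omega
          · rintro ⟨hb, hbm⟩
            exact ⟨hsub hb, by rw [if_pos hb]; exact hbm⟩
        · rw [← hspan']
          congr 1
          ext b
          simp only [Set.mem_ofPred_eq, and_iff_left_iff_imp]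
          intro hb
          split_ifs with h
          · have := hle b h; push_cast; omega
          · exact le_rfl
  obtain ⟨s, d, hs, hmem, hle, hspan⟩ := key (m₁ - m₀).toNat
  refine ⟨s, d, hs, fun b hb => (hmem b hb).1, fun m => ?_⟩
  rcases le_or_gt m (m₀ + (m₁ - m₀).toNat) with h | h
  · exact hspan m h
  · have htop : ∀ k ≥ m₁, U k = ⊤ := fun k hk => top_unique (h₁ ▸ hmono hk)
    rw [htop m (by omega), ← htop (m₀ + (m₁ - m₀).toNat) (by omega), ← hspan _ le_rfl]
    congr 1
    ext b
    simp only [Set.mem_ofPred_eq]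
    exact ⟨fun hb => ⟨hb.1, hle b hb.1⟩, fun hb => ⟨hb.1, by omega⟩⟩

end Flag

section Combination

variable {K F F' : Type*} [Field K] [Field F] [Field F'] [Algebra K F] [Algebra K F']
  [Algebra F F'] [IsScalarTower K F F'] [FiniteDimensional F F']
  [IsAlgClosed K] [IsFunctionField K F] [IsFunctionField K F'] {v : Place K F}

theorem fiberCoord_combination {S : Finset (Place K F')} (hS : ∀ w ∈ S, w.restrict F = v)
    {ι : Type*} [Fintype ι] (a : ι → F) (z : ι → F') (ha : ∀ i, VanishesTo v 0 (a i))
    (hz : ∀ i, ∀ w ∈ S, VanishesTo w 0 (z i)) :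
    fiberCoord (F := F) S (∑ i, a i • z i) =
      ∑ i, residueConst v (a i) • fiberCoord (F := F) S (z i) := by
  funext q
  rw [Finset.sum_apply, fiberCoord, map_sum, HahnSeries.coeff_sum]
  refine Finset.sum_congr rfl fun i _ => ?_
  rw [Pi.smul_apply, smul_eq_mul, Algebra.smul_def]
  exact fiberCoord_algebraMap_mul v S q (hS _ q.1.2) (ha i) (hz i _ q.1.2)

/-- Coefficients of a regular combination of functions with independent leading parts are
regular. -/
theorem coeff_regular_of_independent {S : Finset (Place K F')}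
    (hS : ∀ w ∈ S, w.restrict F = v) {ι : Type*} [Fintype ι] (a : ι → F) (z : ι → F')
    (hz : ∀ i, ∀ w ∈ S, VanishesTo w 0 (z i))
    (hind : LinearIndependent K fun i => fiberCoord (F := F) S (z i))
    {k : ℤ} (hsum : ∀ w ∈ S, VanishesTo w (w.ramificationIndex F * k) (∑ i, a i • z i)) (i : ι) :
    VanishesTo v k (a i) := by
  by_contra hp
  obtain ⟨j, hj, hmin⟩ := exists_scale (v := v) a ⟨i, fun h => hp (Or.inl h)⟩
  have hlt : v.ord (a j) < k := by
    by_contra! hnn
    exact hp ((hmin i).mono hnn)
  obtain ⟨t, ht0, ht⟩ := exists_ord_eq_one v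
  set c := t ^ (-v.ord (a j))
  have hc0 : c ≠ 0 := zpow_ne_zero _ ht0
  have hc : v.ord c = -v.ord (a j) := by rw [v.ord_zpow, ht, mul_one]
  have hcv : VanishesTo v (-v.ord (a j)) c := Or.inr hc.ge
  have hreg : ∀ l, VanishesTo v 0 (c * a l) := fun l => by simpa using hcv.mul (hmin l)
  have h := fiberCoord_combination hS (fun l => c * a l) z hreg hz
  have h2 : ∑ l, (c * a l) • z l = c • ∑ l, a l • z l := by simp_rw [mul_smul, Finset.smul_sum]
  rw [h2] at h
  have h0 : fiberCoord (F := F) S (c • ∑ l, a l • z l) = 0 := funext fun q => by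
    refine fiberCoord_eq_zero S ?_
    refine (vanishesTo_mul_algebraMap (hS _ q.1.2) hcv (hsum _ q.1.2)).mono ?_
    rw [← mul_add]
    exact le_mul_of_one_le_right (by positivity) (by omega)
  rw [h0] at h
  exact residueConst_ne_zero (mul_ne_zero hc0 hj) (by rw [v.ord_mul hc0 hj, hc]; ring)
    (Fintype.linearIndependent_iff.1 hind _ h.symm j)

theorem linearIndependent_of_independent_coord {S : Finset (Place K F')}
    (hS : ∀ w ∈ S, w.restrict F = v) {ι : Type*} [Fintype ι] (z : ι → F')
    (hz : ∀ i, ∀ w ∈ S, VanishesTo w 0 (z i))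
    (hind : LinearIndependent K fun i => fiberCoord (F := F) S (z i)) :
    LinearIndependent F z := by
  rw [Fintype.linearIndependent_iff]
  intro a ha i
  rcases coeff_regular_of_independent hS a z hz hind (k := v.ord (a i) + 1)
    (fun w _ => by rw [ha]; exact VanishesTo.zero) i with h | h
  · exact h
  · omega

end Combination

variable {K F : Type*} [Field K] [Field F] [Algebra K F] [IsAlgClosed K] [IsFunctionField K F]
  {x : F}

theorem finrank_riemannRochSpace_shift (D : Divisor K F) {f : F} (hf : f ≠ 0) :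
    Module.finrank K (riemannRochSpace (D + divisorOf f)) =
      Module.finrank K (riemannRochSpace D) := by
  have hmap : (riemannRochSpace (D + divisorOf f)).map (LinearMap.mulLeft K f) =
      riemannRochSpace D := by
    ext g
    simp only [Submodule.mem_map, mem_riemannRochSpace, LinearMap.mulLeft_apply,
      Finsupp.add_apply, divisorOf_apply]
    constructor
    · rintro ⟨g, hg, rfl⟩ w
      exact (VanishesTo.mul (Or.inr le_rfl : VanishesTo w _ f) (hg w)).mono (by omega)
    · intro hg
      refine ⟨f⁻¹ * g, fun w => ?_, mul_inv_cancel_left₀ hf g⟩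
      exact (VanishesTo.mul (Or.inr le_rfl : VanishesTo w _ f⁻¹) (hg w)).mono
        (by rw [w.ord_inv]; omega)
  rw [← hmap]
  exact (Submodule.equivMapOfInjective _ (mul_right_injective₀ hf) _).finrank_eq

theorem finrank_riemannRochSpace_eq_zero {D : Divisor K F} (h : Divisor.degree D < 0) :
    Module.finrank K (riemannRochSpace D) = 0 := by
  rw [Submodule.finrank_eq_zero, Submodule.eq_bot_iff]
  intro f hf
  by_contra hf0
  have hle : (0 : Divisor K F) ≤ D + divisorOf f := Finsupp.le_def.2 fun w => by
    have := (mem_riemannRochSpace.1 hf w).resolve_left hf0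
    simp only [Finsupp.add_apply, divisorOf_apply, Finsupp.zero_apply]
    omega
  have h2 : (0 : ℤ) ≤ Divisor.degree (D + divisorOf f) := by
    rw [degree_eq_sum]
    exact Finset.sum_nonneg fun w _ => Finsupp.le_def.1 hle w
  rw [map_add, degree_divisorOf] at h2
  omega

/-- Clearing the denominators at finite places, away from a given value of `x`. -/
theorem exists_clear_denominators (hx : Transcendental K x) (g : F) (D : Divisor K F) (c₀ : Option K)
    (hc₀ : ∀ c ∈ c₀, ∀ w : Place K F, 0 < w.ord (x - algebraMap K F c) →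
      VanishesTo w (-D w) g) :
    ∃ (q : K[X]) (m : ℕ), q ≠ 0 ∧ (∀ c ∈ c₀, q.eval c ≠ 0) ∧
      aeval x q * g ∈ riemannRochSpace (D + (m : ℤ) • polarDivisor (K := K) x) := by
  set bad : Finset (Place K F) := D.support ∪ (finite_ord_ne_zero (K := K) g).toFinset with hbad
  choose c hc using fun w : Place K F => (show ∃ c : K, 0 ≤ w.ord x →
      VanishesTo w 1 (x - algebraMap K F c) from by
    by_cases h : 0 ≤ w.ord x
    · exact (exists_residue w ((ord_nonneg_iff _ _).1 h)).imp fun c hc _ => hc
    · exact ⟨0, fun h' => absurd h' h⟩)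
  obtain ⟨N, hN⟩ : ∃ N : ℕ, ∀ w ∈ bad, (D w).natAbs + (w.ord g).natAbs ≤ N :=
    ⟨_, fun w hw => Finset.single_le_sum (f := fun w : Place K F =>
      (D w).natAbs + (w.ord g).natAbs) (by simp) hw⟩
  set s : Finset K := (bad.image c).filter fun a => a ∉ c₀ with hs
  set q : K[X] := ∏ a ∈ s, (Polynomial.X - Polynomial.C a) ^ N with hq
  have hq0 : q ≠ 0 := Finset.prod_ne_zero_iff.2 fun a _ => pow_ne_zero _ (X_sub_C_ne_zero a)
  refine ⟨q, N + (bad.card + 1) * (N + 1) + q.natDegree, hq0, fun c hc' => ?_, ?_⟩
  · rw [hq, eval_prod, Finset.prod_ne_zero_iff]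
    intro a ha
    simp only [eval_pow, eval_sub, eval_X, eval_C]
    refine pow_ne_zero _ (sub_ne_zero.2 ?_)
    rintro rfl
    exact (Finset.mem_filter.1 ha).2 hc'
  rw [mem_riemannRochSpace]
  intro w
  by_cases hwx : w.ord x < 0
  · -- a pole of `x`
    have hpv : (polarDivisor (K := K) x) w = -w.ord x := by simp; omega
    have hq' : VanishesTo w (q.natDegree * w.ord x) (aeval x q) :=
      Or.inr (ord_aeval_of_pole w hwx hq0).2.ge
    have hgb : -(N : ℤ) + -D w - N ≤ w.ord g ∨ g = 0 := by
      by_cases hwb : w ∈ bad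
      · have := hN w hwb; left; omega
      · simp only [hbad, Finset.mem_union, Finsupp.mem_support_iff, Set.Finite.mem_toFinset,
          Set.mem_ofPred_eq, not_or, not_not] at hwb
        left; omega
    rcases hgb with hgb | rfl
    · refine (hq'.mul (Or.inr hgb : VanishesTo w _ g)).mono ?_
      simp only [Finsupp.add_apply, Finsupp.smul_apply, hpv, smul_eq_mul]
      push_cast
      have h1 : (1 : ℤ) ≤ -w.ord x := by omega
      have hb : (0 : ℤ) ≤ bad.card := Int.natCast_nonneg _
      have h2 : ((bad.card : ℤ) + 1) * (N + 1) * 1 ≤ ((bad.card : ℤ) + 1) * (N + 1) * (-w.ord x) :=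
        mul_le_mul_of_nonneg_left h1 (by positivity)
      have h3 : (N : ℤ) * 1 ≤ N * (-w.ord x) := mul_le_mul_of_nonneg_left h1 (by positivity)
      nlinarith
    · simp [VanishesTo]
  · have hx0 : 0 ≤ w.ord x := not_lt.1 hwx
    have hpv : (polarDivisor (K := K) x) w = 0 := by simp; omega
    have hq' : VanishesTo w 0 (aeval x q) := (vanishesTo_zero_iff w).2
      (aeval_mem w.toValuationSubring w.algebraMap_mem' ((ord_nonneg_iff _ _).1 hx0) _)
    suffices h : VanishesTo w (-D w) (aeval x q * g) by simpa [hpv] using h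
    by_cases hg : VanishesTo w (-D w) g
    · simpa using hq'.mul hg
    · have hwb : w ∈ bad := by
        by_contra hwb
        simp only [hbad, Finset.mem_union, Finsupp.mem_support_iff, Set.Finite.mem_toFinset,
          Set.mem_ofPred_eq, not_or, not_not] at hwb
        exact hg (Or.inr (by omega))
      have hcs : c w ∈ s := by
        refine Finset.mem_filter.2 ⟨Finset.mem_image_of_mem c hwb, fun hmem => ?_⟩
        rcases hc w hx0 with h | h
        · exact hx (sub_eq_zero.1 h ▸ isAlgebraic_algebraMap (c w))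
        · exact hg (hc₀ (c w) hmem w (by omega))
      have hv : VanishesTo w N (aeval x q) := by
        rw [hq, map_prod, ← Finset.mul_prod_erase s _ hcs]
        have h1 : VanishesTo w N (aeval x ((Polynomial.X - Polynomial.C (c w)) ^ N)) := by
          simpa using vanishesTo_aeval w (hc w hx0) (q := Polynomial.X ^ N) (n := N) dvd_rfl
        have h2 : VanishesTo w 0 (∏ a ∈ s.erase (c w),
            aeval x ((Polynomial.X - Polynomial.C a) ^ N)) := by
          rw [← map_prod]
          exact (vanishesTo_zero_iff w).2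
            (aeval_mem w.toValuationSubring w.algebraMap_mem' ((ord_nonneg_iff _ _).1 hx0) _)
        simpa using h1.mul h2
      have := hN w hwb
      exact (VanishesTo.mul hv (Or.inr le_rfl : VanishesTo w _ g)).mono (by omega)

section Reduced

variable (hx : Transcendental K x) [FiniteDimensional K⟮x⟯ F]

variable [IsFunctionField K K⟮x⟯]
include hx

omit [IsFunctionField K K⟮x⟯] in
/-- Some basis lies in `L(D + m (x)∞)`. -/
theorem exists_basis_mem (D : Divisor K F) :
    ∃ (u : Module.Basis (Fin (Module.finrank K⟮x⟯ F)) K⟮x⟯ F) (m : ℕ),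
      ∀ i, u i ∈ riemannRochSpace (D + (m : ℤ) • polarDivisor (K := K) x) := by
  have key := fun i => exists_clear_denominators hx (Module.finBasis K⟮x⟯ F i) D none (by simp)
  choose q m hq0 _ hmem using key
  refine ⟨(Module.finBasis K⟮x⟯ F).unitsSMul fun i => Units.mk0 (aeval (gx (K := K) x) (q i))
    fun h => hq0 i (transcendental_iff.1 (transcendental_gx hx) _ h), ∑ i, m i, fun i => ?_⟩
  rw [Module.Basis.unitsSMul_apply, Units.smul_def, Units.val_mk0, Algebra.smul_def,
    ← aeval_algebraMap_apply, AdjoinSimple.algebraMap_gen]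
  refine riemannRochSpace_mono (add_le_add le_rfl ?_) (hmem i)
  exact smul_le_smul_of_nonneg_right (Int.ofNat_le.2 (Finset.single_le_sum (f := m) (by simp)
    (Finset.mem_univ i))) (polarDivisor_nonneg x)

/-- The fibre at infinity. -/
abbrev InfIndex : Type _ :=
  FiberIndex (F := K⟮x⟯) (placesOver F (infinitePlace hx))

theorem card_infIndex : Fintype.card (InfIndex (F := F) hx) = Module.finrank K⟮x⟯ F := by
  rw [card_fiberIndex]
  exact fullFiber_adjoin hx _

theorem mem_infFiber {w : Place K F} : w ∈ placesOver F (infinitePlace hx) ↔ w.ord x < 0 :=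
  mem_placesOver.trans (restrict_eq_infinitePlace_iff hx)

theorem exists_twist (D : Divisor K F) :
    ∃ h : F, h ≠ 0 ∧ ∀ w ∈ placesOver F (infinitePlace hx), w.ord h = D w :=
  exists_ord_eq _ D

/-- A function with the orders of `D` at the poles of `x`. -/
def twist (D : Divisor K F) : F := (exists_twist hx D).choose

theorem twist_spec (D : Divisor K F) : twist hx D ≠ 0 ∧
    ∀ w ∈ placesOver F (infinitePlace hx), w.ord (twist hx D) = D w :=
  (exists_twist hx D).choose_spec

theorem vanishesTo_twist_mul {D : Divisor K F} {m k : ℤ} {f : F}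
    (hf : f ∈ riemannRochSpace (D + m • polarDivisor (K := K) x)) {w : Place K F}
    (hw : w ∈ placesOver F (infinitePlace hx)) :
    VanishesTo w (w.ramificationIndex K⟮x⟯ * (k - m)) (twist hx D * x ^ (-k) * f) := by
  have hwx := (mem_infFiber hx).1 hw
  have he := ramificationIndex_eq_neg_ord hx hwx
  have hpv : polarDivisor (K := K) x w = -w.ord x := by simp; omega
  have h := (VanishesTo.mul (VanishesTo.mul
    (Or.inr ((twist_spec hx D).2 w hw).ge : VanishesTo w (D w) (twist hx D))
    (Or.inr le_rfl : VanishesTo w _ (x ^ (-k)))) (mem_riemannRochSpace.1 hf w))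
  refine h.mono ?_
  rw [w.ord_zpow, he]
  simp only [Finsupp.add_apply, Finsupp.smul_apply, smul_eq_mul, hpv]
  nlinarith

/-- The leading part at infinity of an element of `L(D + m (x)∞)`. -/
def topPart (D : Divisor K F) (m : ℤ) :
    riemannRochSpace (D + m • polarDivisor (K := K) x) →ₗ[K] InfIndex (F := F) hx → K where
  toFun f := fiberCoord (F := K⟮x⟯) _ (twist hx D * x ^ (-m) * (f : F))
  map_add' f g := by
    funext q; simp [fiberCoord, mul_add]
  map_smul' c f := by
    funext q
    rw [RingHom.id_apply, Pi.smul_apply, smul_eq_mul, Submodule.coe_smul, Algebra.smul_def,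
      ← mul_assoc, mul_comm _ (algebraMap K F c), mul_assoc, fiberCoord, map_mul,
      laurentExp_algebraMap, HahnSeries.C_mul_eq_smul, HahnSeries.coeff_smul, smul_eq_mul]
    rfl

theorem topPart_apply (D : Divisor K F) (m : ℤ)
    (f : riemannRochSpace (D + m • polarDivisor (K := K) x)) :
    topPart hx D m f = fiberCoord (F := K⟮x⟯) (placesOver F (infinitePlace hx))
      (twist hx D * x ^ (-m) * (f : F)) := rfl

theorem mem_sub_one_of_topPart_eq_zero {D : Divisor K F} {m : ℤ}
    {f : riemannRochSpace (D + m • polarDivisor (K := K) x)} (h : topPart hx D m f = 0) :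
    (f : F) ∈ riemannRochSpace (D + (m - 1) • polarDivisor (K := K) x) := by
  refine mem_riemannRochSpace.2 fun w => ?_
  by_cases hwx : w.ord x < 0
  · have hw := (mem_infFiber hx).2 hwx
    have he := ramificationIndex_eq_neg_ord hx hwx
    have hpv : polarDivisor (K := K) x w = -w.ord x := by simp; omega
    have hreg := vanishesTo_twist_mul hx f.2 hw (k := m)
    rw [sub_self, mul_zero] at hreg
    have h1 : VanishesTo w (w.ramificationIndex K⟮x⟯) (twist hx D * x ^ (-m) * (f : F)) := by
      refine vanishesTo_of_coeff_eq_zero w fun i hi => ?_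
      rcases lt_or_ge i 0 with h0 | h0
      · exact coeff_laurentExp_eq_zero w hreg h0
      · obtain ⟨j, rfl⟩ := Int.eq_ofNat_of_zero_le h0
        exact congrFun h ⟨⟨w, hw⟩, ⟨j, by exact_mod_cast hi⟩⟩
    have hx0 : x ≠ 0 := by rintro rfl; simp at hwx
    have ha0 : twist hx D * x ^ (-m) ≠ 0 :=
      mul_ne_zero (twist_spec hx D).1 (zpow_ne_zero _ hx0)
    have h2 := VanishesTo.mul
      (Or.inr le_rfl : VanishesTo w _ (twist hx D * x ^ (-m))⁻¹) h1
    rw [inv_mul_cancel_left₀ ha0] at h2
    refine h2.mono ?_
    rw [w.ord_inv, w.ord_mul (twist_spec hx D).1 (zpow_ne_zero _ hx0), (twist_spec hx D).2 w hw,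
      w.ord_zpow, he]
    simp only [Finsupp.add_apply, Finsupp.smul_apply, smul_eq_mul, hpv]
    linarith
  · have hpv : polarDivisor (K := K) x w = 0 := by simp; omega
    simpa [hpv] using mem_riemannRochSpace.1 f.2 w

theorem topPart_monotone (D : Divisor K F) :
    Monotone fun m => LinearMap.range (topPart hx D m) := by
  refine monotone_int_of_le_succ fun m => ?_
  rintro _ ⟨f, rfl⟩
  have hx0 : x ≠ 0 := fun h => hx (h ▸ isAlgebraic_zero)
  have hmem : x * (f : F) ∈ riemannRochSpace (D + (m + 1) • polarDivisor (K := K) x) :=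
    mem_riemannRochSpace.2 fun w =>
      ((mem_riemannRochSpace.1 (self_mem_riemannRochSpace_polarDivisor x) w).mul
        (mem_riemannRochSpace.1 f.2 w)).mono (by simp [add_smul]; linarith)
  refine ⟨⟨_, hmem⟩, ?_⟩
  rw [topPart_apply, topPart_apply]
  congr 1
  show twist hx D * x ^ (-(m + 1)) * (x * (f : F)) = _
  rw [show -(m + 1) = -m - 1 by ring, zpow_sub_one₀ hx0]
  field_simp

theorem finrank_le_add_range (D : Divisor K F) (m : ℤ) :
    Module.finrank K (riemannRochSpace (D + m • polarDivisor (K := K) x)) ≤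
      Module.finrank K (riemannRochSpace (D + (m - 1) • polarDivisor (K := K) x)) +
        Module.finrank K (LinearMap.range (topPart hx D m)) := by
  rw [← (topPart hx D m).finrank_range_add_finrank_ker, add_comm]
  refine Nat.add_le_add_right ?_ _
  let φ : LinearMap.ker (topPart hx D m) →ₗ[K]
      riemannRochSpace (D + (m - 1) • polarDivisor (K := K) x) :=
    { toFun := fun f => ⟨((f : riemannRochSpace (D + m • polarDivisor (K := K) x)) : F),
        mem_sub_one_of_topPart_eq_zero hx f.2⟩
      map_add' := fun _ _ => rfl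
      map_smul' := fun _ _ => rfl }
  exact LinearMap.finrank_le_finrank_of_injective (f := φ) fun a b h =>
    Subtype.ext (Subtype.ext (congrArg (fun z : riemannRochSpace
      (D + (m - 1) • polarDivisor (K := K) x) => (z : F)) h))

omit [IsFunctionField K K⟮x⟯] in
theorem exists_topPart_eq_bot (D : Divisor K F) :
    ∃ m₀ : ℤ, ∀ m ≤ m₀, riemannRochSpace (D + m • polarDivisor (K := K) x) = ⊥ := by
  refine ⟨-|Divisor.degree D| - 1, fun m hm => ?_⟩
  rw [← Submodule.finrank_eq_zero]
  refine finrank_riemannRochSpace_eq_zero ?_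
  rw [map_add, map_zsmul, degree_polarDivisor hx, smul_eq_mul]
  have h1 : (1 : ℤ) ≤ Module.finrank K⟮x⟯ F := by exact_mod_cast Module.finrank_pos
  have h2 : Divisor.degree D < -m := by linarith [le_abs_self (Divisor.degree D)]
  have h3 : -m * 1 ≤ -m * Module.finrank K⟮x⟯ F :=
    mul_le_mul_of_nonneg_left h1 (by linarith [abs_nonneg (Divisor.degree D)])
  linarith

theorem exists_topPart_surjective (D : Divisor K F) :
    ∃ m₁ : ℤ, LinearMap.range (topPart hx D m₁) = ⊤ := by
  obtain ⟨u, c, hu⟩ := exists_basis_mem hx D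
  obtain ⟨n, hn⟩ : ∃ n, Module.finrank K⟮x⟯ F = n := ⟨_, rfl⟩
  set L₀ := Module.finrank K (riemannRochSpace (D + (c : ℤ) • polarDivisor (K := K) x))
  by_contra! hne
  have hlt : ∀ m, Module.finrank K (LinearMap.range (topPart hx D m)) + 1 ≤ n := fun m => by
    rw [← hn, ← card_infIndex (F := F) hx]
    have := Submodule.finrank_lt (hne m)
    rw [Module.finrank_fintype_fun_eq_card] at this
    omega
  have hgrow : ∀ j : ℕ,
      Module.finrank K (riemannRochSpace (D + ((c : ℤ) + j) • polarDivisor (K := K) x)) + j ≤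
        L₀ + j * n := by
    intro j
    induction j with
    | zero => simp only [add_zero, zero_mul]; exact le_rfl
    | succ j ih =>
      have h1 := finrank_le_add_range hx D ((c : ℤ) + (j + 1 : ℕ))
      rw [show (c : ℤ) + (j + 1 : ℕ) - 1 = (c : ℤ) + j by push_cast; ring] at h1
      have h2 := hlt ((c : ℤ) + (j + 1 : ℕ))
      rw [Nat.succ_mul]
      omega
  have h1 := finrank_mul_le hx u (polarDivisor_nonneg (K := K) x)
    (self_mem_riemannRochSpace_polarDivisor x) hu L₀
  rw [Fintype.card_fin, hn, show ((L₀ : ℤ) • polarDivisor (K := K) x +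
    (D + (c : ℤ) • polarDivisor (K := K) x)) = D + ((c : ℤ) + L₀) • polarDivisor (K := K) x by
      rw [add_smul]; abel] at h1
  have h2 := hgrow L₀
  have h3 : 1 ≤ n := hn ▸ Module.finrank_pos
  rw [Nat.succ_mul] at h1
  omega

/-- The coefficient vectors parametrising `L(D + m (x)∞)`. -/
def combPoly {ι : Type*} [Fintype ι] (b : ι → F) : (ι → K[X]) →ₗ[K] F where
  toFun p := ∑ i, aeval x (p i) * b i
  map_add' p q := by simp [add_mul, Finset.sum_add_distrib]
  map_smul' c p := by simp [Finset.smul_sum]

omit [IsAlgClosed K] [IsFunctionField K F] [FiniteDimensional K⟮x⟯ F]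
  [IsFunctionField K K⟮x⟯] hx in
theorem combPoly_apply {ι : Type*} [Fintype ι] (b : ι → F) (p : ι → K[X]) :
    combPoly (x := x) b p = ∑ i, aeval x (p i) * b i := rfl

omit [IsAlgClosed K] [IsFunctionField K F] [FiniteDimensional K⟮x⟯ F]
  [IsFunctionField K K⟮x⟯] hx in
theorem combPoly_eq_sum_smul {ι : Type*} [Fintype ι] (b : ι → F) (p : ι → K[X]) :
    combPoly (x := x) b p = ∑ i, aeval (gx (K := K) x) (p i) • b i := by
  refine Finset.sum_congr rfl fun i _ => ?_
  rw [Algebra.smul_def, ← aeval_algebraMap_apply, AdjoinSimple.algebraMap_gen]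

/-- A basis adapted to `D`: pieces at every level are polynomial combinations of bounded degree,
and the leading parts at infinity are independent. -/
theorem exists_reducedBasis (D : Divisor K F) :
    ∃ (b : Module.Basis (Fin (Module.finrank K⟮x⟯ F)) K⟮x⟯ F)
      (d : Fin (Module.finrank K⟮x⟯ F) → ℤ),
      (∀ i, b i ∈ riemannRochSpace (D + d i • polarDivisor (K := K) x)) ∧
      LinearIndependent K (fun i => fiberCoord (F := K⟮x⟯) (placesOver F (infinitePlace hx))
        (twist hx D * x ^ (-(d i)) * b i)) ∧
      ∀ m : ℤ, ∀ f ∈ riemannRochSpace (D + m • polarDivisor (K := K) x),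
        ∃ p : Fin (Module.finrank K⟮x⟯ F) → K[X], (∀ i, p i ∈ degreeLT K (m - d i + 1).toNat) ∧
          f = combPoly (x := x) b p := by
  obtain ⟨m₀, hm₀⟩ := exists_topPart_eq_bot hx D
  obtain ⟨m₁, hm₁⟩ := exists_topPart_surjective hx D
  obtain ⟨s, d, hs, hsd, hspan⟩ := exists_adapted_set
    (fun m => LinearMap.range (topPart hx D m)) (topPart_monotone hx D) m₀ m₁
    (fun m hm => by
      rw [LinearMap.range_eq_bot, LinearMap.ext_iff]
      intro f
      have hf : (f : F) = 0 :=
        (Submodule.mem_bot K).1 (SetLike.le_def.1 (hm₀ m hm).le f.2)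
      rw [Subtype.ext hf (a2 := (0 : riemannRochSpace (D + m • polarDivisor (K := K) x))),
        map_zero, LinearMap.zero_apply]) hm₁
  have hsfin : s.Finite := hs.setFinite
  have := hsfin.fintype
  have hcard : Fintype.card s = Module.finrank K⟮x⟯ F := by
    rw [← card_infIndex (F := F) hx]
    have htop : Submodule.span K s = ⊤ := by
      rw [← top_le_iff, ← hm₁, ← hspan m₁]
      exact Submodule.span_mono fun i hi => hi.1
    rw [← Set.toFinset_card, ← finrank_span_set_eq_card hs, htop, finrank_top,
      Module.finrank_fintype_fun_eq_card]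
  obtain ⟨e⟩ : Nonempty (Fin (Module.finrank K⟮x⟯ F) ≃ s) :=
    ⟨(Fintype.equivFinOfCardEq hcard).symm⟩
  set v : Fin (Module.finrank K⟮x⟯ F) → InfIndex (F := F) hx → K := fun i => (e i : _) with hv
  set dd : Fin (Module.finrank K⟮x⟯ F) → ℤ := fun i => d (v i) with hdd
  have hlift : ∀ i, ∃ f : riemannRochSpace (D + dd i • polarDivisor (K := K) x),
      topPart hx D (dd i) f = v i := fun i => hsd (v i) (e i).2
  choose b hb using hlift
  set S := placesOver F (infinitePlace hx)
  set z : Fin (Module.finrank K⟮x⟯ F) → F := fun i => twist hx D * x ^ (-(dd i)) * (b i : F)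
    with hzdef
  have hz : ∀ i, ∀ w ∈ S, VanishesTo w 0 (z i) := fun i w hw => by
    have := vanishesTo_twist_mul hx (b i).2 hw (k := dd i)
    rw [sub_self, mul_zero] at this
    exact this
  have hzc : LinearIndependent K fun i => fiberCoord (F := K⟮x⟯) S (z i) := by
    have he : (fun i => fiberCoord (F := K⟮x⟯) S (z i)) = v := by
      funext i; exact hb i
    rw [he]
    exact hs.linearIndependent.comp e e.injective
  have hzind : LinearIndependent K⟮x⟯ z := linearIndependent_of_independent_coord
    (v := infinitePlace hx) (fun w hw => mem_placesOver.1 hw) z hz hzc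
  have hbind : LinearIndependent K⟮x⟯ fun i => (b i : F) := by
    rw [Fintype.linearIndependent_iff] at hzind ⊢
    intro g hg i
    have h2 := hzind (fun i => g i * (gx (K := K) x) ^ (dd i)) ?_ i
    · exact (mul_eq_zero.1 h2).resolve_right (zpow_ne_zero _ fun h =>
        transcendental_gx hx (h ▸ isAlgebraic_zero))
    · have hx0 : x ≠ 0 := fun h => hx (h ▸ isAlgebraic_zero)
      have : ∀ i, (g i * (gx (K := K) x) ^ (dd i)) • z i = twist hx D * (g i • (b i : F)) := by
        intro i
        rw [Algebra.smul_def, Algebra.smul_def, map_mul, map_zpow₀, AdjoinSimple.algebraMap_gen,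
          hzdef]
        simp only [zpow_neg]
        field_simp
      simp_rw [this, ← Finset.mul_sum, hg, mul_zero]
  have hne : Nonempty (Fin (Module.finrank K⟮x⟯ F)) := ⟨⟨0, Module.finrank_pos⟩⟩
  refine ⟨basisOfLinearIndependentOfCardEqFinrank hbind (Fintype.card_fin _), dd, ?_, ?_, ?_⟩
  · intro i; rw [coe_basisOfLinearIndependentOfCardEqFinrank]; exact (b i).2
  · simpa only [coe_basisOfLinearIndependentOfCardEqFinrank] using hzc
  rw [coe_basisOfLinearIndependentOfCardEqFinrank]
  -- spanning, by induction on the level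
  have key : ∀ j : ℕ, ∀ f ∈ riemannRochSpace (D + (m₀ + j) • polarDivisor (K := K) x),
      ∃ p : Fin (Module.finrank K⟮x⟯ F) → K[X],
        (∀ i, p i ∈ degreeLT K (m₀ + j - dd i + 1).toNat) ∧
        f = combPoly (x := x) (fun i => (b i : F)) p := by
    intro j
    induction j with
    | zero =>
      intro f hf
      rw [hm₀ _ (by simp), Submodule.mem_bot] at hf
      exact ⟨0, fun i => zero_mem _, by simp [hf]⟩
    | succ j ih =>
      intro f hf
      set m := m₀ + (j + 1 : ℕ) with hm
      have hU : topPart hx D m ⟨f, hf⟩ ∈ Submodule.span K (Set.range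
          fun i : {i // dd i ≤ m} => v i) := by
        have h1 : topPart hx D m ⟨f, hf⟩ ∈ LinearMap.range (topPart hx D m) := ⟨_, rfl⟩
        rw [← hspan m] at h1
        refine Submodule.span_mono ?_ h1
        rintro y ⟨hy, hym⟩
        have hvy : v (e.symm ⟨y, hy⟩) = y := by simp [hv]
        exact ⟨⟨e.symm ⟨y, hy⟩, by show d (v _) ≤ m; rw [hvy]; exact hym⟩, hvy⟩
      obtain ⟨a, ha⟩ := (Submodule.mem_span_range_iff_exists_fun K).1 hU
      set p : Fin (Module.finrank K⟮x⟯ F) → K[X] := fun i => if h : dd i ≤ m then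
        Polynomial.C (a ⟨i, h⟩) * Polynomial.X ^ (m - dd i).toNat else 0 with hp
      have hpdeg : ∀ i, p i ∈ degreeLT K (m - dd i + 1).toNat := fun i => by
        rw [hp, mem_degreeLT]
        simp only
        split_ifs with h
        · refine (degree_C_mul_X_pow_le _ _).trans_lt ?_
          exact_mod_cast (show (m - dd i).toNat < (m - dd i + 1).toNat by omega)
        · simp
      have hterm : ∀ i : {i // dd i ≤ m},
          x ^ (m - dd i).toNat * (b i : F) ∈ riemannRochSpace (D + m • polarDivisor (K := K) x) :=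
        fun i => by
          have := mem_riemannRochSpace_pow_mul (polarDivisor_nonneg (K := K) x)
            (self_mem_riemannRochSpace_polarDivisor x) (b i).2
            (le_refl (m - dd i).toNat)
          rwa [Int.toNat_of_nonneg (by have := i.2; omega), add_comm, add_assoc, ← add_smul,
            add_sub_cancel] at this
      have hcomb : combPoly (x := x) (fun i => (b i : F)) p =
          ((∑ i, a i • ⟨_, hterm i⟩ : riemannRochSpace (D + m • polarDivisor (K := K) x)) : F) := by
        rw [combPoly_apply, Submodule.coe_sum]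
        rw [← Finset.sum_subset (Finset.subset_univ (Finset.univ.filter fun i => dd i ≤ m))]
        · rw [Finset.sum_subtype (p := fun i => dd i ≤ m) (Finset.univ.filter fun i => dd i ≤ m)
            (by simp)]
          refine Finset.sum_congr rfl fun i _ => ?_
          rw [hp]
          simp [dif_pos i.2, Algebra.smul_def, mul_assoc]
        · intro i _ hi
          simp only [Finset.mem_filter, Finset.mem_univ, true_and] at hi
          simp [hp, hi]
      set g : riemannRochSpace (D + m • polarDivisor (K := K) x) := ⟨f, hf⟩ - ∑ i, a i • ⟨_, hterm i⟩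
      have hg0 : topPart hx D m g = 0 := by
        rw [map_sub, map_sum, ← ha, sub_eq_zero]
        refine Finset.sum_congr rfl fun i _ => ?_
        rw [map_smul]
        congr 1
        rw [← hb i, topPart_apply, topPart_apply]
        congr 1
        show twist hx D * x ^ (-(dd i)) * (b i : F) =
          twist hx D * x ^ (-m) * (x ^ (m - dd i).toNat * (b i : F))
        have hx0 : x ≠ 0 := fun h => hx (h ▸ isAlgebraic_zero)
        rw [← zpow_natCast, Int.toNat_of_nonneg (by have := i.2; omega)]
        have : x ^ (-(dd i)) = x ^ (-m) * x ^ (m - dd i) := by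
          rw [← zpow_add₀ hx0]; ring_nf
        rw [this]; ring
      have hgmem := mem_sub_one_of_topPart_eq_zero hx hg0
      rw [show m - 1 = m₀ + j by rw [hm]; push_cast; ring] at hgmem
      obtain ⟨q, hqdeg, hq⟩ := ih _ hgmem
      refine ⟨p + q, fun i => add_mem (hpdeg i) (degreeLT_mono (by omega) (hqdeg i)), ?_⟩
      rw [map_add, hcomb, ← hq]
      simp [g]
  intro m f hf
  rcases le_or_gt m m₀ with hle | hgt
  · rw [hm₀ m hle, Submodule.mem_bot] at hf
    exact ⟨0, fun i => zero_mem _, by simp [hf]⟩
  · obtain ⟨j, rfl⟩ : ∃ j : ℕ, m = m₀ + j := ⟨(m - m₀).toNat, by omega⟩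
    exact key j f hf

end Reduced

end Fermat.Agent.FunctionFieldRR
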